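/-
helper2336 — ULTRAPATCHING FUNCTOR (Mathlib-only).

`Patch U I M := (Π n, M n) ⧸ {x | ∀ m, ∀ᶠ n in U, x n ∈ I ^ m • ⊤}` for an ultrafilter `U` on `ℕ`,
an ideal `I` of a commutative ring `B` and a family `M n` of `B`-modules.

This is the Kisin-form patching limit used by the Ihara-avoidance route (findings #3392, #3407,
#3518): one functorial construction, so that several systems of modules (with maps between them,
e.g. an isomorphism modulo a uniformiser) are patched simultaneously.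
-/
import Mathlib

set_option autoImplicit false

namespace Fermat.Agent.S43.helper2336

open Filter

universe u v w

section Defs

variable {B : Type u} [CommRing B] (U : Ultrafilter ℕ) (I : Ideal B)
variable (M : ℕ → Type v) [∀ n, AddCommGroup (M n)] [∀ n, Module B (M n)]

/-- Sequences which are `U`-eventually in `I ^ m • M n`, for every `m`. -/
def patchKer : Submodule B (∀ n, M n) where
  carrier := {x | ∀ m : ℕ, ∀ᶠ n in (U : Filter ℕ), x n ∈ (I ^ m • ⊤ : Submodule B (M n))}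
  add_mem' := by
    intro x y hx hy m
    filter_upwards [hx m, hy m] with n h1 h2
    exact Submodule.add_mem _ h1 h2
  zero_mem' := by
    intro m
    exact Eventually.of_forall fun n => Submodule.zero_mem _
  smul_mem' := by
    intro b x hx m
    filter_upwards [hx m] with n h1
    exact Submodule.smul_mem _ b h1

variable {U I M} in
theorem mem_patchKer {x : ∀ n, M n} :
    x ∈ patchKer U I M ↔
      ∀ m : ℕ, ∀ᶠ n in (U : Filter ℕ), x n ∈ (I ^ m • ⊤ : Submodule B (M n)) :=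
  Iff.rfl

/-- The patched module. -/
abbrev Patch : Type v := (∀ n, M n) ⧸ patchKer U I M

/-- The class of a sequence in the patched module. -/
abbrev Patch.mk : (∀ n, M n) →ₗ[B] Patch U I M := (patchKer U I M).mkQ

variable {U I M} in
theorem Patch.mk_eq_zero {x : ∀ n, M n} :
    Patch.mk U I M x = 0 ↔
      ∀ m : ℕ, ∀ᶠ n in (U : Filter ℕ), x n ∈ (I ^ m • ⊤ : Submodule B (M n)) := by
  rw [Submodule.mkQ_apply, Submodule.Quotient.mk_eq_zero]
  rfl

variable {U I M} in
theorem Patch.mk_surjective : Function.Surjective (Patch.mk U I M) :=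
  Submodule.mkQ_surjective _

variable {U I M} in
theorem Patch.mk_eq_mk {x y : ∀ n, M n} :
    Patch.mk U I M x = Patch.mk U I M y ↔
      ∀ m : ℕ, ∀ᶠ n in (U : Filter ℕ), x n - y n ∈ (I ^ m • ⊤ : Submodule B (M n)) := by
  rw [← sub_eq_zero, ← map_sub, Patch.mk_eq_zero]
  rfl

end Defs

section Functor

variable {B : Type u} [CommRing B] (U : Ultrafilter ℕ) (I : Ideal B)
variable {M : ℕ → Type v} [∀ n, AddCommGroup (M n)] [∀ n, Module B (M n)]
variable {N : ℕ → Type w} [∀ n, AddCommGroup (N n)] [∀ n, Module B (N n)]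
variable {P : ℕ → Type*} [∀ n, AddCommGroup (P n)] [∀ n, Module B (P n)]

theorem map_mem_smul_top {X : Type*} {Y : Type*} [AddCommGroup X] [Module B X] [AddCommGroup Y]
    [Module B Y] (J : Ideal B) (f : X →ₗ[B] Y) {x : X} (hx : x ∈ (J • ⊤ : Submodule B X)) :
    f x ∈ (J • ⊤ : Submodule B Y) := by
  have h : f x ∈ Submodule.map f (J • ⊤ : Submodule B X) := Submodule.mem_map_of_mem hx
  rw [Submodule.map_smul''] at h
  exact Submodule.smul_mono le_rfl le_top h

/-- The componentwise map on sequences. -/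
def piMap (f : ∀ n, M n →ₗ[B] N n) : (∀ n, M n) →ₗ[B] (∀ n, N n) :=
  LinearMap.pi fun n => (f n).comp (LinearMap.proj n)

@[simp] theorem piMap_apply (f : ∀ n, M n →ₗ[B] N n) (x : ∀ n, M n) (n : ℕ) :
    piMap f x n = f n (x n) := rfl

theorem piMap_mem_patchKer (f : ∀ n, M n →ₗ[B] N n) {x : ∀ n, M n} (hx : x ∈ patchKer U I M) :
    piMap f x ∈ patchKer U I N := by
  intro m
  filter_upwards [hx m] with n hn
  exact map_mem_smul_top (I ^ m) (f n) hn

/-- (P1) Functoriality of patching. -/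
def Patch.map (f : ∀ n, M n →ₗ[B] N n) : Patch U I M →ₗ[B] Patch U I N :=
  Submodule.mapQ _ _ (piMap f) fun _ hx => piMap_mem_patchKer U I f hx

@[simp] theorem Patch.map_mk (f : ∀ n, M n →ₗ[B] N n) (x : ∀ n, M n) :
    Patch.map U I f (Patch.mk U I M x) = Patch.mk U I N (fun n => f n (x n)) := rfl

theorem Patch.map_id :
    Patch.map U I (fun n => (LinearMap.id : M n →ₗ[B] M n)) = LinearMap.id := by
  ext x
  rfl

theorem Patch.map_comp (g : ∀ n, N n →ₗ[B] P n) (f : ∀ n, M n →ₗ[B] N n) :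
    Patch.map U I (fun n => (g n).comp (f n)) = (Patch.map U I g).comp (Patch.map U I f) := by
  ext x
  rfl

theorem Patch.map_surjective {f : ∀ n, M n →ₗ[B] N n} (hf : ∀ n, Function.Surjective (f n)) :
    Function.Surjective (Patch.map U I f) := by
  intro y
  obtain ⟨y, rfl⟩ := Patch.mk_surjective y
  choose x hx using fun n => hf n (y n)
  exact ⟨Patch.mk U I M x, by rw [Patch.map_mk]; congr 1; funext n; exact hx n⟩

/-- (P1) Componentwise isomorphisms patch to an isomorphism. -/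
def Patch.congr (e : ∀ n, M n ≃ₗ[B] N n) : Patch U I M ≃ₗ[B] Patch U I N :=
  LinearEquiv.ofLinearMap (Patch.map U I fun n => (e n).toLinearMap)
    (Patch.map U I fun n => (e n).symm.toLinearMap)
    (by
      ext x
      change Patch.map U I _ (Patch.map U I _ (Patch.mk U I N x)) = Patch.mk U I N x
      rw [Patch.map_mk, Patch.map_mk]
      congr 1
      funext n
      exact (e n).apply_symm_apply (x n))
    (by
      ext x
      change Patch.map U I _ (Patch.map U I _ (Patch.mk U I M x)) = Patch.mk U I M x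
      rw [Patch.map_mk, Patch.map_mk]
      congr 1
      funext n
      exact (e n).symm_apply_apply (x n))

@[simp] theorem Patch.congr_mk (e : ∀ n, M n ≃ₗ[B] N n) (x : ∀ n, M n) :
    Patch.congr U I e (Patch.mk U I M x) = Patch.mk U I N (fun n => e n (x n)) := rfl

end Functor

section Quotient

variable {B : Type u} [CommRing B] (U : Ultrafilter ℕ) (I : Ideal B)
variable (M : ℕ → Type v) [∀ n, AddCommGroup (M n)] [∀ n, Module B (M n)]

/-- For a finitely generated ideal `J`, a sequence with all components in `J • M n` lies in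
`J • Π n, M n`. -/
theorem pi_mem_smul_top_of_fg {J : Ideal B} (hJ : J.FG) :
    ∀ w : ∀ n, M n, (∀ n, w n ∈ (J • ⊤ : Submodule B (M n))) →
      w ∈ (J • ⊤ : Submodule B (∀ n, M n)) := by
  refine Submodule.fg_induction (R := B) (M := B)
    (motive := fun J _ => ∀ w : ∀ n, M n, (∀ n, w n ∈ (J • ⊤ : Submodule B (M n))) →
      w ∈ (J • ⊤ : Submodule B (∀ n, M n))) ?_ ?_ J hJ
  · intro a w hw
    have hw' : ∀ n, ∃ y : M n, a • y = w n := by
      intro n
      have h := hw n
      rw [show (Submodule.span B {a} : Submodule B B) = Ideal.span {a} from rfl,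
        Submodule.ideal_span_singleton_smul, Submodule.mem_smul_pointwise_iff_exists] at h
      obtain ⟨y, -, hy⟩ := h
      exact ⟨y, hy⟩
    choose y hy using hw'
    rw [show (Submodule.span B {a} : Submodule B B) = Ideal.span {a} from rfl,
      Submodule.ideal_span_singleton_smul, Submodule.mem_smul_pointwise_iff_exists]
    exact ⟨y, Submodule.mem_top, funext hy⟩
  · intro J₁ J₂ _ _ h₁ h₂ w hw
    have hw' : ∀ n, ∃ u ∈ (J₁ • ⊤ : Submodule B (M n)), ∃ v ∈ (J₂ • ⊤ : Submodule B (M n)),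
        u + v = w n := by
      intro n
      have h := hw n
      rw [Submodule.sup_smul, Submodule.mem_sup] at h
      exact h
    choose u hu v hv huv using hw'
    rw [Submodule.sup_smul, Submodule.mem_sup]
    exact ⟨u, h₁ u hu, v, h₂ v hv, funext huv⟩

theorem mem_sup_of_mkQ_mem {X : Type*} [AddCommGroup X] [Module B X] (J : Ideal B)
    (K : Submodule B X) {y : X} (hy : K.mkQ y ∈ (J • ⊤ : Submodule B (X ⧸ K))) :
    y ∈ (J • ⊤ : Submodule B X) ⊔ K := by
  have h : (J • ⊤ : Submodule B (X ⧸ K)) = Submodule.map K.mkQ (J • ⊤ : Submodule B X) := by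
    rw [Submodule.map_smul'', Submodule.map_top, Submodule.range_mkQ]
  rw [h] at hy
  obtain ⟨z, hz, hzy⟩ := hy
  have hK : y - z ∈ K := by
    have : K.mkQ (y - z) = 0 := by rw [map_sub, hzy, sub_self]
    rwa [Submodule.mkQ_apply, Submodule.Quotient.mk_eq_zero] at this
  have : y = z + (y - z) := by abel
  rw [this]
  exact Submodule.add_mem_sup hz hK

/-- (P2) The kernel of the patched reduction modulo a finitely generated ideal `J` is
`J • Patch`. -/
theorem Patch.ker_map_mkQ (hU : (U : Filter ℕ) ≤ atTop) {J : Ideal B} (hJ : J.FG) :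
    LinearMap.ker (Patch.map U I (fun n => (J • ⊤ : Submodule B (M n)).mkQ)) =
      (J • ⊤ : Submodule B (Patch U I M)) := by
  classical
  apply le_antisymm
  · intro ξ hξ
    obtain ⟨x, rfl⟩ := Patch.mk_surjective ξ
    rw [LinearMap.mem_ker, Patch.map_mk, Patch.mk_eq_zero] at hξ
    have hA : ∀ m : ℕ, ∀ᶠ n in (U : Filter ℕ),
        x n ∈ (I ^ m • ⊤ : Submodule B (M n)) ⊔ (J • ⊤ : Submodule B (M n)) := by
      intro m
      filter_upwards [hξ m] with n hn
      exact mem_sup_of_mkQ_mem (I ^ m) _ hn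
    let μ : ℕ → ℕ := fun n => Nat.findGreatest
      (fun m => x n ∈ (I ^ m • ⊤ : Submodule B (M n)) ⊔ (J • ⊤ : Submodule B (M n))) n
    have h0 : ∀ n, x n ∈ (I ^ 0 • ⊤ : Submodule B (M n)) ⊔ (J • ⊤ : Submodule B (M n)) := by
      intro n
      rw [pow_zero, Ideal.one_eq_top, Submodule.top_smul]
      exact Submodule.mem_sup_left Submodule.mem_top
    have hμ : ∀ n, x n ∈ (I ^ μ n • ⊤ : Submodule B (M n)) ⊔ (J • ⊤ : Submodule B (M n)) :=
      fun n => Nat.findGreatest_spec (P := fun m =>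
        x n ∈ (I ^ m • ⊤ : Submodule B (M n)) ⊔ (J • ⊤ : Submodule B (M n))) (Nat.zero_le n) (h0 n)
    have hdec : ∀ n, ∃ z ∈ (I ^ μ n • ⊤ : Submodule B (M n)),
        ∃ w ∈ (J • ⊤ : Submodule B (M n)), z + w = x n := fun n => Submodule.mem_sup.mp (hμ n)
    choose z hz w hw hzw using hdec
    have hzker : Patch.mk U I M z = 0 := by
      rw [Patch.mk_eq_zero]
      intro m
      filter_upwards [hA m, hU (eventually_ge_atTop m)] with n hn hmn
      have hle : m ≤ μ n := Nat.le_findGreatest (P := fun m =>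
        x n ∈ (I ^ m • ⊤ : Submodule B (M n)) ⊔ (J • ⊤ : Submodule B (M n))) hmn hn
      exact Submodule.smul_mono_left (Ideal.pow_le_pow_right hle) (hz n)
    have hx : x = z + w := funext fun n => (hzw n).symm
    rw [hx, map_add, hzker, zero_add]
    exact map_mem_smul_top J (Patch.mk U I M) (pi_mem_smul_top_of_fg M hJ w hw)
  · rw [Submodule.smul_le]
    intro a ha ξ _
    obtain ⟨x, rfl⟩ := Patch.mk_surjective ξ
    rw [LinearMap.mem_ker, map_smul, Patch.map_mk, ← map_smul]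
    have : (a • fun n => (J • ⊤ : Submodule B (M n)).mkQ (x n)) = 0 := by
      funext n
      rw [Pi.smul_apply, ← map_smul, Pi.zero_apply, Submodule.mkQ_apply,
        Submodule.Quotient.mk_eq_zero]
      exact Submodule.smul_mem_smul ha Submodule.mem_top
    rw [this, map_zero]

/-- (P2) Patching commutes with reduction modulo a finitely generated ideal. -/
noncomputable def Patch.quotEquiv (hU : (U : Filter ℕ) ≤ atTop) {J : Ideal B} (hJ : J.FG) :
    (Patch U I M ⧸ (J • ⊤ : Submodule B (Patch U I M))) ≃ₗ[B]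
      Patch U I (fun n => M n ⧸ (J • ⊤ : Submodule B (M n))) :=
  (Submodule.quotEquivOfEq _ _ (Patch.ker_map_mkQ U I M hU hJ).symm).trans
    (LinearMap.quotKerEquivOfSurjective _
      (Patch.map_surjective U I fun _ => Submodule.mkQ_surjective _))

theorem Patch.quotEquiv_mk (hU : (U : Filter ℕ) ≤ atTop) {J : Ideal B} (hJ : J.FG)
    (x : ∀ n, M n) :
    Patch.quotEquiv U I M hU hJ (Submodule.Quotient.mk (Patch.mk U I M x)) =
      Patch.mk U I _ (fun n => (J • ⊤ : Submodule B (M n)).mkQ (x n)) := rfl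

end Quotient

section Limits

variable {B : Type u} [CommRing B] (U : Ultrafilter ℕ) (I : Ideal B)

/-- A map from `ℕ` to a finite type is `U`-eventually constant. -/
theorem eventually_eq_const_of_finite {α : Type*} [Finite α] (f : ℕ → α) :
    ∃ a : α, ∀ᶠ n in (U : Filter ℕ), f n = a := by
  obtain ⟨a, ha⟩ := Ultrafilter.eq_pure_of_finite (U.map f)
  refine ⟨a, ?_⟩
  have h : ∀ᶠ b in ((U.map f : Ultrafilter α) : Filter α), b = a := by
    rw [ha]
    exact Filter.eventually_pure.mpr rfl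
  rw [Ultrafilter.coe_map] at h
  exact Filter.eventually_map.mp h

/-- `U`-limits exist in an `I`-adically precomplete module with finite quotients. -/
theorem exists_ulim (X : Type*) [AddCommGroup X] [Module B X] [IsPrecomplete I X]
    (hfin : ∀ m : ℕ, Finite (X ⧸ (I ^ m • ⊤ : Submodule B X))) (x : ℕ → X) :
    ∃ y : X, ∀ m : ℕ, ∀ᶠ n in (U : Filter ℕ), x n - y ∈ (I ^ m • ⊤ : Submodule B X) := by
  have h1 : ∀ m : ℕ, ∃ y : X, ∀ᶠ n in (U : Filter ℕ),
      x n - y ∈ (I ^ m • ⊤ : Submodule B X) := by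
    intro m
    have := hfin m
    obtain ⟨a, ha⟩ := eventually_eq_const_of_finite U
      (fun n => (I ^ m • ⊤ : Submodule B X).mkQ (x n))
    obtain ⟨y, rfl⟩ := Submodule.mkQ_surjective _ a
    refine ⟨y, ?_⟩
    filter_upwards [ha] with n hn
    have : (I ^ m • ⊤ : Submodule B X).mkQ (x n - y) = 0 := by rw [map_sub, hn, sub_self]
    rwa [Submodule.mkQ_apply, Submodule.Quotient.mk_eq_zero] at this
  choose y hy using h1
  have hcompat : ∀ {m n : ℕ}, m ≤ n → y m ≡ y n [SMOD (I ^ m • ⊤ : Submodule B X)] := by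
    intro m n hmn
    rw [SModEq.sub_mem]
    have h := (hy m).and (hy n)
    obtain ⟨k, hk1, hk2⟩ := h.exists
    have hk2' : x k - y n ∈ (I ^ m • ⊤ : Submodule B X) :=
      Submodule.smul_mono_left (Ideal.pow_le_pow_right hmn) hk2
    have : y m - y n = (x k - y n) - (x k - y m) := by abel
    rw [this]
    exact Submodule.sub_mem _ hk2' hk1
  obtain ⟨L, hL⟩ := IsPrecomplete.prec' (I := I) y hcompat
  refine ⟨L, fun m => ?_⟩
  filter_upwards [hy m] with n hn
  have h2 : y m - L ∈ (I ^ m • ⊤ : Submodule B X) := SModEq.sub_mem.mp (hL m)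
  have : x n - L = (x n - y m) + (y m - L) := by abel
  rw [this]
  exact Submodule.add_mem _ hn h2

theorem smul_top_eq_self (J : Ideal B) : (J • ⊤ : Submodule B B) = J := by
  rw [smul_eq_mul, Ideal.mul_top]

/-- `U`-limits exist in an `I`-adically precomplete ring with finite quotients. -/
theorem exists_ulim_ring [IsPrecomplete I B] (hfin : ∀ m : ℕ, Finite (B ⧸ I ^ m)) (b : ℕ → B) :
    ∃ c : B, ∀ m : ℕ, ∀ᶠ n in (U : Filter ℕ), b n - c ∈ I ^ m := by
  have hfin' : ∀ m : ℕ, Finite (B ⧸ (I ^ m • ⊤ : Submodule B B)) := by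
    intro m
    have := hfin m
    exact Finite.of_equiv _ (Submodule.quotEquivOfEq _ _ (smul_top_eq_self (I ^ m)).symm).toEquiv
  obtain ⟨c, hc⟩ := exists_ulim U I B hfin' b
  refine ⟨c, fun m => ?_⟩
  filter_upwards [hc m] with n hn
  rwa [smul_top_eq_self] at hn

variable (M : ℕ → Type v) [∀ n, AddCommGroup (M n)] [∀ n, Module B (M n)]

/-- (P4) Annihilators pass to `U`-limits. -/
theorem Patch.smul_eq_zero_of_tendsto (b : ℕ → B) (c : B)
    (hb : ∀ m : ℕ, ∀ᶠ n in (U : Filter ℕ), b n - c ∈ I ^ m)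
    (hkill : ∀ᶠ n in (U : Filter ℕ), ∀ x : M n, b n • x = 0) (ξ : Patch U I M) :
    c • ξ = 0 := by
  obtain ⟨x, rfl⟩ := Patch.mk_surjective ξ
  rw [← map_smul, Patch.mk_eq_zero]
  intro m
  filter_upwards [hb m, hkill] with n h1 h2
  have : (c • x) n = (c - b n) • x n := by
    rw [Pi.smul_apply, sub_smul, h2, sub_zero]
  rw [this]
  have h3 : c - b n ∈ I ^ m := by
    have := (I ^ m).neg_mem h1
    rwa [neg_sub] at this
  exact Submodule.smul_mem_smul h3 Submodule.mem_top

/-- (P4) An element killing `U`-most of the modules kills the patched module. -/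
theorem Patch.smul_eq_zero_of_eventually (c : B)
    (hkill : ∀ᶠ n in (U : Filter ℕ), ∀ x : M n, c • x = 0) (ξ : Patch U I M) : c • ξ = 0 :=
  Patch.smul_eq_zero_of_tendsto U I M (fun _ => c) c
    (fun m => Eventually.of_forall fun _ => by rw [sub_self]; exact (I ^ m).zero_mem) hkill ξ

/-- (P4) An ideal killing `U`-most of the modules kills the patched module. -/
theorem Patch.ideal_smul_eq_bot (J : Ideal B)
    (hkill : ∀ c ∈ J, ∀ᶠ n in (U : Filter ℕ), ∀ x : M n, c • x = 0) :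
    (J • ⊤ : Submodule B (Patch U I M)) = ⊥ := by
  rw [eq_bot_iff, Submodule.smul_le]
  intro c hc ξ _
  rw [Submodule.mem_bot]
  exact Patch.smul_eq_zero_of_eventually U I M c (hkill c hc) ξ

/-- (P6) The patched module is `I`-adically separated. -/
instance Patch.isHausdorff : IsHausdorff I (Patch U I M) := by
  refine ⟨fun ξ hξ => ?_⟩
  obtain ⟨x, rfl⟩ := Patch.mk_surjective ξ
  rw [Patch.mk_eq_zero]
  intro m
  have h := hξ m
  rw [SModEq.zero] at h
  have h' := mem_sup_of_mkQ_mem (I ^ m) (patchKer U I M) h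
  obtain ⟨y, hy, z, hz, hyz⟩ := Submodule.mem_sup.mp h'
  filter_upwards [hz m] with n hn
  rw [← hyz, Pi.add_apply]
  exact Submodule.add_mem _ (map_mem_smul_top (I ^ m) (LinearMap.proj n) hy) hn

section Const

variable (X : Type v) [AddCommGroup X] [Module B X]

/-- The diagonal map of a constant family. -/
def Patch.diag : X →ₗ[B] Patch U I (fun _ : ℕ => X) :=
  (Patch.mk U I (fun _ : ℕ => X)).comp (LinearMap.pi fun _ => LinearMap.id)

@[simp] theorem Patch.diag_apply (x : X) :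
    Patch.diag U I X x = Patch.mk U I (fun _ : ℕ => X) (fun _ => x) := rfl

theorem Patch.diag_injective [IsHausdorff I X] : Function.Injective (Patch.diag U I X) := by
  rw [injective_iff_map_eq_zero]
  intro x hx
  rw [Patch.diag_apply, Patch.mk_eq_zero] at hx
  apply IsHausdorff.haus' (I := I) x
  intro m
  rw [SModEq.zero]
  exact Filter.eventually_const.mp (hx m)

theorem Patch.diag_surjective [IsPrecomplete I X]
    (hfin : ∀ m : ℕ, Finite (X ⧸ (I ^ m • ⊤ : Submodule B X))) :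
    Function.Surjective (Patch.diag U I X) := by
  intro ξ
  obtain ⟨x, rfl⟩ := Patch.mk_surjective ξ
  obtain ⟨y, hy⟩ := exists_ulim U I X hfin x
  refine ⟨y, ?_⟩
  rw [Patch.diag_apply, Patch.mk_eq_mk]
  intro m
  filter_upwards [hy m] with n hn
  have := Submodule.neg_mem _ hn
  rwa [neg_sub] at this

/-- (P3) A constant family of an `I`-adically complete module with finite quotients patches to
itself. -/
noncomputable def Patch.constEquiv [IsAdicComplete I X]
    (hfin : ∀ m : ℕ, Finite (X ⧸ (I ^ m • ⊤ : Submodule B X))) :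
    X ≃ₗ[B] Patch U I (fun _ : ℕ => X) :=
  LinearEquiv.ofBijective (Patch.diag U I X)
    ⟨Patch.diag_injective U I X, Patch.diag_surjective U I X hfin⟩

@[simp] theorem Patch.constEquiv_apply [IsAdicComplete I X]
    (hfin : ∀ m : ℕ, Finite (X ⧸ (I ^ m • ⊤ : Submodule B X))) (x : X) :
    Patch.constEquiv U I X hfin x = Patch.mk U I (fun _ : ℕ => X) (fun _ => x) := rfl

end Const

end Limits

section Nakayama

variable {B : Type u} [CommRing B] (I : Ideal B)

/-- In a finite module over a ring whose Jacobson radical contains `I`, a submodule with at most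
`k` elements is killed by `I ^ k`. -/
theorem pow_smul_eq_bot_of_card_le (hI : I ≤ Ideal.jacobson ⊥) {Q : Type*} [AddCommGroup Q]
    [Module B Q] [Finite Q] :
    ∀ (k : ℕ) (Y : Submodule B Q), Nat.card Y ≤ k → (I ^ k • Y : Submodule B Q) = ⊥ := by
  intro k
  induction k with
  | zero =>
    intro Y hY
    have : 0 < Nat.card Y := Nat.card_pos
    omega
  | succ k ih =>
    intro Y hY
    by_cases hbot : Y = ⊥
    · rw [hbot, Submodule.smul_bot]
    · have hne : ¬ Y ≤ I • Y := by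
        intro hle
        have hfg : Y.FG := by
          have : IsNoetherian B Q := isNoetherian_of_finite B Q
          exact IsNoetherian.noetherian Y
        exact hbot (Submodule.eq_bot_of_le_smul_of_le_jacobson_bot I Y hfg hle hI)
      have hlt : (I • Y : Submodule B Q) < Y := lt_of_le_of_ne Submodule.smul_le_right
        (fun h => hne h.ge)
      have hcard : Nat.card (I • Y : Submodule B Q) < Nat.card Y := by
        have h1 : ((I • Y : Submodule B Q) : Set Q) ⊂ (Y : Set Q) := hlt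
        have h2 := Set.ncard_lt_ncard h1 (Set.toFinite _)
        rw [← Nat.card_coe_set_eq, ← Nat.card_coe_set_eq] at h2
        exact h2
      have := ih (I • Y) (by omega)
      rw [pow_succ, Submodule.mul_smul]
      exact this

/-- Nakayama with a cardinality bound: if `X ⧸ K` has at most `k` elements then
`I ^ k • X ≤ K`. -/
theorem pow_smul_top_le_of_card_le (hI : I ≤ Ideal.jacobson ⊥) {X : Type*} [AddCommGroup X]
    [Module B X] (K : Submodule B X) [Finite (X ⧸ K)] {k : ℕ} (hk : Nat.card (X ⧸ K) ≤ k) :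
    (I ^ k • ⊤ : Submodule B X) ≤ K := by
  intro x hx
  have h1 : K.mkQ x ∈ (I ^ k • ⊤ : Submodule B (X ⧸ K)) := map_mem_smul_top (I ^ k) K.mkQ hx
  have h2 : (I ^ k • ⊤ : Submodule B (X ⧸ K)) = ⊥ := by
    apply pow_smul_eq_bot_of_card_le I hI k ⊤
    have : Nat.card (⊤ : Submodule B (X ⧸ K)) = Nat.card (X ⧸ K) :=
      Nat.card_congr (Submodule.topEquiv (R := B) (M := X ⧸ K)).toEquiv
    omega
  rw [h2, Submodule.mem_bot, Submodule.mkQ_apply, Submodule.Quotient.mk_eq_zero] at h1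
  exact h1

variable {S : Type*} [CommRing S] [Algebra S B] (𝔫 : Ideal S)

/-- A module spanned by `ι` over `S` has at most `#(S ⧸ J) ^ #ι` elements modulo `J`. -/
theorem card_quot_smul_top_le {ι : Type*} [Fintype ι] (J : Ideal S) [Finite (S ⧸ J)]
    {X : Type*} [AddCommGroup X] [Module S X] (e : ι → X)
    (hspan : ∀ x : X, ∃ c : ι → S, x = ∑ i, c i • e i) :
    Finite (X ⧸ (J • ⊤ : Submodule S X)) ∧
      Nat.card (X ⧸ (J • ⊤ : Submodule S X)) ≤ Nat.card (S ⧸ J) ^ Fintype.card ι := by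
  let g : (ι → S ⧸ J) → X ⧸ (J • ⊤ : Submodule S X) := fun c =>
    Submodule.Quotient.mk (∑ i, (Quotient.out (c i) : S) • e i)
  have hg : Function.Surjective g := by
    intro y
    obtain ⟨x, rfl⟩ := Submodule.mkQ_surjective _ y
    obtain ⟨c, rfl⟩ := hspan x
    refine ⟨fun i => Ideal.Quotient.mk J (c i), ?_⟩
    change Submodule.Quotient.mk _ = Submodule.Quotient.mk _
    rw [Submodule.Quotient.eq, ← Finset.sum_sub_distrib]
    refine Submodule.sum_mem _ fun i _ => ?_
    rw [← sub_smul]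
    refine Submodule.smul_mem_smul ?_ Submodule.mem_top
    rw [← Ideal.Quotient.eq]
    exact Ideal.Quotient.mk_out _
  have hfin : Finite (X ⧸ (J • ⊤ : Submodule S X)) := Finite.of_surjective g hg
  refine ⟨hfin, ?_⟩
  have h := Nat.card_le_card_of_surjective g hg
  rwa [Nat.card_fun, Nat.card_eq_fintype_card (α := ι)] at h

/-- Uniform Nakayama: for a `B`-module spanned over `S` by `#ι` elements, a fixed power of `I`
(depending only on `#ι` and `#(S ⧸ J)`) maps it into `J • ⊤`. -/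
theorem pow_smul_top_le_smul_top (hI : I ≤ Ideal.jacobson ⊥) {ι : Type*} [Fintype ι] (J : Ideal S)
    [Finite (S ⧸ J)] {X : Type*} [AddCommGroup X] [Module B X] [Module S X] [IsScalarTower S B X]
    (e : ι → X) (hspan : ∀ x : X, ∃ c : ι → S, x = ∑ i, c i • e i) {x : X}
    (hx : x ∈ (I ^ (Nat.card (S ⧸ J) ^ Fintype.card ι) • ⊤ : Submodule B X)) :
    x ∈ (J • ⊤ : Submodule S X) := by
  obtain ⟨hfin, hcard⟩ := card_quot_smul_top_le J e hspan
  let K : Submodule B X := J.map (algebraMap S B) • ⊤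
  have hK : K.restrictScalars S = (J • ⊤ : Submodule S X) := by
    rw [Ideal.smul_restrictScalars, Submodule.restrictScalars_top]
  let eqv : (X ⧸ (J • ⊤ : Submodule S X)) ≃ (X ⧸ K) :=
    ((Submodule.quotEquivOfEq _ _ hK.symm).trans
      (Submodule.Quotient.restrictScalarsEquiv S K)).toEquiv
  have : Finite (X ⧸ K) := Finite.of_equiv _ eqv
  have hcardK : Nat.card (X ⧸ K) ≤ Nat.card (S ⧸ J) ^ Fintype.card ι := by
    rw [← Nat.card_congr eqv]
    exact hcard
  have h := pow_smul_top_le_of_card_le I hI K hcardK hx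
  have h' : x ∈ K.restrictScalars S := h
  rwa [hK] at h'

/-- Uniform Nakayama, two-ring form (for `B = S ⊗ A`, which is not local): if
`I ≤ J₀ B + IA B` with `IA` in the Jacobson radical of `A`, then `I ^ (m + k)` maps a `B`-module
spanned over `S` by `#ι` elements into `J₀ ^ m • ⊤`, where `k = #(S ⧸ J₀ ^ m) ^ #ι`. -/
theorem pow_smul_top_le_smul_top_of_sup {A : Type*} [CommRing A] [Algebra A B] (IA : Ideal A)
    (hIA : IA ≤ Ideal.jacobson ⊥) (J₀ : Ideal S)
    (hI : I ≤ J₀.map (algebraMap S B) ⊔ IA.map (algebraMap A B))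
    {ι : Type*} [Fintype ι] (m : ℕ) [Finite (S ⧸ J₀ ^ m)]
    {X : Type*} [AddCommGroup X] [Module B X] [Module S X] [IsScalarTower S B X]
    [Module A X] [IsScalarTower A B X]
    (e : ι → X) (hspan : ∀ x : X, ∃ c : ι → S, x = ∑ i, c i • e i) {x : X}
    (hx : x ∈ (I ^ (m + Nat.card (S ⧸ J₀ ^ m) ^ Fintype.card ι) • ⊤ : Submodule B X)) :
    x ∈ (J₀ ^ m • ⊤ : Submodule S X) := by
  set k := Nat.card (S ⧸ J₀ ^ m) ^ Fintype.card ι with hk
  obtain ⟨hfin, hcard⟩ := card_quot_smul_top_le (J₀ ^ m) e hspan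
  let K : Submodule B X := (J₀ ^ m).map (algebraMap S B) • ⊤
  have hK : K.restrictScalars S = (J₀ ^ m • ⊤ : Submodule S X) := by
    rw [Ideal.smul_restrictScalars, Submodule.restrictScalars_top]
  let eqv : (X ⧸ (J₀ ^ m • ⊤ : Submodule S X)) ≃ (X ⧸ K) :=
    ((Submodule.quotEquivOfEq _ _ hK.symm).trans
      (Submodule.Quotient.restrictScalarsEquiv S K)).toEquiv
  let KA : Submodule A X := K.restrictScalars A
  let eqvA : (X ⧸ KA) ≃ (X ⧸ K) := (Submodule.Quotient.restrictScalarsEquiv A K).toEquiv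
  have hfinA : Finite (X ⧸ KA) := Finite.of_equiv _ (eqv.trans eqvA.symm)
  have hcardA : Nat.card (X ⧸ KA) ≤ k := by
    rw [← Nat.card_congr (eqv.trans eqvA.symm)]
    exact hcard
  -- the `A`-part
  have hA : (IA ^ k • ⊤ : Submodule A X) ≤ KA := pow_smul_top_le_of_card_le IA hIA KA hcardA
  have hA' : ((IA.map (algebraMap A B)) ^ k • ⊤ : Submodule B X) ≤ K := by
    intro y hy
    have h1 : y ∈ (((IA ^ k).map (algebraMap A B)) • ⊤ : Submodule B X).restrictScalars A := by
      rw [Ideal.map_pow]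
      exact hy
    rw [Ideal.smul_restrictScalars, Submodule.restrictScalars_top] at h1
    exact hA h1
  -- the `S`-part
  have hS : ((J₀.map (algebraMap S B)) ^ m • ⊤ : Submodule B X) ≤ K := by
    rw [← Ideal.map_pow]
  have hle : (I ^ (m + k) • ⊤ : Submodule B X) ≤ K := by
    calc (I ^ (m + k) • ⊤ : Submodule B X)
        ≤ ((J₀.map (algebraMap S B) ⊔ IA.map (algebraMap A B)) ^ (m + k) • ⊤ : Submodule B X) :=
          Submodule.smul_mono_left (Ideal.pow_right_mono hI _)
      _ ≤ (((J₀.map (algebraMap S B)) ^ m ⊔ (IA.map (algebraMap A B)) ^ k) • ⊤ :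
            Submodule B X) := Submodule.smul_mono_left Ideal.sup_pow_add_le_pow_sup_pow
      _ = ((J₀.map (algebraMap S B)) ^ m • ⊤ : Submodule B X) ⊔
            ((IA.map (algebraMap A B)) ^ k • ⊤ : Submodule B X) := Submodule.sup_smul _ _ _
      _ ≤ K := sup_le hS hA'
  have h' : x ∈ K.restrictScalars S := hle hx
  rwa [hK] at h'

end Nakayama

section Free

variable {B : Type u} [CommRing B] (U : Ultrafilter ℕ) (I : Ideal B)
variable (M : ℕ → Type v) [∀ n, AddCommGroup (M n)] [∀ n, Module B (M n)]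
variable {S : Type*} [CommRing S] [Algebra S B] (𝔫 : Ideal S)
variable [∀ n, Module S (M n)] [∀ n, IsScalarTower S B (M n)]
variable {ι : Type*} [Fintype ι]

theorem Patch.smul_mk (s : S) (x : ∀ n, M n) :
    s • Patch.mk U I M x = Patch.mk U I M (s • x) := rfl

theorem Patch.sum_smul_mk (c : ι → S) (e : ∀ n, ι → M n) :
    ∑ i, c i • Patch.mk U I M (fun n => e n i) =
      Patch.mk U I M (fun n => ∑ i, c i • e n i) := by
  simp_rw [Patch.smul_mk, ← map_sum]
  congr 1
  funext n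
  simp [Finset.sum_apply]

theorem algebraMap_mem_pow (h𝔫 : 𝔫.map (algebraMap S B) ≤ I) {m : ℕ} {s : S} (hs : s ∈ 𝔫 ^ m) :
    algebraMap S B s ∈ I ^ m := by
  have h1 : algebraMap S B s ∈ (𝔫 ^ m).map (algebraMap S B) := Ideal.mem_map_of_mem _ hs
  rw [Ideal.map_pow] at h1
  exact Ideal.pow_right_mono h𝔫 m h1

/-- (P5), generation: uniform `S`-spanning families patch to an `S`-spanning family. -/
theorem Patch.exists_sum_smul_mk [IsPrecomplete 𝔫 S] (hfin : ∀ m : ℕ, Finite (S ⧸ 𝔫 ^ m))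
    (h𝔫 : 𝔫.map (algebraMap S B) ≤ I) (e : ∀ n, ι → M n)
    (hspan : ∀ᶠ n in (U : Filter ℕ), ∀ x : M n, ∃ c : ι → S, x = ∑ i, c i • e n i)
    (ξ : Patch U I M) :
    ∃ c : ι → S, ξ = ∑ i, c i • Patch.mk U I M (fun n => e n i) := by
  classical
  obtain ⟨x, rfl⟩ := Patch.mk_surjective ξ
  have hc : ∀ n, ∃ c : ι → S,
      (∀ y : M n, ∃ c : ι → S, y = ∑ i, c i • e n i) → x n = ∑ i, c i • e n i := by
    intro n
    by_cases h : ∀ y : M n, ∃ c : ι → S, y = ∑ i, c i • e n i
    · obtain ⟨c, hc⟩ := h (x n)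
      exact ⟨c, fun _ => hc⟩
    · exact ⟨0, fun h' => absurd h' h⟩
  choose c hc using hc
  have hlim : ∀ i, ∃ t : S, ∀ m : ℕ, ∀ᶠ n in (U : Filter ℕ), c n i - t ∈ 𝔫 ^ m :=
    fun i => exists_ulim_ring U 𝔫 hfin (fun n => c n i)
  choose t ht using hlim
  refine ⟨t, ?_⟩
  rw [Patch.sum_smul_mk, Patch.mk_eq_mk]
  intro m
  have hall : ∀ᶠ n in (U : Filter ℕ), ∀ i, c n i - t i ∈ 𝔫 ^ m :=
    Filter.eventually_all.mpr fun i => ht i m
  filter_upwards [hall, hspan] with n hn hsp
  rw [hc n hsp, ← Finset.sum_sub_distrib]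
  refine Submodule.sum_mem _ fun i _ => ?_
  rw [← sub_smul, ← algebraMap_smul B (c n i - t i) (e n i)]
  exact Submodule.smul_mem_smul (algebraMap_mem_pow I 𝔫 h𝔫 (hn i)) Submodule.mem_top

/-- (P5), independence: if the relations among the `e n` have coefficients in ideals `a n`
tending to `0`, the patched family is `S`-linearly independent. -/
theorem Patch.eq_zero_of_sum_smul_mk_eq_zero [IsHausdorff 𝔫 S] (e : ∀ n, ι → M n)
    (hspan : ∀ᶠ n in (U : Filter ℕ), ∀ x : M n, ∃ c : ι → S, x = ∑ i, c i • e n i)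
    (a : ℕ → Ideal S)
    (hrel : ∀ᶠ n in (U : Filter ℕ), ∀ c : ι → S, ∑ i, c i • e n i = 0 → ∀ i, c i ∈ a n)
    (ha : ∀ m : ℕ, ∀ᶠ n in (U : Filter ℕ), a n ≤ 𝔫 ^ m)
    (hNak : ∀ m : ℕ, ∃ m' : ℕ, ∀ᶠ n in (U : Filter ℕ), ∀ x : M n,
      x ∈ (I ^ m' • ⊤ : Submodule B (M n)) → x ∈ (𝔫 ^ m • ⊤ : Submodule S (M n)))
    (c : ι → S) (hc : ∑ i, c i • Patch.mk U I M (fun n => e n i) = 0) : c = 0 := by
  classical
  rw [Patch.sum_smul_mk, Patch.mk_eq_zero] at hc
  funext i
  apply IsHausdorff.haus' (I := 𝔫) (c i)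
  intro m
  rw [SModEq.zero, smul_top_eq_self]
  obtain ⟨m', hm'⟩ := hNak m
  have key : ∀ᶠ n in (U : Filter ℕ), c i ∈ 𝔫 ^ m := by
    filter_upwards [hc m', hm', hspan, hrel, ha m] with n h1 h2 h3 h4 h5
    have h6 := h2 _ h1
    have htop : (⊤ : Submodule S (M n)) = Submodule.span S (Set.range (e n)) := by
      symm
      rw [eq_top_iff]
      intro y _
      obtain ⟨c', rfl⟩ := h3 y
      exact Submodule.sum_mem _ fun j _ =>
        Submodule.smul_mem _ _ (Submodule.subset_span ⟨j, rfl⟩)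
    rw [htop, Submodule.mem_ideal_smul_span_iff_exists_sum] at h6
    obtain ⟨t, ht, hsum⟩ := h6
    rw [Finsupp.sum_fintype _ _ (fun j => zero_smul S (e n j))] at hsum
    have h7 : ∑ j, (c j - t j) • e n j = 0 := by
      simp_rw [sub_smul]
      rw [Finset.sum_sub_distrib, hsum, sub_self]
    have h8 := h5 (h4 (fun j => c j - t j) h7 i)
    have : c i = (c i - t i) + t i := by ring
    rw [this]
    exact (𝔫 ^ m).add_mem h8 (ht i)
  exact Filter.eventually_const.mp key

/-- (P5) The patched module of a family of modules which are free of rank `#ι` over `S ⧸ a n`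
(on the families `e n`), with `a n → 0`, is free over `S` on the classes of the `e · i`.
Here the uniform Nakayama property is a hypothesis. -/
noncomputable def Patch.basisOfNak [IsAdicComplete 𝔫 S] (hfin : ∀ m : ℕ, Finite (S ⧸ 𝔫 ^ m))
    (h𝔫 : 𝔫.map (algebraMap S B) ≤ I) (e : ∀ n, ι → M n)
    (hspan : ∀ᶠ n in (U : Filter ℕ), ∀ x : M n, ∃ c : ι → S, x = ∑ i, c i • e n i)
    (a : ℕ → Ideal S)
    (hrel : ∀ᶠ n in (U : Filter ℕ), ∀ c : ι → S, ∑ i, c i • e n i = 0 → ∀ i, c i ∈ a n)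
    (ha : ∀ m : ℕ, ∀ᶠ n in (U : Filter ℕ), a n ≤ 𝔫 ^ m)
    (hNak : ∀ m : ℕ, ∃ m' : ℕ, ∀ᶠ n in (U : Filter ℕ), ∀ x : M n,
      x ∈ (I ^ m' • ⊤ : Submodule B (M n)) → x ∈ (𝔫 ^ m • ⊤ : Submodule S (M n))) :
    Module.Basis ι S (Patch U I M) :=
  Module.Basis.mk (v := fun i => Patch.mk U I M (fun n => e n i))
    (by
      rw [Fintype.linearIndependent_iff]
      intro c hc i
      have := Patch.eq_zero_of_sum_smul_mk_eq_zero U I M 𝔫 e hspan a hrel ha hNak c hc
      rw [this]
      rfl)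
    (by
      intro ξ _
      obtain ⟨c, rfl⟩ := Patch.exists_sum_smul_mk U I M 𝔫 hfin h𝔫 e hspan ξ
      exact Submodule.sum_mem _ fun i _ =>
        Submodule.smul_mem _ _ (Submodule.subset_span ⟨i, rfl⟩))

@[simp] theorem Patch.basisOfNak_apply [IsAdicComplete 𝔫 S] (hfin : ∀ m : ℕ, Finite (S ⧸ 𝔫 ^ m))
    (h𝔫 : 𝔫.map (algebraMap S B) ≤ I) (e : ∀ n, ι → M n)
    (hspan : ∀ᶠ n in (U : Filter ℕ), ∀ x : M n, ∃ c : ι → S, x = ∑ i, c i • e n i)
    (a : ℕ → Ideal S)
    (hrel : ∀ᶠ n in (U : Filter ℕ), ∀ c : ι → S, ∑ i, c i • e n i = 0 → ∀ i, c i ∈ a n)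
    (ha : ∀ m : ℕ, ∀ᶠ n in (U : Filter ℕ), a n ≤ 𝔫 ^ m)
    (hNak : ∀ m : ℕ, ∃ m' : ℕ, ∀ᶠ n in (U : Filter ℕ), ∀ x : M n,
      x ∈ (I ^ m' • ⊤ : Submodule B (M n)) → x ∈ (𝔫 ^ m • ⊤ : Submodule S (M n))) (i : ι) :
    Patch.basisOfNak U I M 𝔫 hfin h𝔫 e hspan a hrel ha hNak i =
      Patch.mk U I M (fun n => e n i) := by
  rw [Patch.basisOfNak, Module.Basis.mk_apply]

/-- (P5) Freeness of the patched module when `I` lies in the Jacobson radical of `B`
(e.g. `B` local and `I` its maximal ideal): no Nakayama hypothesis. -/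
noncomputable def Patch.basis [IsAdicComplete 𝔫 S] (hfin : ∀ m : ℕ, Finite (S ⧸ 𝔫 ^ m))
    (h𝔫 : 𝔫.map (algebraMap S B) ≤ I) (hI : I ≤ Ideal.jacobson ⊥) (e : ∀ n, ι → M n)
    (hspan : ∀ᶠ n in (U : Filter ℕ), ∀ x : M n, ∃ c : ι → S, x = ∑ i, c i • e n i)
    (a : ℕ → Ideal S)
    (hrel : ∀ᶠ n in (U : Filter ℕ), ∀ c : ι → S, ∑ i, c i • e n i = 0 → ∀ i, c i ∈ a n)
    (ha : ∀ m : ℕ, ∀ᶠ n in (U : Filter ℕ), a n ≤ 𝔫 ^ m) :
    Module.Basis ι S (Patch U I M) :=
  Patch.basisOfNak U I M 𝔫 hfin h𝔫 e hspan a hrel ha (by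
    intro m
    have := hfin m
    refine ⟨Nat.card (S ⧸ 𝔫 ^ m) ^ Fintype.card ι, ?_⟩
    filter_upwards [hspan] with n hn x hx
    exact pow_smul_top_le_smul_top I hI (𝔫 ^ m) (e n) hn hx)

@[simp] theorem Patch.basis_apply [IsAdicComplete 𝔫 S] (hfin : ∀ m : ℕ, Finite (S ⧸ 𝔫 ^ m))
    (h𝔫 : 𝔫.map (algebraMap S B) ≤ I) (hI : I ≤ Ideal.jacobson ⊥) (e : ∀ n, ι → M n)
    (hspan : ∀ᶠ n in (U : Filter ℕ), ∀ x : M n, ∃ c : ι → S, x = ∑ i, c i • e n i)
    (a : ℕ → Ideal S)
    (hrel : ∀ᶠ n in (U : Filter ℕ), ∀ c : ι → S, ∑ i, c i • e n i = 0 → ∀ i, c i ∈ a n)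
    (ha : ∀ m : ℕ, ∀ᶠ n in (U : Filter ℕ), a n ≤ 𝔫 ^ m) (i : ι) :
    Patch.basis U I M 𝔫 hfin h𝔫 hI e hspan a hrel ha i = Patch.mk U I M (fun n => e n i) := by
  rw [Patch.basis, Patch.basisOfNak_apply]

/-- (P5) Freeness of the patched module, two-ring form: `I ≤ 𝔫 B + IA B` with `IA` in the
Jacobson radical of a ring `A` mapping to `B` (e.g. `B = S ⊗ A`, `A` local). -/
noncomputable def Patch.basisOfSup [IsAdicComplete 𝔫 S] (hfin : ∀ m : ℕ, Finite (S ⧸ 𝔫 ^ m))
    (h𝔫 : 𝔫.map (algebraMap S B) ≤ I) {A : Type*} [CommRing A] [Algebra A B] (IA : Ideal A)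
    (hIA : IA ≤ Ideal.jacobson ⊥) (hI : I ≤ 𝔫.map (algebraMap S B) ⊔ IA.map (algebraMap A B))
    [∀ n, Module A (M n)] [∀ n, IsScalarTower A B (M n)] (e : ∀ n, ι → M n)
    (hspan : ∀ᶠ n in (U : Filter ℕ), ∀ x : M n, ∃ c : ι → S, x = ∑ i, c i • e n i)
    (a : ℕ → Ideal S)
    (hrel : ∀ᶠ n in (U : Filter ℕ), ∀ c : ι → S, ∑ i, c i • e n i = 0 → ∀ i, c i ∈ a n)
    (ha : ∀ m : ℕ, ∀ᶠ n in (U : Filter ℕ), a n ≤ 𝔫 ^ m) :
    Module.Basis ι S (Patch U I M) :=
  Patch.basisOfNak U I M 𝔫 hfin h𝔫 e hspan a hrel ha (by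
    intro m
    have := hfin m
    refine ⟨m + Nat.card (S ⧸ 𝔫 ^ m) ^ Fintype.card ι, ?_⟩
    filter_upwards [hspan] with n hn x hx
    exact pow_smul_top_le_smul_top_of_sup I IA hIA 𝔫 hI m (e n) hn hx)

@[simp] theorem Patch.basisOfSup_apply [IsAdicComplete 𝔫 S] (hfin : ∀ m : ℕ, Finite (S ⧸ 𝔫 ^ m))
    (h𝔫 : 𝔫.map (algebraMap S B) ≤ I) {A : Type*} [CommRing A] [Algebra A B] (IA : Ideal A)
    (hIA : IA ≤ Ideal.jacobson ⊥) (hI : I ≤ 𝔫.map (algebraMap S B) ⊔ IA.map (algebraMap A B))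
    [∀ n, Module A (M n)] [∀ n, IsScalarTower A B (M n)] (e : ∀ n, ι → M n)
    (hspan : ∀ᶠ n in (U : Filter ℕ), ∀ x : M n, ∃ c : ι → S, x = ∑ i, c i • e n i)
    (a : ℕ → Ideal S)
    (hrel : ∀ᶠ n in (U : Filter ℕ), ∀ c : ι → S, ∑ i, c i • e n i = 0 → ∀ i, c i ∈ a n)
    (ha : ∀ m : ℕ, ∀ᶠ n in (U : Filter ℕ), a n ≤ 𝔫 ^ m) (i : ι) :
    Patch.basisOfSup U I M 𝔫 hfin h𝔫 IA hIA hI e hspan a hrel ha i =
      Patch.mk U I M (fun n => e n i) := by
  rw [Patch.basisOfSup, Patch.basisOfNak_apply]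

end Free

section Ulim

variable {A : Type*} [CommRing A] (U : Ultrafilter ℕ) (IA : Ideal A)

/-- `U`-limits in an `IA`-adically separated ring are unique. -/
theorem ulim_unique [IsHausdorff IA A] {x : ℕ → A} {c c' : A}
    (hc : ∀ m : ℕ, ∀ᶠ n in (U : Filter ℕ), x n - c ∈ IA ^ m)
    (hc' : ∀ m : ℕ, ∀ᶠ n in (U : Filter ℕ), x n - c' ∈ IA ^ m) : c = c' := by
  rw [← sub_eq_zero]
  apply IsHausdorff.haus' (I := IA) (c - c')
  intro m
  rw [SModEq.zero, smul_top_eq_self]
  obtain ⟨n, h1, h2⟩ := ((hc m).and (hc' m)).exists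
  have : c - c' = (x n - c') - (x n - c) := by ring
  rw [this]
  exact (IA ^ m).sub_mem h2 h1

variable [IsAdicComplete IA A] (hfin : ∀ m : ℕ, Finite (A ⧸ IA ^ m))

/-- The `U`-limit of a sequence in an adically complete ring with finite quotients. -/
noncomputable def ulimFun (x : ℕ → A) : A :=
  (exists_ulim_ring U IA hfin x).choose

theorem ulimFun_spec (x : ℕ → A) (m : ℕ) :
    ∀ᶠ n in (U : Filter ℕ), x n - ulimFun U IA hfin x ∈ IA ^ m :=
  (exists_ulim_ring U IA hfin x).choose_spec m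

theorem ulimFun_eq {x : ℕ → A} {c : A}
    (hc : ∀ m : ℕ, ∀ᶠ n in (U : Filter ℕ), x n - c ∈ IA ^ m) : ulimFun U IA hfin x = c :=
  ulim_unique U IA (ulimFun_spec U IA hfin x) hc

/-- (P7) The `U`-limit as a ring homomorphism from sequences. -/
noncomputable def ulim : (ℕ → A) →+* A where
  toFun := ulimFun U IA hfin
  map_one' := ulimFun_eq U IA hfin fun m => Eventually.of_forall fun _ => by
    rw [Pi.one_apply, sub_self]; exact (IA ^ m).zero_mem
  map_zero' := ulimFun_eq U IA hfin fun m => Eventually.of_forall fun _ => by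
    rw [Pi.zero_apply, sub_self]; exact (IA ^ m).zero_mem
  map_add' x y := ulimFun_eq U IA hfin fun m => by
    filter_upwards [ulimFun_spec U IA hfin x m, ulimFun_spec U IA hfin y m] with n h1 h2
    have : (x + y) n - (ulimFun U IA hfin x + ulimFun U IA hfin y) =
        (x n - ulimFun U IA hfin x) + (y n - ulimFun U IA hfin y) := by
      rw [Pi.add_apply]; ring
    rw [this]
    exact (IA ^ m).add_mem h1 h2
  map_mul' x y := ulimFun_eq U IA hfin fun m => by
    filter_upwards [ulimFun_spec U IA hfin x m, ulimFun_spec U IA hfin y m] with n h1 h2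
    have : (x * y) n - (ulimFun U IA hfin x * ulimFun U IA hfin y) =
        (x n - ulimFun U IA hfin x) * y n + ulimFun U IA hfin x * (y n - ulimFun U IA hfin y) := by
      rw [Pi.mul_apply]; ring
    rw [this]
    exact (IA ^ m).add_mem ((IA ^ m).mul_mem_right _ h1) ((IA ^ m).mul_mem_left _ h2)

theorem ulim_spec (x : ℕ → A) (m : ℕ) :
    ∀ᶠ n in (U : Filter ℕ), x n - ulim U IA hfin x ∈ IA ^ m :=
  ulimFun_spec U IA hfin x m

theorem ulim_eq {x : ℕ → A} {c : A}
    (hc : ∀ m : ℕ, ∀ᶠ n in (U : Filter ℕ), x n - c ∈ IA ^ m) : ulim U IA hfin x = c :=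
  ulimFun_eq U IA hfin hc

@[simp] theorem ulim_const (a : A) : ulim U IA hfin (fun _ => a) = a :=
  ulim_eq U IA hfin fun m => Eventually.of_forall fun _ => by
    rw [sub_self]; exact (IA ^ m).zero_mem

theorem ulim_eq_of_eventually_eq {x : ℕ → A} {c : A}
    (h : ∀ᶠ n in (U : Filter ℕ), x n = c) : ulim U IA hfin x = c :=
  ulim_eq U IA hfin fun m => by
    filter_upwards [h] with n hn
    rw [hn, sub_self]
    exact (IA ^ m).zero_mem

theorem ulim_mem_of_eventually_mem {x : ℕ → A} {k : ℕ}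
    (h : ∀ᶠ n in (U : Filter ℕ), x n ∈ IA ^ k) : ulim U IA hfin x ∈ IA ^ k := by
  obtain ⟨n, h1, h2⟩ := (h.and (ulim_spec U IA hfin x k)).exists
  have : ulim U IA hfin x = x n - (x n - ulim U IA hfin x) := by ring
  rw [this]
  exact (IA ^ k).sub_mem h1 h2

/-- The `U`-limit of a sequence of ring homomorphisms into `A`. -/
noncomputable def ulimHom {S : Type*} [CommRing S] (φ : ℕ → S →+* A) : S →+* A :=
  (ulim U IA hfin).comp (RingHom.pi φ)

theorem ulimHom_spec {S : Type*} [CommRing S] (φ : ℕ → S →+* A) (s : S) (m : ℕ) :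
    ∀ᶠ n in (U : Filter ℕ), φ n s - ulimHom U IA hfin φ s ∈ IA ^ m :=
  ulim_spec U IA hfin (fun n => φ n s) m

/-- If all `φ n` are algebra homomorphisms, so is their `U`-limit. -/
theorem ulimHom_algebraMap {O S : Type*} [CommRing O] [CommRing S] [Algebra O S] [Algebra O A]
    (φ : ℕ → S →+* A) (hφ : ∀ᶠ n in (U : Filter ℕ), ∀ o : O, φ n (algebraMap O S o) = algebraMap O A o)
    (o : O) : ulimHom U IA hfin φ (algebraMap O S o) = algebraMap O A o :=
  ulim_eq_of_eventually_eq U IA hfin (by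
    filter_upwards [hφ] with n hn
    exact hn o)

end Ulim

section Factor

variable {B : Type u} [CommRing B] (U : Ultrafilter ℕ) (I : Ideal B)
variable (M : ℕ → Type v) [∀ n, AddCommGroup (M n)] [∀ n, Module B (M n)]
variable {S : Type*} [CommRing S] [Algebra S B]
variable {A : Type*} [CommRing A] [Algebra A B] (IA : Ideal A) [IsAdicComplete IA A]

/-- (P7) If, at `U`-most levels, the action of `S` on `M n` factors through ring homomorphisms
`φ n : S →+* A`, then the action of `S` on the patched module factors through their `U`-limit. -/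
theorem Patch.algebraMap_smul_eq_ulimHom (hfin : ∀ m : ℕ, Finite (A ⧸ IA ^ m))
    (hIA : IA.map (algebraMap A B) ≤ I) (φ : ℕ → S →+* A)
    (hφ : ∀ᶠ n in (U : Filter ℕ), ∀ (s : S) (x : M n),
      algebraMap S B s • x = algebraMap A B (φ n s) • x)
    (s : S) (ξ : Patch U I M) :
    algebraMap S B s • ξ = algebraMap A B (ulimHom U IA hfin φ s) • ξ := by
  rw [← sub_eq_zero, ← sub_smul]
  refine Patch.smul_eq_zero_of_tendsto U I M
    (fun n => algebraMap S B s - algebraMap A B (φ n s)) _ (fun m => ?_) ?_ ξ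
  · filter_upwards [ulimHom_spec U IA hfin φ s m] with n hn
    have h1 : algebraMap A B (φ n s - ulimHom U IA hfin φ s) ∈ I ^ m :=
      algebraMap_mem_pow I IA hIA hn
    have : algebraMap S B s - algebraMap A B (φ n s) -
        (algebraMap S B s - algebraMap A B (ulimHom U IA hfin φ s)) =
        -(algebraMap A B (φ n s - ulimHom U IA hfin φ s)) := by
      rw [map_sub]; ring
    rw [this]
    exact (I ^ m).neg_mem h1
  · filter_upwards [hφ] with n hn x
    rw [sub_smul, hn s x, sub_self]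

end Factor

end Fermat.Agent.S43.helper2336
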