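/-
helper2336 — the PATCHED RING of a sequence of rings acting on the levels of an ultrapatching
datum (`helper2336_UltraPatch`). Mathlib-only closure.

Finite-level input, for every `n`: a module `M n` over a fixed ring `S` (think
`S = O⟦s₁..s_r⟧`); a commutative `S`-algebra `T n` acting on `M n`.

* `patchAct`     : the product ring `∏ T n` acts on the patched module `Patch U 𝔫 M`.
* `PatchRing`    : the patched ring `T∞ = (∏ T n) / ker`, acting faithfully on `Patch U 𝔫 M`.
* `PatchRing.cls`: the class of a sequence; sequences agreeing `U`-eventually have one class.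
* `PatchRing.isLocalRing`, `PatchRing.cls_mem_maximalIdeal_iff` (all `T n` local).
* `PatchRing.evIdeal`: the ideal of classes of sequences `U`-eventually in given ideals; it
  commutes with finite sups and with spans of a fixed finite number of generators.
* `PatchRing.smul_mem_span_range_smul_top` etc.: inclusions `g • M ⊆ (f₁, .., f_k) • M` pass
  to the patched module.
* `PatchRing.finite`, `PatchRing.algebraMap_injective`, `PatchRing.package`,
  `PatchRing.smul_eq_zero`: when the patched module is finite free of positive rank, the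
  patched ring is a Noetherian local ring, finite, integral and torsion-free over `S ⊆ T∞`.
-/
import Fermat.Agent.S43.helper2336_UltraPatch

set_option autoImplicit false

namespace Fermat.Agent.S43.helper2336

open Filter IsLocalRing

universe u v w

section PatchRing

variable {S : Type u} [CommRing S] (U : Ultrafilter ℕ) (𝔫 : Ideal S)
variable (M : ℕ → Type v) [∀ n, AddCommGroup (M n)] [∀ n, Module S (M n)]
variable (T : ℕ → Type w) [∀ n, CommRing (T n)] [∀ n, Algebra S (T n)]
variable [∀ n, Module (T n) (M n)] [∀ n, IsScalarTower S (T n) (M n)]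

/-- The componentwise action of the product ring on the patched module. -/
noncomputable def patchAct : (∀ n, T n) →ₐ[S] Module.End S (Patch U 𝔫 M) where
  toFun t := Patch.map U 𝔫 (fun n => Algebra.lsmul S S (M n) (t n))
  map_one' := by
    refine LinearMap.ext fun ξ => ?_
    obtain ⟨x, rfl⟩ := Patch.mk_surjective ξ
    rw [Patch.map_mk]
    simp
  map_mul' t t' := by
    refine LinearMap.ext fun ξ => ?_
    obtain ⟨x, rfl⟩ := Patch.mk_surjective ξ
    rw [Module.End.mul_apply, Patch.map_mk, Patch.map_mk, Patch.map_mk]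
    congr 1
    funext n
    simp
  map_zero' := by
    refine LinearMap.ext fun ξ => ?_
    obtain ⟨x, rfl⟩ := Patch.mk_surjective ξ
    rw [Patch.map_mk, LinearMap.zero_apply]
    have : (fun n => Algebra.lsmul S S (M n) ((0 : ∀ n, T n) n) (x n)) = 0 := by
      funext n
      simp
    rw [this, map_zero]
  map_add' t t' := by
    refine LinearMap.ext fun ξ => ?_
    obtain ⟨x, rfl⟩ := Patch.mk_surjective ξ
    rw [LinearMap.add_apply, Patch.map_mk, Patch.map_mk, Patch.map_mk, ← map_add]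
    congr 1
    funext n
    simp
  commutes' s := by
    refine LinearMap.ext fun ξ => ?_
    obtain ⟨x, rfl⟩ := Patch.mk_surjective ξ
    rw [Patch.map_mk, Module.algebraMap_end_apply, ← map_smul]
    congr 1
    funext n
    simp

@[simp] theorem patchAct_mk (t : ∀ n, T n) (x : ∀ n, M n) :
    patchAct U 𝔫 M T t (Patch.mk U 𝔫 M x) = Patch.mk U 𝔫 M (fun n => t n • x n) := rfl

/-- The patched ring: the image of the product ring in the endomorphisms of the patched
module. -/
abbrev PatchRing : Type w := (∀ n, T n) ⧸ RingHom.ker (patchAct U 𝔫 M T)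

/-- The class of a sequence in the patched ring. -/
noncomputable abbrev PatchRing.cls : (∀ n, T n) →+* PatchRing U 𝔫 M T :=
  Ideal.Quotient.mk (RingHom.ker (patchAct U 𝔫 M T))

variable {U 𝔫 M T} in
theorem PatchRing.cls_surjective : Function.Surjective (PatchRing.cls U 𝔫 M T) :=
  Ideal.Quotient.mk_surjective

noncomputable instance PatchRing.module : Module (PatchRing U 𝔫 M T) (Patch U 𝔫 M) :=
  Module.compHom (Patch U 𝔫 M) (Ideal.kerLiftAlg (patchAct U 𝔫 M T)).toRingHom

variable {U 𝔫 M T} in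
@[simp] theorem PatchRing.cls_smul_mk (t : ∀ n, T n) (x : ∀ n, M n) :
    PatchRing.cls U 𝔫 M T t • Patch.mk U 𝔫 M x = Patch.mk U 𝔫 M (fun n => t n • x n) := rfl

instance PatchRing.isScalarTower : IsScalarTower S (PatchRing U 𝔫 M T) (Patch U 𝔫 M) := by
  refine ⟨fun s a ξ => ?_⟩
  obtain ⟨t, rfl⟩ := PatchRing.cls_surjective a
  obtain ⟨x, rfl⟩ := Patch.mk_surjective ξ
  change PatchRing.cls U 𝔫 M T (s • t) • Patch.mk U 𝔫 M x =
    Patch.mk U 𝔫 M (s • fun n => t n • x n)
  rw [PatchRing.cls_smul_mk]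
  congr 1
  funext n
  simp

variable {U 𝔫 M} in
/-- Sequences which agree `U`-eventually have the same class in the patched module. -/
theorem Patch.mk_eq_mk_of_eventually_eq {x y : ∀ n, M n}
    (h : ∀ᶠ n in (U : Filter ℕ), x n = y n) : Patch.mk U 𝔫 M x = Patch.mk U 𝔫 M y := by
  rw [Patch.mk_eq_mk]
  intro m
  filter_upwards [h] with n hn
  rw [hn, sub_self]
  exact Submodule.zero_mem _

variable {U 𝔫 M T} in
/-- The patched ring acts faithfully on the patched module. -/
theorem PatchRing.eq_zero_of_smul_eq_zero (a : PatchRing U 𝔫 M T)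
    (h : ∀ ξ : Patch U 𝔫 M, a • ξ = 0) : a = 0 := by
  apply Ideal.kerLiftAlg_injective (patchAct U 𝔫 M T)
  rw [map_zero]
  exact LinearMap.ext fun ξ => h ξ

variable {U 𝔫 M T} in
/-- Sequences which agree `U`-eventually have the same class in the patched ring. -/
theorem PatchRing.cls_eq_cls_of_eventually_eq {t t' : ∀ n, T n}
    (h : ∀ᶠ n in (U : Filter ℕ), t n = t' n) :
    PatchRing.cls U 𝔫 M T t = PatchRing.cls U 𝔫 M T t' := by
  rw [Ideal.Quotient.eq, RingHom.mem_ker]
  refine LinearMap.ext fun ξ => ?_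
  obtain ⟨x, rfl⟩ := Patch.mk_surjective ξ
  rw [patchAct_mk, LinearMap.zero_apply, Patch.mk_eq_zero]
  intro m
  filter_upwards [h] with n hn
  rw [Pi.sub_apply, hn, sub_self, zero_smul]
  exact Submodule.zero_mem _

variable {U 𝔫 M T} in
/-- A sequence of `U`-eventual units has a unit class. -/
theorem PatchRing.isUnit_cls_of_eventually_isUnit {t : ∀ n, T n}
    (h : ∀ᶠ n in (U : Filter ℕ), IsUnit (t n)) : IsUnit (PatchRing.cls U 𝔫 M T t) := by
  refine IsUnit.of_mul_eq_one (PatchRing.cls U 𝔫 M T fun n => Ring.inverse (t n)) ?_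
  rw [← map_mul, ← map_one (PatchRing.cls U 𝔫 M T)]
  refine PatchRing.cls_eq_cls_of_eventually_eq ?_
  filter_upwards [h] with n hn
  rw [Pi.mul_apply, Pi.one_apply, Ring.mul_inverse_cancel _ hn]

section Local

variable [∀ n, IsLocalRing (T n)]

variable {U 𝔫 M T} in
theorem PatchRing.isUnit_or_isUnit_one_sub (a : PatchRing U 𝔫 M T) :
    IsUnit a ∨ IsUnit (1 - a) := by
  obtain ⟨t, rfl⟩ := PatchRing.cls_surjective a
  have h : ∀ᶠ n in (U : Filter ℕ), IsUnit (t n) ∨ IsUnit (1 - t n) :=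
    Eventually.of_forall fun n => IsLocalRing.isUnit_or_isUnit_one_sub_self (t n)
  rcases Ultrafilter.eventually_or.mp h with h1 | h1
  · exact Or.inl (PatchRing.isUnit_cls_of_eventually_isUnit h1)
  · right
    have : (1 : PatchRing U 𝔫 M T) - PatchRing.cls U 𝔫 M T t =
        PatchRing.cls U 𝔫 M T (fun n => 1 - t n) := rfl
    rw [this]
    exact PatchRing.isUnit_cls_of_eventually_isUnit h1

/-- The patched ring of a sequence of local rings is local (when it is not the zero ring). -/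
theorem PatchRing.isLocalRing [Nontrivial (PatchRing U 𝔫 M T)] :
    IsLocalRing (PatchRing U 𝔫 M T) :=
  IsLocalRing.of_isUnit_or_isUnit_one_sub_self PatchRing.isUnit_or_isUnit_one_sub

variable {U 𝔫 M T} in
/-- The maximal ideal of the patched ring consists of the classes of the sequences that are
`U`-eventually in the maximal ideals. -/
theorem PatchRing.cls_mem_maximalIdeal_iff [IsLocalRing (PatchRing U 𝔫 M T)] {t : ∀ n, T n} :
    PatchRing.cls U 𝔫 M T t ∈ maximalIdeal (PatchRing U 𝔫 M T) ↔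
      ∀ᶠ n in (U : Filter ℕ), t n ∈ maximalIdeal (T n) := by
  constructor
  · intro h
    by_contra hcon
    rw [← Ultrafilter.eventually_not] at hcon
    have h2 : ∀ᶠ n in (U : Filter ℕ), IsUnit (t n) := by
      filter_upwards [hcon] with n hn
      by_contra h3
      exact hn ((IsLocalRing.mem_maximalIdeal _).mpr h3)
    exact (IsLocalRing.mem_maximalIdeal _).mp h (PatchRing.isUnit_cls_of_eventually_isUnit h2)
  · intro h
    rw [IsLocalRing.mem_maximalIdeal, mem_nonunits_iff]
    intro hu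
    obtain ⟨b, hb⟩ := hu.exists_right_inv
    obtain ⟨s, rfl⟩ := PatchRing.cls_surjective b
    have h2 : IsUnit (PatchRing.cls U 𝔫 M T (fun n => 1 - t n * s n)) := by
      refine PatchRing.isUnit_cls_of_eventually_isUnit ?_
      filter_upwards [h] with n hn
      have h3 : t n * s n ∈ maximalIdeal (T n) := Ideal.mul_mem_right _ _ hn
      by_contra h4
      have h5 : 1 - t n * s n ∈ maximalIdeal (T n) := (IsLocalRing.mem_maximalIdeal _).mpr h4
      have h6 : (1 : T n) ∈ maximalIdeal (T n) := by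
        have := Ideal.add_mem _ h5 h3
        rwa [sub_add_cancel] at this
      exact (Ideal.ne_top_iff_one _).mp (IsLocalRing.maximalIdeal.isMaximal (T n)).ne_top h6
    have h7 : PatchRing.cls U 𝔫 M T (fun n => 1 - t n * s n) = 0 := by
      have : PatchRing.cls U 𝔫 M T (fun n => 1 - t n * s n) =
          1 - PatchRing.cls U 𝔫 M T t * PatchRing.cls U 𝔫 M T s := rfl
      rw [this, hb, sub_self]
    rw [h7] at h2
    exact not_isUnit_zero h2

end Local

/-- The ideal of sequences `U`-eventually in given ideals. -/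
def evIdealPi (I : ∀ n, Ideal (T n)) : Ideal (∀ n, T n) where
  carrier := {t | ∀ᶠ n in (U : Filter ℕ), t n ∈ I n}
  add_mem' := by
    intro x y hx hy
    filter_upwards [hx, hy] with n h1 h2
    exact (I n).add_mem h1 h2
  zero_mem' := Eventually.of_forall fun n => (I n).zero_mem
  smul_mem' := by
    intro c x hx
    filter_upwards [hx] with n h1
    exact (I n).mul_mem_left _ h1

/-- The ideal of the patched ring formed by the classes of the sequences which are
`U`-eventually in given ideals. -/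
noncomputable def PatchRing.evIdeal (I : ∀ n, Ideal (T n)) : Ideal (PatchRing U 𝔫 M T) :=
  (evIdealPi U T I).map (PatchRing.cls U 𝔫 M T)

variable {U 𝔫 M T} in
theorem PatchRing.mem_evIdeal_iff {I : ∀ n, Ideal (T n)} {a : PatchRing U 𝔫 M T} :
    a ∈ PatchRing.evIdeal U 𝔫 M T I ↔
      ∃ t : ∀ n, T n, (∀ᶠ n in (U : Filter ℕ), t n ∈ I n) ∧ PatchRing.cls U 𝔫 M T t = a :=
  Ideal.mem_map_iff_of_surjective _ PatchRing.cls_surjective

variable {U 𝔫 M T} in
theorem PatchRing.cls_mem_evIdeal {I : ∀ n, Ideal (T n)} {t : ∀ n, T n}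
    (h : ∀ᶠ n in (U : Filter ℕ), t n ∈ I n) :
    PatchRing.cls U 𝔫 M T t ∈ PatchRing.evIdeal U 𝔫 M T I :=
  Ideal.mem_map_of_mem _ h

variable {U 𝔫 M T} in
theorem PatchRing.evIdeal_mono {I J : ∀ n, Ideal (T n)}
    (h : ∀ᶠ n in (U : Filter ℕ), I n ≤ J n) :
    PatchRing.evIdeal U 𝔫 M T I ≤ PatchRing.evIdeal U 𝔫 M T J := by
  intro a ha
  obtain ⟨t, ht, rfl⟩ := PatchRing.mem_evIdeal_iff.mp ha
  refine PatchRing.cls_mem_evIdeal ?_
  filter_upwards [h, ht] with n h1 h2 using h1 h2

/-- `evIdeal` commutes with binary sups. -/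
theorem PatchRing.evIdeal_sup (I J : ∀ n, Ideal (T n)) :
    PatchRing.evIdeal U 𝔫 M T (fun n => I n ⊔ J n) ≤
      PatchRing.evIdeal U 𝔫 M T I ⊔ PatchRing.evIdeal U 𝔫 M T J := by
  intro a ha
  obtain ⟨t, ht, rfl⟩ := PatchRing.mem_evIdeal_iff.mp ha
  have hc : ∀ n, ∃ p : T n × T n, t n ∈ I n ⊔ J n → p.1 ∈ I n ∧ p.2 ∈ J n ∧ p.1 + p.2 = t n := by
    intro n
    by_cases h : t n ∈ I n ⊔ J n
    · obtain ⟨x, hx, y, hy, hxy⟩ := Submodule.mem_sup.mp h
      exact ⟨(x, y), fun _ => ⟨hx, hy, hxy⟩⟩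
    · exact ⟨(0, 0), fun h' => absurd h' h⟩
  choose p hp using hc
  have h1 : PatchRing.cls U 𝔫 M T t =
      PatchRing.cls U 𝔫 M T (fun n => (p n).1) + PatchRing.cls U 𝔫 M T (fun n => (p n).2) := by
    rw [← map_add]
    refine PatchRing.cls_eq_cls_of_eventually_eq ?_
    filter_upwards [ht] with n hn
    exact (hp n hn).2.2.symm
  rw [h1]
  refine Ideal.add_mem _ (Ideal.mem_sup_left (PatchRing.cls_mem_evIdeal ?_))
    (Ideal.mem_sup_right (PatchRing.cls_mem_evIdeal ?_))
  · filter_upwards [ht] with n hn using (hp n hn).1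
  · filter_upwards [ht] with n hn using (hp n hn).2.1

/-- `evIdeal` of ideals generated by a fixed finite number of elements is generated by the
classes of the generators. -/
theorem PatchRing.evIdeal_span_range {κ : Type*} [Fintype κ] (g : ∀ n, κ → T n) :
    PatchRing.evIdeal U 𝔫 M T (fun n => Ideal.span (Set.range (g n))) ≤
      Ideal.span (Set.range fun j => PatchRing.cls U 𝔫 M T (fun n => g n j)) := by
  intro a ha
  obtain ⟨t, ht, rfl⟩ := PatchRing.mem_evIdeal_iff.mp ha
  have hc : ∀ n, ∃ c : κ → T n,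
      t n ∈ Ideal.span (Set.range (g n)) → ∑ j, c j * g n j = t n := by
    intro n
    by_cases h : t n ∈ Ideal.span (Set.range (g n))
    · obtain ⟨c, hc⟩ := Ideal.mem_span_range_iff_exists_fun.mp h
      exact ⟨c, fun _ => hc⟩
    · exact ⟨0, fun h' => absurd h' h⟩
  choose c hc using hc
  have h1 : PatchRing.cls U 𝔫 M T t =
      ∑ j, PatchRing.cls U 𝔫 M T (fun n => c n j) * PatchRing.cls U 𝔫 M T (fun n => g n j) := by
    simp_rw [← map_mul, ← map_sum]
    refine PatchRing.cls_eq_cls_of_eventually_eq ?_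
    filter_upwards [ht] with n hn
    rw [← hc n hn]
    simp [Finset.sum_apply]
  rw [h1]
  exact Ideal.sum_mem _ fun j _ => Ideal.mul_mem_left _ _ (Ideal.subset_span ⟨j, rfl⟩)

/-- `evIdeal` of principal ideals is principal. -/
theorem PatchRing.evIdeal_span_singleton (x : ∀ n, T n) :
    PatchRing.evIdeal U 𝔫 M T (fun n => Ideal.span {x n}) ≤
      Ideal.span {PatchRing.cls U 𝔫 M T x} := by
  have h := PatchRing.evIdeal_span_range U 𝔫 M T (κ := Unit) (fun n _ => x n)
  simpa [Set.range_const] using h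

variable {U 𝔫 M T} in
/-- Membership in an ideal generated by three marked elements passes to classes. -/
theorem PatchRing.cls_mem_span_triple {x a b c : ∀ n, T n}
    (h : ∀ᶠ n in (U : Filter ℕ), x n ∈ Ideal.span ({a n, b n, c n} : Set (T n))) :
    PatchRing.cls U 𝔫 M T x ∈ Ideal.span ({PatchRing.cls U 𝔫 M T a, PatchRing.cls U 𝔫 M T b,
      PatchRing.cls U 𝔫 M T c} : Set (PatchRing U 𝔫 M T)) := by
  have hc : ∀ n, ∃ p : T n × T n × T n, x n ∈ Ideal.span ({a n, b n, c n} : Set (T n)) →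
      p.1 * a n + p.2.1 * b n + p.2.2 * c n = x n := by
    intro n
    by_cases h' : x n ∈ Ideal.span ({a n, b n, c n} : Set (T n))
    · obtain ⟨p, q, r, hpqr⟩ := Submodule.mem_span_triple.mp h'
      exact ⟨(p, q, r), fun _ => hpqr⟩
    · exact ⟨(0, 0, 0), fun h'' => absurd h'' h'⟩
  choose p hp using hc
  have h1 : PatchRing.cls U 𝔫 M T x =
      PatchRing.cls U 𝔫 M T (fun n => (p n).1) * PatchRing.cls U 𝔫 M T a +
        PatchRing.cls U 𝔫 M T (fun n => (p n).2.1) * PatchRing.cls U 𝔫 M T b +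
        PatchRing.cls U 𝔫 M T (fun n => (p n).2.2) * PatchRing.cls U 𝔫 M T c := by
    rw [← map_mul, ← map_mul, ← map_mul, ← map_add, ← map_add]
    refine PatchRing.cls_eq_cls_of_eventually_eq ?_
    filter_upwards [h] with n hn
    exact (hp n hn).symm
  rw [h1]
  exact Submodule.mem_span_triple.mpr ⟨_, _, _, rfl⟩

variable {U 𝔫 M T} in
/-- "A fixed power of `lam n` is a multiple of `x n`" passes to classes. -/
theorem PatchRing.cls_pow_mem_span_singleton {lam x : ∀ n, T n} (k : ℕ)
    (h : ∀ᶠ n in (U : Filter ℕ), lam n ^ k ∈ Ideal.span {x n}) :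
    PatchRing.cls U 𝔫 M T lam ^ k ∈ Ideal.span {PatchRing.cls U 𝔫 M T x} := by
  rw [← map_pow]
  exact PatchRing.evIdeal_span_singleton U 𝔫 M T x (PatchRing.cls_mem_evIdeal h)

section FiniteFree

variable {ι : Type*} [Fintype ι] (b : Module.Basis ι S (Patch U 𝔫 M))

include b in
/-- If the patched module is finite free over a Noetherian `S`, the patched ring is a finite
`S`-module. -/
theorem PatchRing.finite [IsNoetherianRing S] : Module.Finite S (PatchRing U 𝔫 M T) := by
  have : Module.Finite S (Patch U 𝔫 M) := Module.Finite.of_basis b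
  let φ : PatchRing U 𝔫 M T →ₗ[S] (ι → Patch U 𝔫 M) :=
    { toFun := fun a i => a • b i
      map_add' := fun a a' => by funext i; exact add_smul a a' (b i)
      map_smul' := fun s a => by funext i; exact smul_assoc s a (b i) }
  refine Module.Finite.of_injective φ ?_
  rw [injective_iff_map_eq_zero]
  intro a ha
  refine PatchRing.eq_zero_of_smul_eq_zero a fun ξ => ?_
  rw [← b.sum_repr ξ, Finset.smul_sum]
  refine Finset.sum_eq_zero fun i _ => ?_
  have h1 : a • b i = 0 := congrFun ha i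
  rw [smul_algebra_smul_comm, h1, smul_zero]

omit [Fintype ι] in
include b in
/-- If the patched module is free of positive rank over `S`, then `S` embeds into the patched
ring. -/
theorem PatchRing.algebraMap_injective [Nonempty ι] :
    Function.Injective (algebraMap S (PatchRing U 𝔫 M T)) := by
  rw [injective_iff_map_eq_zero]
  intro s hs
  obtain ⟨i⟩ := ‹Nonempty ι›
  have h1 : s • b i = 0 := by
    rw [← algebraMap_smul (PatchRing U 𝔫 M T) s (b i), hs, zero_smul]
  have h2 := congrArg (fun ξ => b.repr ξ i) h1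
  simpa using h2

end FiniteFree

end PatchRing

section SmulTop

/-- Elements of `(f₁, .., f_k) • X`. -/
theorem mem_span_range_smul_top_iff {R : Type*} [CommRing R] {X : Type*} [AddCommGroup X]
    [Module R X] {κ : Type*} [Fintype κ] (f : κ → R) (v : X) :
    v ∈ (Ideal.span (Set.range f) : Ideal R) • (⊤ : Submodule R X) ↔
      ∃ w : κ → X, v = ∑ c, f c • w c := by
  constructor
  · intro hv
    refine Submodule.smul_induction_on hv ?_ ?_
    · intro r hr n _
      obtain ⟨c, hc⟩ := Ideal.mem_span_range_iff_exists_fun.mp hr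
      refine ⟨fun i => c i • n, ?_⟩
      rw [← hc, Finset.sum_smul]
      refine Finset.sum_congr rfl fun i _ => ?_
      rw [mul_smul, smul_comm]
    · rintro x y ⟨w1, rfl⟩ ⟨w2, rfl⟩
      refine ⟨w1 + w2, ?_⟩
      simp [smul_add, Finset.sum_add_distrib]
  · rintro ⟨w, rfl⟩
    exact Submodule.sum_mem _ fun c _ =>
      Submodule.smul_mem_smul (Ideal.subset_span ⟨c, rfl⟩) Submodule.mem_top

theorem range_vec3 {R : Type*} (a b c : R) : Set.range ![a, b, c] = {a, b, c} := by
  ext t
  simp only [Set.mem_range, Set.mem_insert_iff, Set.mem_singleton_iff]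
  constructor
  · rintro ⟨i, rfl⟩
    fin_cases i <;> simp
  · rintro (rfl | rfl | rfl)
    · exact ⟨0, rfl⟩
    · exact ⟨1, rfl⟩
    · exact ⟨2, rfl⟩

theorem range_vec1 {R : Type*} (a : R) : Set.range ![a] = {a} := by
  ext t
  simp only [Set.mem_range, Set.mem_singleton_iff]
  constructor
  · rintro ⟨i, rfl⟩
    fin_cases i
    rfl
  · rintro rfl
    exact ⟨0, rfl⟩

variable {S : Type u} [CommRing S] (U : Ultrafilter ℕ) (𝔫 : Ideal S)
variable (M : ℕ → Type v) [∀ n, AddCommGroup (M n)] [∀ n, Module S (M n)]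
variable (T : ℕ → Type w) [∀ n, CommRing (T n)] [∀ n, Algebra S (T n)]
variable [∀ n, Module (T n) (M n)] [∀ n, IsScalarTower S (T n) (M n)]

instance PatchRing.faithfulSMul : FaithfulSMul (PatchRing U 𝔫 M T) (Patch U 𝔫 M) := by
  refine ⟨fun {a a'} h => ?_⟩
  rw [← sub_eq_zero]
  refine PatchRing.eq_zero_of_smul_eq_zero _ fun ξ => ?_
  rw [sub_smul, h ξ, sub_self]

variable {U 𝔫 M T} in
/-- An inclusion `g • M n ⊆ (f₁, .., f_k) • M n` (a fixed number of generators) passes to the
patched module. -/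
theorem PatchRing.smul_mem_span_range_smul_top {κ : Type*} [Fintype κ] (g : ∀ n, T n)
    (f : ∀ n, κ → T n)
    (h : ∀ᶠ n in (U : Filter ℕ), ∀ v : M n, g n • v ∈
      (Ideal.span (Set.range (f n)) : Ideal (T n)) • (⊤ : Submodule (T n) (M n)))
    (ξ : Patch U 𝔫 M) :
    PatchRing.cls U 𝔫 M T g • ξ ∈
      (Ideal.span (Set.range fun c => PatchRing.cls U 𝔫 M T (fun n => f n c)) :
        Ideal (PatchRing U 𝔫 M T)) • (⊤ : Submodule (PatchRing U 𝔫 M T) (Patch U 𝔫 M)) := by
  obtain ⟨x, rfl⟩ := Patch.mk_surjective ξ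
  have hc : ∀ n, ∃ w : κ → M n, (∀ v : M n, g n • v ∈
      (Ideal.span (Set.range (f n)) : Ideal (T n)) • (⊤ : Submodule (T n) (M n))) →
      g n • x n = ∑ c, f n c • w c := by
    intro n
    by_cases h' : ∀ v : M n, g n • v ∈
        (Ideal.span (Set.range (f n)) : Ideal (T n)) • (⊤ : Submodule (T n) (M n))
    · obtain ⟨w, hw⟩ := (mem_span_range_smul_top_iff (f n) _).mp (h' (x n))
      exact ⟨w, fun _ => hw⟩
    · exact ⟨0, fun h'' => absurd h'' h'⟩
  choose w hw using hc
  rw [mem_span_range_smul_top_iff]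
  refine ⟨fun c => Patch.mk U 𝔫 M (fun n => w n c), ?_⟩
  simp only [PatchRing.cls_smul_mk, ← map_sum]
  refine Patch.mk_eq_mk_of_eventually_eq ?_
  filter_upwards [h] with n hn
  rw [hw n hn]
  simp [Finset.sum_apply]

variable {U 𝔫 M T} in
/-- An inclusion `g • M n ⊆ (a, b, c) • M n` passes to the patched module. -/
theorem PatchRing.smul_mem_span_triple_smul_top (g a b c : ∀ n, T n)
    (h : ∀ᶠ n in (U : Filter ℕ), ∀ v : M n, g n • v ∈
      (Ideal.span {a n, b n, c n} : Ideal (T n)) • (⊤ : Submodule (T n) (M n)))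
    (ξ : Patch U 𝔫 M) :
    PatchRing.cls U 𝔫 M T g • ξ ∈
      (Ideal.span {PatchRing.cls U 𝔫 M T a, PatchRing.cls U 𝔫 M T b, PatchRing.cls U 𝔫 M T c} :
        Ideal (PatchRing U 𝔫 M T)) • (⊤ : Submodule (PatchRing U 𝔫 M T) (Patch U 𝔫 M)) := by
  have h1 := PatchRing.smul_mem_span_range_smul_top (U := U) (𝔫 := 𝔫) (M := M) (T := T) g
    (fun n => ![a n, b n, c n]) (by simpa only [range_vec3] using h) ξ
  have h2 : (fun i : Fin 3 => PatchRing.cls U 𝔫 M T (fun n => ![a n, b n, c n] i)) =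
      ![PatchRing.cls U 𝔫 M T a, PatchRing.cls U 𝔫 M T b, PatchRing.cls U 𝔫 M T c] := by
    funext i
    fin_cases i <;> rfl
  rwa [h2, range_vec3] at h1

variable {U 𝔫 M T} in
/-- An inclusion `g • M n ⊆ x • M n` passes to the patched module. -/
theorem PatchRing.smul_mem_span_singleton_smul_top (g x : ∀ n, T n)
    (h : ∀ᶠ n in (U : Filter ℕ), ∀ v : M n, g n • v ∈
      (Ideal.span {x n} : Ideal (T n)) • (⊤ : Submodule (T n) (M n)))
    (ξ : Patch U 𝔫 M) :
    PatchRing.cls U 𝔫 M T g • ξ ∈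
      (Ideal.span {PatchRing.cls U 𝔫 M T x} : Ideal (PatchRing U 𝔫 M T)) •
        (⊤ : Submodule (PatchRing U 𝔫 M T) (Patch U 𝔫 M)) := by
  have h1 := PatchRing.smul_mem_span_range_smul_top (U := U) (𝔫 := 𝔫) (M := M) (T := T) g
    (fun n => ![x n]) (by simpa only [range_vec1] using h) ξ
  have h2 : (fun i : Fin 1 => PatchRing.cls U 𝔫 M T (fun n => ![x n] i)) =
      ![PatchRing.cls U 𝔫 M T x] := by
    funext i
    fin_cases i
    rfl
  rwa [h2, range_vec1] at h1

variable {U 𝔫 M T} in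
/-- If the patched module is free over a domain `S`, the patched ring is `S`-torsion-free. -/
theorem PatchRing.smul_eq_zero [IsDomain S] {ι : Type*} (b : Module.Basis ι S (Patch U 𝔫 M))
    (c : S) (t : PatchRing U 𝔫 M T) (h : c • t = 0) : c = 0 ∨ t = 0 := by
  by_cases hc : c = 0
  · exact Or.inl hc
  · right
    refine PatchRing.eq_zero_of_smul_eq_zero t fun ξ => ?_
    have h1 : c • (t • ξ) = 0 := by rw [← smul_assoc, h, zero_smul]
    have h2 : b.repr (t • ξ) = 0 := by
      ext i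
      have h3 := congrArg (fun y => b.repr y i) h1
      simp only [map_smul, Finsupp.smul_apply, smul_eq_mul, map_zero, Finsupp.zero_apply] at h3
      exact (mul_eq_zero.mp h3).resolve_left hc
    exact b.repr.map_eq_zero_iff.mp h2

variable {U 𝔫 M T} in
theorem PatchRing.evIdeal_sup_le {I J : ∀ n, Ideal (T n)} {Q : Ideal (PatchRing U 𝔫 M T)}
    (hI : PatchRing.evIdeal U 𝔫 M T I ≤ Q) (hJ : PatchRing.evIdeal U 𝔫 M T J ≤ Q) :
    PatchRing.evIdeal U 𝔫 M T (fun n => I n ⊔ J n) ≤ Q :=
  (PatchRing.evIdeal_sup U 𝔫 M T I J).trans (sup_le hI hJ)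

variable {U 𝔫 M T} in
theorem PatchRing.evIdeal_span_range_le {κ : Type*} [Fintype κ] (g : ∀ n, κ → T n)
    {Q : Ideal (PatchRing U 𝔫 M T)} (h : ∀ c, PatchRing.cls U 𝔫 M T (fun n => g n c) ∈ Q) :
    PatchRing.evIdeal U 𝔫 M T (fun n => Ideal.span (Set.range (g n))) ≤ Q :=
  (PatchRing.evIdeal_span_range U 𝔫 M T g).trans (Ideal.span_le.mpr (by
    rintro _ ⟨c, rfl⟩
    exact h c))

variable {U 𝔫 M T} in
theorem PatchRing.evIdeal_span_singleton_le (x : ∀ n, T n)
    {Q : Ideal (PatchRing U 𝔫 M T)} (h : PatchRing.cls U 𝔫 M T x ∈ Q) :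
    PatchRing.evIdeal U 𝔫 M T (fun n => Ideal.span {x n}) ≤ Q :=
  (PatchRing.evIdeal_span_singleton U 𝔫 M T x).trans
    ((Ideal.span_singleton_le_iff_mem (I := Q)).mpr h)

variable {U 𝔫 M T} in
/-- The maximal ideal of the patched ring is contained in `evIdeal` of any ideals containing
the maximal ideals `U`-eventually. -/
theorem PatchRing.maximalIdeal_le_evIdeal [∀ n, IsLocalRing (T n)]
    [IsLocalRing (PatchRing U 𝔫 M T)] {I : ∀ n, Ideal (T n)}
    (h : ∀ᶠ n in (U : Filter ℕ), maximalIdeal (T n) ≤ I n) :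
    maximalIdeal (PatchRing U 𝔫 M T) ≤ PatchRing.evIdeal U 𝔫 M T I := by
  intro a ha
  obtain ⟨t, rfl⟩ := PatchRing.cls_surjective a
  have h1 := PatchRing.cls_mem_maximalIdeal_iff.mp ha
  exact PatchRing.cls_mem_evIdeal (by filter_upwards [h, h1] with n hn h2 using hn h2)

end SmulTop

section Package

variable {S : Type u} [CommRing S] [IsNoetherianRing S] (𝔫 : Ideal S) [IsAdicComplete 𝔫 S]

/-- The structure of the patched ring of finite-level Taylor–Wiles data: a Noetherian local
ring, finite (hence integral) over `S`, containing `S`, over which the patched module is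
finite. -/
theorem PatchRing.package (U : Ultrafilter ℕ) (hfin : ∀ k : ℕ, Finite (S ⧸ 𝔫 ^ k))
    (h𝔫 : 𝔫 ≤ Ideal.jacobson ⊥) [Nontrivial S] {ι : Type*} [Fintype ι] [Nonempty ι]
    (M : ℕ → Type v) [∀ n, AddCommGroup (M n)] [∀ n, Module S (M n)]
    (T : ℕ → Type w) [∀ n, CommRing (T n)] [∀ n, IsLocalRing (T n)] [∀ n, Algebra S (T n)]
    [∀ n, Module (T n) (M n)] [∀ n, IsScalarTower S (T n) (M n)]
    (e : ∀ n, ι → M n)
    (hspan : ∀ᶠ n in (U : Filter ℕ), ∀ x : M n, ∃ c : ι → S, x = ∑ i, c i • e n i)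
    (a : ℕ → Ideal S)
    (hrel : ∀ᶠ n in (U : Filter ℕ), ∀ c : ι → S, ∑ i, c i • e n i = 0 → ∀ i, c i ∈ a n)
    (ha : ∀ k : ℕ, ∀ᶠ n in (U : Filter ℕ), a n ≤ 𝔫 ^ k) :
    IsLocalRing (PatchRing U 𝔫 M T) ∧ IsNoetherianRing (PatchRing U 𝔫 M T) ∧
      Algebra.IsIntegral S (PatchRing U 𝔫 M T) ∧
      Module.Finite (PatchRing U 𝔫 M T) (Patch U 𝔫 M) ∧
      Function.Injective (algebraMap S (PatchRing U 𝔫 M T)) := by
  classical
  let b : Module.Basis ι S (Patch U 𝔫 M) :=
    Patch.basis U 𝔫 M 𝔫 hfin (by simp) h𝔫 e hspan a hrel ha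
  have hinj : Function.Injective (algebraMap S (PatchRing U 𝔫 M T)) :=
    PatchRing.algebraMap_injective U 𝔫 M T b
  have : Nontrivial (PatchRing U 𝔫 M T) := hinj.nontrivial
  have : Module.Finite S (PatchRing U 𝔫 M T) := PatchRing.finite U 𝔫 M T b
  have : Module.Finite S (Patch U 𝔫 M) := Module.Finite.of_basis b
  exact ⟨PatchRing.isLocalRing U 𝔫 M T, IsNoetherianRing.of_finite S _,
    Algebra.IsIntegral.of_finite S _, Module.Finite.of_restrictScalars_finite S _ _, hinj⟩
/-- `PatchRing.package` over a domain `S`, with torsion-freeness of the patched ring. -/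
theorem PatchRing.package_domain [IsDomain S] (U : Ultrafilter ℕ)
    (hfin : ∀ k : ℕ, Finite (S ⧸ 𝔫 ^ k))
    (h𝔫 : 𝔫 ≤ Ideal.jacobson ⊥) {ι : Type*} [Fintype ι] [Nonempty ι]
    (M : ℕ → Type v) [∀ n, AddCommGroup (M n)] [∀ n, Module S (M n)]
    (T : ℕ → Type w) [∀ n, CommRing (T n)] [∀ n, IsLocalRing (T n)] [∀ n, Algebra S (T n)]
    [∀ n, Module (T n) (M n)] [∀ n, IsScalarTower S (T n) (M n)]
    (e : ∀ n, ι → M n)
    (hspan : ∀ᶠ n in (U : Filter ℕ), ∀ x : M n, ∃ c : ι → S, x = ∑ i, c i • e n i)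
    (a : ℕ → Ideal S)
    (hrel : ∀ᶠ n in (U : Filter ℕ), ∀ c : ι → S, ∑ i, c i • e n i = 0 → ∀ i, c i ∈ a n)
    (ha : ∀ k : ℕ, ∀ᶠ n in (U : Filter ℕ), a n ≤ 𝔫 ^ k) :
    IsLocalRing (PatchRing U 𝔫 M T) ∧ IsNoetherianRing (PatchRing U 𝔫 M T) ∧
      Algebra.IsIntegral S (PatchRing U 𝔫 M T) ∧
      Module.Finite (PatchRing U 𝔫 M T) (Patch U 𝔫 M) ∧
      Function.Injective (algebraMap S (PatchRing U 𝔫 M T)) ∧
      ∀ (c : S) (t : PatchRing U 𝔫 M T), c • t = 0 → c = 0 ∨ t = 0 := by
  classical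
  obtain ⟨h1, h2, h3, h4, h5⟩ := PatchRing.package 𝔫 U hfin h𝔫 M T e hspan a hrel ha
  exact ⟨h1, h2, h3, h4, h5, PatchRing.smul_eq_zero
    (Patch.basis U 𝔫 M 𝔫 hfin (by simp) h𝔫 e hspan a hrel ha)⟩

end Package

end Fermat.Agent.S43.helper2336
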