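/-
helper2336 — PATCH-PIVOT: the adapter between the ultrapatching functor
(`helper2336_UltraPatch`, `helper2336_PatchRing`) and the pivot endgame (`helper5638_Pivot`,
findings #3710 / #3904).

* `PatchRing.matrix`, `PatchRing.imageIncl`: hypothesis (X) passes to the limit.
* `pivot_patch_false`, `pivot_patch_false_sq`: finite-level Taylor–Wiles data with (X) and
  `m + 3 ≤ r` marked generators are contradictory.
-/
import Fermat.Agent.S43.helper2336_PatchRing
import Fermat.Agent.S43.helper5638_Pivot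

set_option autoImplicit false

namespace Fermat.Agent.S43.helper2336

open Filter IsLocalRing

universe u v w

section PatchRing

variable {S : Type u} [CommRing S] (U : Ultrafilter ℕ) (𝔫 : Ideal S)
variable (M : ℕ → Type v) [∀ n, AddCommGroup (M n)] [∀ n, Module S (M n)]
variable (T : ℕ → Type w) [∀ n, CommRing (T n)] [∀ n, Algebra S (T n)]
variable [∀ n, Module (T n) (M n)] [∀ n, IsScalarTower S (T n) (M n)]

/-- The matrix of classes of a sequence of `2 × 2` matrices. -/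
noncomputable def PatchRing.matrix (A : ∀ n, Matrix (Fin 2) (Fin 2) (T n)) :
    Matrix (Fin 2) (Fin 2) (PatchRing U 𝔫 M T) :=
  Matrix.of fun i j => PatchRing.cls U 𝔫 M T (fun n => A n i j)

@[simp] theorem PatchRing.matrix_apply (A : ∀ n, Matrix (Fin 2) (Fin 2) (T n)) (i j : Fin 2) :
    PatchRing.matrix U 𝔫 M T A i j = PatchRing.cls U 𝔫 M T (fun n => A n i j) := rfl

/-- `evIdeal` of the ideals of entries is contained in the ideal of entries of the matrix of
classes. -/
theorem PatchRing.evIdeal_entryIdeal (A : ∀ n, Matrix (Fin 2) (Fin 2) (T n)) :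
    PatchRing.evIdeal U 𝔫 M T (fun n => helper5638.entryIdeal (A n)) ≤
      helper5638.entryIdeal (PatchRing.matrix U 𝔫 M T A) :=
  PatchRing.evIdeal_span_range U 𝔫 M T (κ := Fin 2 × Fin 2) (fun n ij => A n ij.1 ij.2)

/-- Hypothesis (X) passes to the patched module. -/
theorem PatchRing.imageIncl (Gm Nm : ∀ n, Matrix (Fin 2) (Fin 2) (T n))
    (hX : ∀ᶠ n in (U : Filter ℕ), helper5638.ImageIncl (M n) (Gm n) (Nm n)) :
    helper5638.ImageIncl (Patch U 𝔫 M) (PatchRing.matrix U 𝔫 M T Gm)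
      (PatchRing.matrix U 𝔫 M T Nm) := by
  intro v
  choose x hx using fun j => Patch.mk_surjective (v j)
  have hc : ∀ n, ∃ w : Fin 2 → M n, helper5638.ImageIncl (M n) (Gm n) (Nm n) →
      ∀ i, ∑ j, Gm n i j • x j n = ∑ j, Nm n i j • w j := by
    intro n
    by_cases h : helper5638.ImageIncl (M n) (Gm n) (Nm n)
    · obtain ⟨w, hw⟩ := h (fun j => x j n)
      exact ⟨w, fun _ => hw⟩
    · exact ⟨0, fun h' => absurd h' h⟩
  choose w hw using hc
  refine ⟨fun j => Patch.mk U 𝔫 M (fun n => w n j), fun i => ?_⟩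
  simp only [← hx, PatchRing.matrix_apply, PatchRing.cls_smul_mk, ← map_sum]
  refine Patch.mk_eq_mk_of_eventually_eq ?_
  filter_upwards [hX] with n hn
  simpa [Finset.sum_apply] using hw n hn i

variable {U 𝔫 M T} in
/-- Generation of the maximal ideals by the entries of two matrices, one element and `m`
further elements passes to the patched ring. -/
theorem PatchRing.maximalIdeal_le [∀ n, IsLocalRing (T n)] [IsLocalRing (PatchRing U 𝔫 M T)]
    (A B : ∀ n, Matrix (Fin 2) (Fin 2) (T n)) (lam : ∀ n, T n) {m : ℕ} (z : ∀ n, Fin m → T n)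
    (hgen : ∀ᶠ n in (U : Filter ℕ), maximalIdeal (T n) ≤
      helper5638.entryIdeal (A n) ⊔ helper5638.entryIdeal (B n) ⊔ Ideal.span {lam n} ⊔
        Ideal.span (Set.range (z n))) :
    maximalIdeal (PatchRing U 𝔫 M T) ≤
      helper5638.entryIdeal (PatchRing.matrix U 𝔫 M T A) ⊔
        helper5638.entryIdeal (PatchRing.matrix U 𝔫 M T B) ⊔
        Ideal.span {PatchRing.cls U 𝔫 M T lam} ⊔
        Ideal.span (Set.range fun i => PatchRing.cls U 𝔫 M T (fun n => z n i)) := by
  intro a ha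
  obtain ⟨t, rfl⟩ := PatchRing.cls_surjective a
  have h := PatchRing.cls_mem_maximalIdeal_iff.mp ha
  have h1 : PatchRing.cls U 𝔫 M T t ∈ PatchRing.evIdeal U 𝔫 M T (fun n =>
      helper5638.entryIdeal (A n) ⊔ helper5638.entryIdeal (B n) ⊔ Ideal.span {lam n} ⊔
        Ideal.span (Set.range (z n))) :=
    PatchRing.cls_mem_evIdeal (by filter_upwards [h, hgen] with n hn hg using hg hn)
  have h2 := PatchRing.evIdeal_sup U 𝔫 M T
    (fun n => helper5638.entryIdeal (A n) ⊔ helper5638.entryIdeal (B n) ⊔ Ideal.span {lam n})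
    (fun n => Ideal.span (Set.range (z n))) h1
  refine (sup_le_sup ((PatchRing.evIdeal_sup U 𝔫 M T _ _).trans
    (sup_le_sup ((PatchRing.evIdeal_sup U 𝔫 M T _ _).trans
      (sup_le_sup (PatchRing.evIdeal_entryIdeal U 𝔫 M T A)
        (PatchRing.evIdeal_entryIdeal U 𝔫 M T B)))
      (PatchRing.evIdeal_span_singleton U 𝔫 M T lam)))
    (PatchRing.evIdeal_span_range U 𝔫 M T z)) h2

theorem PatchRing.matrix_sub_scalar (Phi : ∀ n, Matrix (Fin 2) (Fin 2) (T n)) (β : ∀ n, T n) :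
    PatchRing.matrix U 𝔫 M T (fun n => Phi n - Matrix.scalar (Fin 2) (β n)) =
      PatchRing.matrix U 𝔫 M T Phi - Matrix.scalar (Fin 2) (PatchRing.cls U 𝔫 M T β) := by
  ext i j
  fin_cases i <;> fin_cases j <;>
    simp [PatchRing.matrix, Matrix.sub_apply, Matrix.scalar_apply, Matrix.diagonal_apply] <;> rfl

theorem PatchRing.matrix_mul_sub_scalar (Phi : ∀ n, Matrix (Fin 2) (Fin 2) (T n))
    (β : ∀ n, T n) :
    PatchRing.matrix U 𝔫 M T (fun n => Phi n * Phi n - Matrix.scalar (Fin 2) (β n * β n)) =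
      PatchRing.matrix U 𝔫 M T Phi * PatchRing.matrix U 𝔫 M T Phi -
        Matrix.scalar (Fin 2) (PatchRing.cls U 𝔫 M T β * PatchRing.cls U 𝔫 M T β) := by
  ext i j
  fin_cases i <;> fin_cases j <;>
    simp [PatchRing.matrix, Matrix.mul_apply, Fin.sum_univ_two, Matrix.sub_apply,
      Matrix.scalar_apply, Matrix.diagonal_apply] <;> rfl

end PatchRing

section Endgame

variable {S : Type u} [CommRing S] [IsNoetherianRing S] (𝔫 : Ideal S) [IsAdicComplete 𝔫 S]

/-- **Patched pivot.** Finite-level Taylor–Wiles data cannot satisfy hypothesis (X) of findings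
#3710 when the maximal ideals of the Hecke rings are generated by the entries of `Nm n`, of
`Gm n`, `lam n` and `m ≤ r - 3` further elements.

`S` is a Noetherian ring of dimension `≥ r + 1`, complete for an ideal `𝔫` in its Jacobson
radical with finite quotients `S ⧸ 𝔫 ^ k` (e.g. `O⟦s₁..s_r⟧`); `M n` is generated over `S` by
`e n` with all relations in `a n`, and `a n → 0`; `T n` is a local `S`-algebra acting on
`M n` (not assumed finite, complete or faithful). -/
theorem pivot_patch_false (hfin : ∀ k : ℕ, Finite (S ⧸ 𝔫 ^ k)) (h𝔫 : 𝔫 ≤ Ideal.jacobson ⊥)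
    {r m : ℕ} (hmr : m + 3 ≤ r) (hS : ((r + 1 : ℕ) : WithBot ℕ∞) ≤ ringKrullDim S)
    {ι : Type*} [Fintype ι] [Nonempty ι]
    (M : ℕ → Type v) [∀ n, AddCommGroup (M n)] [∀ n, Module S (M n)]
    (T : ℕ → Type w) [∀ n, CommRing (T n)] [∀ n, IsLocalRing (T n)] [∀ n, Algebra S (T n)]
    [∀ n, Module (T n) (M n)] [∀ n, IsScalarTower S (T n) (M n)]
    (e : ∀ n, ι → M n)
    (hspan : ∀ n, ∀ x : M n, ∃ c : ι → S, x = ∑ i, c i • e n i)
    (a : ℕ → Ideal S)
    (hrel : ∀ n, ∀ c : ι → S, ∑ i, c i • e n i = 0 → ∀ i, c i ∈ a n)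
    (ha : ∀ k : ℕ, ∀ᶠ n in atTop, a n ≤ 𝔫 ^ k)
    (Gm Nm : ∀ n, Matrix (Fin 2) (Fin 2) (T n))
    (hN : ∀ n i j, Nm n i j ∈ maximalIdeal (T n))
    (h11 : ∀ n, Nm n 1 1 ∈ Ideal.span ({Nm n 0 0, Nm n 0 1, Nm n 1 0} : Set (T n)))
    (hX : ∀ n, helper5638.ImageIncl (M n) (Gm n) (Nm n))
    (lam : ∀ n, T n) (k : ℕ) (hlam : ∀ n, lam n ^ k ∈ Ideal.span {Gm n 0 0 + Gm n 1 1})
    (z : ∀ n, Fin m → T n) (hz : ∀ n i, z n i ∈ maximalIdeal (T n))
    (hgen : ∀ n, maximalIdeal (T n) ≤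
      helper5638.entryIdeal (Nm n) ⊔ helper5638.entryIdeal (Gm n) ⊔ Ideal.span {lam n} ⊔
        Ideal.span (Set.range (z n))) : False := by
  classical
  set U : Ultrafilter ℕ := Filter.hyperfilter ℕ with hU
  have hUle : (U : Filter ℕ) ≤ atTop := Nat.hyperfilter_le_atTop
  have : Nontrivial S := by
    rcases subsingleton_or_nontrivial S with h | h
    · exfalso
      rw [ringKrullDim_eq_bot_of_subsingleton] at hS
      simp at hS
    · exact h
  obtain ⟨hloc, hnoeth, hint, hfinP, hinj⟩ := PatchRing.package 𝔫 U hfin h𝔫 M T e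
    (Eventually.of_forall hspan) a (Eventually.of_forall hrel) (fun k => (ha k).filter_mono hUle)
  refine helper5638.pivot_endgame (S := S) (T := PatchRing U 𝔫 M T) hinj (P := Patch U 𝔫 M)
    PatchRing.eq_zero_of_smul_eq_zero (Gm := PatchRing.matrix U 𝔫 M T Gm)
    (Nm := PatchRing.matrix U 𝔫 M T Nm) ?_ ?_ ?_ (PatchRing.cls U 𝔫 M T lam) ?_
    (fun i => PatchRing.cls U 𝔫 M T (fun n => z n i)) ?_ ?_ hmr hS
  · intro i j
    exact PatchRing.cls_mem_maximalIdeal_iff.mpr (Eventually.of_forall fun n => hN n i j)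
  · exact PatchRing.cls_mem_span_triple (Eventually.of_forall h11)
  · exact PatchRing.imageIncl U 𝔫 M T Gm Nm (Eventually.of_forall hX)
  · exact ⟨k, PatchRing.cls_pow_mem_span_singleton k (Eventually.of_forall hlam)⟩
  · intro i
    exact PatchRing.cls_mem_maximalIdeal_iff.mpr (Eventually.of_forall fun n => hz n i)
  · exact PatchRing.maximalIdeal_le Nm Gm lam z (Eventually.of_forall hgen)

/-- **Patched pivot, squared (sign-free) form.** Same as `pivot_patch_false` with hypothesis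
(X) for `Phi n ^ 2 - β n ^ 2` (the frozen shape of the Frobenius relation on the toric part),
`Phi n - β n` vanishing residually (hard case) and `2 β n` a unit. -/
theorem pivot_patch_false_sq (hfin : ∀ k : ℕ, Finite (S ⧸ 𝔫 ^ k)) (h𝔫 : 𝔫 ≤ Ideal.jacobson ⊥)
    {r m : ℕ} (hmr : m + 3 ≤ r) (hS : ((r + 1 : ℕ) : WithBot ℕ∞) ≤ ringKrullDim S)
    {ι : Type*} [Fintype ι] [Nonempty ι]
    (M : ℕ → Type v) [∀ n, AddCommGroup (M n)] [∀ n, Module S (M n)]
    (T : ℕ → Type w) [∀ n, CommRing (T n)] [∀ n, IsLocalRing (T n)] [∀ n, Algebra S (T n)]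
    [∀ n, Module (T n) (M n)] [∀ n, IsScalarTower S (T n) (M n)]
    (e : ∀ n, ι → M n)
    (hspan : ∀ n, ∀ x : M n, ∃ c : ι → S, x = ∑ i, c i • e n i)
    (a : ℕ → Ideal S)
    (hrel : ∀ n, ∀ c : ι → S, ∑ i, c i • e n i = 0 → ∀ i, c i ∈ a n)
    (ha : ∀ k : ℕ, ∀ᶠ n in atTop, a n ≤ 𝔫 ^ k)
    (Phi Nm : ∀ n, Matrix (Fin 2) (Fin 2) (T n))
    (hN : ∀ n i j, Nm n i j ∈ maximalIdeal (T n))
    (h11 : ∀ n, Nm n 1 1 ∈ Ideal.span ({Nm n 0 0, Nm n 0 1, Nm n 1 0} : Set (T n)))
    (β : ∀ n, T n) (hβ : ∀ n, IsUnit (2 * β n))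
    (hPhi : ∀ n i j, (Phi n - Matrix.scalar (Fin 2) (β n)) i j ∈ maximalIdeal (T n))
    (hX : ∀ n, helper5638.ImageIncl (M n)
      (Phi n * Phi n - Matrix.scalar (Fin 2) (β n * β n)) (Nm n))
    (lam : ∀ n, T n) (k : ℕ)
    (hlam : ∀ n, lam n ^ k ∈ Ideal.span
      {(Phi n * Phi n - Matrix.scalar (Fin 2) (β n * β n)) 0 0 +
        (Phi n * Phi n - Matrix.scalar (Fin 2) (β n * β n)) 1 1})
    (z : ∀ n, Fin m → T n) (hz : ∀ n i, z n i ∈ maximalIdeal (T n))
    (hgen : ∀ n, maximalIdeal (T n) ≤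
      helper5638.entryIdeal (Nm n) ⊔
        helper5638.entryIdeal (Phi n - Matrix.scalar (Fin 2) (β n)) ⊔ Ideal.span {lam n} ⊔
        Ideal.span (Set.range (z n))) : False := by
  classical
  set U : Ultrafilter ℕ := Filter.hyperfilter ℕ with hU
  have hUle : (U : Filter ℕ) ≤ atTop := Nat.hyperfilter_le_atTop
  have : Nontrivial S := by
    rcases subsingleton_or_nontrivial S with h | h
    · exfalso
      rw [ringKrullDim_eq_bot_of_subsingleton] at hS
      simp at hS
    · exact h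
  obtain ⟨hloc, hnoeth, hint, hfinP, hinj⟩ := PatchRing.package 𝔫 U hfin h𝔫 M T e
    (Eventually.of_forall hspan) a (Eventually.of_forall hrel) (fun k => (ha k).filter_mono hUle)
  have h2β : IsUnit (2 * PatchRing.cls U 𝔫 M T β) := by
    have h : (2 : PatchRing U 𝔫 M T) * PatchRing.cls U 𝔫 M T β =
        PatchRing.cls U 𝔫 M T (fun n => 2 * β n) := by
      rw [← map_ofNat (PatchRing.cls U 𝔫 M T) 2, ← map_mul]
      rfl
    rw [h]
    exact PatchRing.isUnit_cls_of_eventually_isUnit (Eventually.of_forall hβ)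
  have h1 : ringKrullDim (PatchRing U 𝔫 M T) ≤ ((m + 3 : ℕ) : WithBot ℕ∞) := by
    refine helper5638.ringKrullDim_le_of_imageIncl_sq (T := PatchRing U 𝔫 M T)
      (P := Patch U 𝔫 M) PatchRing.eq_zero_of_smul_eq_zero
      (Phi := PatchRing.matrix U 𝔫 M T Phi) (Nm := PatchRing.matrix U 𝔫 M T Nm) ?_ ?_
      (PatchRing.cls U 𝔫 M T β) h2β ?_ ?_ (PatchRing.cls U 𝔫 M T lam) ?_
      (fun i => PatchRing.cls U 𝔫 M T (fun n => z n i)) ?_ ?_
    · intro i j
      exact PatchRing.cls_mem_maximalIdeal_iff.mpr (Eventually.of_forall fun n => hN n i j)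
    · exact PatchRing.cls_mem_span_triple (Eventually.of_forall h11)
    · intro i j
      rw [← PatchRing.matrix_sub_scalar]
      exact PatchRing.cls_mem_maximalIdeal_iff.mpr (Eventually.of_forall fun n => hPhi n i j)
    · rw [← PatchRing.matrix_mul_sub_scalar]
      exact PatchRing.imageIncl U 𝔫 M T _ Nm (Eventually.of_forall hX)
    · rw [← PatchRing.matrix_mul_sub_scalar]
      exact ⟨k, PatchRing.cls_pow_mem_span_singleton k (Eventually.of_forall hlam)⟩
    · intro i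
      exact PatchRing.cls_mem_maximalIdeal_iff.mpr (Eventually.of_forall fun n => hz n i)
    · rw [← PatchRing.matrix_sub_scalar]
      exact PatchRing.maximalIdeal_le Nm _ lam z (Eventually.of_forall hgen)
  have h2 : ((r + 1 : ℕ) : WithBot ℕ∞) ≤ ((m + 3 : ℕ) : WithBot ℕ∞) :=
    (hS.trans (helper5638.ringKrullDim_le_of_isIntegral_of_injective hinj)).trans h1
  have h3 : r + 1 ≤ m + 3 := by exact_mod_cast h2
  omega

end Endgame

end Fermat.Agent.S43.helper2336
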