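/-
helper5638 — Mathlib-only algebra core of the "zero-nebentypus" (monodromy exactness) form of
Ribet's pivot, findings #3710.

Setting of the application: `T` a (patched) local Hecke algebra, `P` a finite faithful `T`-module,
`H = T² ⊗ P = P²` the (patched) Tate module, `Nm = ρ(τ) - 1` for a generator `τ` of tame
`p`-inertia at `q`, `Gm = ρ(Frob_q) - β` with `β` the Hecke scalar by which Frobenius acts on the
inertia coinvariants. The geometric input is `ImageIncl Gm Nm P`: `Gm • P² ⊆ Nm • P²`.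

* `entry_mem_radical`: every entry of `Gm` lies in the radical of the ideal of entries of `Nm`.
* `entry_mem_maximalIdeal`: Mazur's principle in matrix form (`ρ̄(Frob_q)` is the scalar `β̄`
  as soon as `ρ̄` is unramified at `q`).
* `ringKrullDim_le_of_imageIncl`: if moreover the maximal ideal of `T` is generated by the
  entries of `Nm`, of `Gm`, an element `lam` with `lam ^ k ∈ (tr Gm)`, and `m` further elements,
  then `dim T ≤ m + 3`.
* `pivot_endgame`: contradiction with `dim T ≥ r + 1` when `m + 3 ≤ r`.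
* `entry11_mem_of_trace`, `entry11_mem_of_det`: the ideal of entries of `Nm` is 3-generated as
  soon as `tr Nm = 0`, or `det (1 + Nm) = 1` (audit #3795).
* `entryIdeal_le_of_mul_eq`: used for the squared (sign-free) form `Gm2 = Gm * (2β + Gm)`
  (audits #3795, #3810).
* `le_ringKrullDim_mvPowerSeries`, `succ_le_ringKrullDim_mvPowerSeries`: `dim O⟦s₁..s_r⟧ ≥ r + 1`.
-/
import Mathlib

set_option autoImplicit false

namespace Fermat.Agent.S43.helper5638

open IsLocalRing

section Radical

variable {T : Type*} [CommRing T] {P : Type*} [AddCommGroup P] [Module T P]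

/-- Determinant trick: if multiplication by `g` maps a finite faithful module `P` into `I • P`,
then `g` lies in the radical of `I`. -/
theorem mem_radical_of_smul_mem_smul_top [Module.Finite T P]
    (hfaith : ∀ t : T, (∀ x : P, t • x = 0) → t = 0) (I : Ideal T) (g : T)
    (hg : ∀ x : P, g • x ∈ I • (⊤ : Submodule T P)) : g ∈ I.radical := by
  classical
  obtain ⟨p, hmonic, -, hcoeff, hp⟩ :=
    LinearMap.exists_monic_and_natDegree_eq_and_coeff_mem_pow_and_aeval_eq_zero T
      (algebraMap T (Module.End T P) g) I (by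
        rintro _ ⟨x, rfl⟩
        simpa using hg x)
  rw [Polynomial.aeval_algebraMap_apply_eq_algebraMap_eval] at hp
  have h2 : p.eval g = 0 := hfaith _ (fun x => by
    have := congrArg (fun f : Module.End T P => f x) hp
    simpa using this)
  refine ⟨p.natDegree, ?_⟩
  rw [Polynomial.eval_eq_sum_range, Finset.sum_range_succ, hmonic.coeff_natDegree, one_mul] at h2
  have h3 : g ^ p.natDegree = - ∑ k ∈ Finset.range p.natDegree, p.coeff k * g ^ k := by
    linear_combination h2
  rw [h3]
  refine I.neg_mem (I.sum_mem fun k hk => I.mul_mem_right _ ?_)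
  have hk' : p.natDegree - k ≠ 0 := by
    have := Finset.mem_range.mp hk
    omega
  exact Ideal.pow_le_self hk' (hcoeff k)

end Radical

section Pivot

variable {T : Type*} [CommRing T] (P : Type*) [AddCommGroup P] [Module T P]

/-- The ideal generated by the entries of a `2 × 2` matrix. -/
def entryIdeal (M : Matrix (Fin 2) (Fin 2) T) : Ideal T :=
  Ideal.span (Set.range fun ij : Fin 2 × Fin 2 => M ij.1 ij.2)

theorem entry_mem_entryIdeal (M : Matrix (Fin 2) (Fin 2) T) (i j : Fin 2) :
    M i j ∈ entryIdeal M :=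
  Ideal.subset_span ⟨(i, j), rfl⟩

theorem entryIdeal_le_iff {M : Matrix (Fin 2) (Fin 2) T} {J : Ideal T} :
    entryIdeal M ≤ J ↔ ∀ i j, M i j ∈ J := by
  constructor
  · intro h i j
    exact h (entry_mem_entryIdeal M i j)
  · intro h
    refine Ideal.span_le.mpr ?_
    rintro _ ⟨ij, rfl⟩
    exact h ij.1 ij.2

theorem entryIdeal_mul_le_left (A B : Matrix (Fin 2) (Fin 2) T) :
    entryIdeal (A * B) ≤ entryIdeal A := by
  refine entryIdeal_le_iff.mpr fun i j => ?_
  rw [Matrix.mul_apply]
  exact Ideal.sum_mem _ fun k _ => Ideal.mul_mem_right _ _ (entry_mem_entryIdeal A i k)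

/-- If `G2 = G * U` with `U` right-invertible, the entries of `G` lie in the ideal of entries of
`G2`. Application: `G = ρ(Φ) - β`, `G2 = ρ(Φ)² - β² = G * (2β + G)`. -/
theorem entryIdeal_le_of_mul_eq {G G2 U V : Matrix (Fin 2) (Fin 2) T} (h : G2 = G * U)
    (hUV : U * V = 1) : entryIdeal G ≤ entryIdeal G2 := by
  have hG : G = G2 * V := by rw [h, Matrix.mul_assoc, hUV, Matrix.mul_one]
  rw [hG]
  exact entryIdeal_mul_le_left G2 V

/-- `tr Nm = 0` makes the ideal of entries of `Nm` 3-generated. -/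
theorem entry11_mem_of_trace {Nm : Matrix (Fin 2) (Fin 2) T} (htr : Nm 0 0 + Nm 1 1 = 0) :
    Nm 1 1 ∈ Ideal.span ({Nm 0 0, Nm 0 1, Nm 1 0} : Set T) := by
  have : Nm 1 1 = - Nm 0 0 := by linear_combination htr
  rw [this]
  exact neg_mem (Ideal.subset_span (by simp))

/-- `det (1 + Nm) = 1` with `Nm 0 0` in the maximal ideal makes the ideal of entries of `Nm`
3-generated (no unipotence needed). -/
theorem entry11_mem_of_det [IsLocalRing T] {Nm : Matrix (Fin 2) (Fin 2) T}
    (h00 : Nm 0 0 ∈ maximalIdeal T) (hdet : (1 + Nm).det = 1) :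
    Nm 1 1 ∈ Ideal.span ({Nm 0 0, Nm 0 1, Nm 1 0} : Set T) := by
  have hu : IsUnit (1 + Nm 0 0) := by
    by_contra hnu
    have h1 : (1 + Nm 0 0) ∈ maximalIdeal T := (IsLocalRing.mem_maximalIdeal _).mpr hnu
    have h2 : (1 : T) ∈ maximalIdeal T := by
      have := Ideal.sub_mem _ h1 h00
      rwa [add_sub_cancel_right] at this
    exact (Ideal.ne_top_iff_one _).mp (IsLocalRing.maximalIdeal.isMaximal T).ne_top h2
  obtain ⟨u, hu'⟩ := hu
  have hdet' : (1 + Nm 0 0) * (1 + Nm 1 1) - Nm 0 1 * Nm 1 0 = 1 := by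
    have := hdet
    rw [Matrix.det_fin_two] at this
    simpa using this
  have key : Nm 1 1 = (↑u⁻¹ : T) * (Nm 0 1 * Nm 1 0 - Nm 0 0) := by
    have h3 : (u : T) * Nm 1 1 = Nm 0 1 * Nm 1 0 - Nm 0 0 := by
      rw [hu']
      linear_combination hdet'
    calc Nm 1 1 = (↑u⁻¹ : T) * ((u : T) * Nm 1 1) := by
          rw [← mul_assoc, Units.inv_mul, one_mul]
      _ = (↑u⁻¹ : T) * (Nm 0 1 * Nm 1 0 - Nm 0 0) := by rw [h3]
  rw [key]
  refine Ideal.mul_mem_left _ _ (Ideal.sub_mem _ ?_ ?_)
  · exact Ideal.mul_mem_right _ _ (Ideal.subset_span (by simp))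
  · exact Ideal.subset_span (by simp)

/-- Hypothesis (X): the image of `Gm` acting on `P²` is contained in the image of `Nm`. -/
def ImageIncl (Gm Nm : Matrix (Fin 2) (Fin 2) T) : Prop :=
  ∀ v : Fin 2 → P, ∃ w : Fin 2 → P, ∀ i, ∑ j, Gm i j • v j = ∑ j, Nm i j • w j

variable {P}

/-- Under (X), every entry of `Gm` lies in the radical of the ideal of entries of `Nm`. -/
theorem entry_mem_radical [Module.Finite T P]
    (hfaith : ∀ t : T, (∀ x : P, t • x = 0) → t = 0)
    {Gm Nm : Matrix (Fin 2) (Fin 2) T} (hX : ImageIncl P Gm Nm) (i j : Fin 2) :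
    Gm i j ∈ (entryIdeal Nm).radical := by
  classical
  refine mem_radical_of_smul_mem_smul_top hfaith _ _ fun x => ?_
  obtain ⟨w, hw⟩ := hX (Pi.single j x)
  have h1 : ∑ j', Gm i j' • (Pi.single j x : Fin 2 → P) j' = Gm i j • x := by
    rw [Finset.sum_eq_single j]
    · simp
    · intro b _ hb
      simp [Pi.single_eq_of_ne hb]
    · intro h
      exact absurd (Finset.mem_univ j) h
  rw [← h1, hw i]
  exact Submodule.sum_mem _ fun k _ =>
    Submodule.smul_mem_smul (entry_mem_entryIdeal Nm i k) Submodule.mem_top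

/-- Mazur's principle in matrix form: under (X), if `Nm` vanishes residually (the residual
representation is unramified), then `Gm` vanishes residually (residual Frobenius is scalar). -/
theorem entry_mem_maximalIdeal [IsLocalRing T] [Module.Finite T P]
    (hfaith : ∀ t : T, (∀ x : P, t • x = 0) → t = 0)
    {Gm Nm : Matrix (Fin 2) (Fin 2) T} (hN : ∀ i j, Nm i j ∈ maximalIdeal T)
    (hX : ImageIncl P Gm Nm) (i j : Fin 2) : Gm i j ∈ maximalIdeal T := by
  have hle : entryIdeal Nm ≤ maximalIdeal T := by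
    refine Ideal.span_le.mpr ?_
    rintro _ ⟨ij, rfl⟩
    exact hN ij.1 ij.2
  exact (Ideal.IsPrime.radical_le_iff (inferInstance : (maximalIdeal T).IsPrime)).mpr hle
    (entry_mem_radical hfaith hX i j)

/-- The dimension bound: under (X), if the entries of `Nm` are generated by three of them (see
`entry11_mem_of_trace`, `entry11_mem_of_det`), `Nm` vanishes residually, a power of `lam`
is a multiple of `tr Gm`, and the maximal ideal is generated by the entries of `Nm`, the entries
of `Gm`, `lam` and `m` further elements, then `dim T ≤ m + 3`. -/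
theorem ringKrullDim_le_of_imageIncl [IsNoetherianRing T] [IsLocalRing T] [Module.Finite T P]
    (hfaith : ∀ t : T, (∀ x : P, t • x = 0) → t = 0)
    {Gm Nm : Matrix (Fin 2) (Fin 2) T} (hN : ∀ i j, Nm i j ∈ maximalIdeal T)
    (h11 : Nm 1 1 ∈ Ideal.span ({Nm 0 0, Nm 0 1, Nm 1 0} : Set T)) (hX : ImageIncl P Gm Nm)
    (lam : T) (hlam : ∃ k : ℕ, lam ^ k ∈ Ideal.span {Gm 0 0 + Gm 1 1})
    {m : ℕ} (z : Fin m → T) (hz : ∀ i, z i ∈ maximalIdeal T)
    (hgen : maximalIdeal T ≤
      entryIdeal Nm ⊔ entryIdeal Gm ⊔ Ideal.span {lam} ⊔ Ideal.span (Set.range z)) :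
    ringKrullDim T ≤ ((m + 3 : ℕ) : WithBot ℕ∞) := by
  classical
  set s : Finset T := {Nm 0 0, Nm 0 1, Nm 1 0} ∪ Finset.univ.image z with hs
  have hscard : s.card ≤ m + 3 := by
    refine (Finset.card_union_le _ _).trans ?_
    have h1 : ({Nm 0 0, Nm 0 1, Nm 1 0} : Finset T).card ≤ 3 := Finset.card_le_three
    have h2 : (Finset.univ.image z).card ≤ m := by
      simpa using Finset.card_image_le (s := (Finset.univ : Finset (Fin m))) (f := z)
    omega
  have hNle : entryIdeal Nm ≤ Ideal.span (s : Set T) := by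
    refine Ideal.span_le.mpr ?_
    rintro _ ⟨⟨i, j⟩, rfl⟩
    have h00 : Nm 0 0 ∈ Ideal.span (s : Set T) := Ideal.subset_span (by simp [hs])
    have h01 : Nm 0 1 ∈ Ideal.span (s : Set T) := Ideal.subset_span (by simp [hs])
    have h10 : Nm 1 0 ∈ Ideal.span (s : Set T) := Ideal.subset_span (by simp [hs])
    have h11' : Nm 1 1 ∈ Ideal.span (s : Set T) := by
      refine (Ideal.span_le.mpr ?_) h11
      intro x hx
      simp only [Set.mem_insert_iff, Set.mem_singleton_iff] at hx
      rcases hx with rfl | rfl | rfl <;> assumption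
    fin_cases i <;> fin_cases j <;> assumption
  have hzle : Ideal.span (Set.range z) ≤ Ideal.span (s : Set T) := by
    refine Ideal.span_mono ?_
    rintro _ ⟨i, rfl⟩
    simp [hs]
  have hsle : Ideal.span (s : Set T) ≤ maximalIdeal T := by
    refine Ideal.span_le.mpr ?_
    intro x hx
    simp only [hs, Finset.coe_union, Finset.coe_insert, Finset.coe_singleton, Finset.coe_image,
      Finset.coe_univ, Set.image_univ, Set.mem_union, Set.mem_insert_iff, Set.mem_singleton_iff,
      Set.mem_range] at hx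
    rcases hx with (rfl | rfl | rfl) | ⟨i, rfl⟩
    · exact hN 0 0
    · exact hN 0 1
    · exact hN 1 0
    · exact hz i
  have hmin : maximalIdeal T ∈ (Ideal.span (s : Set T)).minimalPrimes := by
    refine ⟨⟨inferInstance, hsle⟩, ?_⟩
    rintro q ⟨hq, hsq⟩ -
    have hNq : entryIdeal Nm ≤ q := hNle.trans hsq
    have hrad : (entryIdeal Nm).radical ≤ q := (Ideal.IsPrime.radical_le_iff hq).mpr hNq
    have hGq : entryIdeal Gm ≤ q := by
      refine Ideal.span_le.mpr ?_
      rintro _ ⟨ij, rfl⟩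
      exact hrad (entry_mem_radical hfaith hX ij.1 ij.2)
    have hlamq : Ideal.span {lam} ≤ q := by
      obtain ⟨k, hk⟩ := hlam
      have htr : Gm 0 0 + Gm 1 1 ∈ q :=
        q.add_mem (hGq (entry_mem_entryIdeal Gm 0 0)) (hGq (entry_mem_entryIdeal Gm 1 1))
      have hk' : lam ^ k ∈ q :=
        (Ideal.span_le.mpr (Set.singleton_subset_iff.mpr htr)) hk
      exact (Ideal.span_singleton_le_iff_mem (I := q)).mpr (hq.mem_of_pow_mem k hk')
    exact hgen.trans (sup_le (sup_le (sup_le hNq hGq) hlamq) (hzle.trans hsq))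
  have hheight : (maximalIdeal T).height ≤ s.card :=
    Ideal.height_le_card_of_mem_minimalPrimes_span_finset hmin
  rw [← IsLocalRing.maximalIdeal_height_eq_ringKrullDim]
  exact WithBot.coe_le_coe.mpr (hheight.trans (by exact_mod_cast hscard))

/-- Squared (sign-free) form, audits #3795 / #3810: it suffices that the image of
`Phi² - β²` on `P²` is contained in the image of `Nm`, when `Phi - β` vanishes residually
(hard case) and `2β` is a unit. -/
theorem ringKrullDim_le_of_imageIncl_sq [IsNoetherianRing T] [IsLocalRing T] [Module.Finite T P]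
    (hfaith : ∀ t : T, (∀ x : P, t • x = 0) → t = 0)
    {Phi Nm : Matrix (Fin 2) (Fin 2) T} (hN : ∀ i j, Nm i j ∈ maximalIdeal T)
    (h11 : Nm 1 1 ∈ Ideal.span ({Nm 0 0, Nm 0 1, Nm 1 0} : Set T))
    (β : T) (hβ : IsUnit (2 * β))
    (hPhi : ∀ i j, (Phi - Matrix.scalar (Fin 2) β) i j ∈ maximalIdeal T)
    (hX : ImageIncl P (Phi * Phi - Matrix.scalar (Fin 2) (β * β)) Nm)
    (lam : T)
    (hlam : ∃ k : ℕ, lam ^ k ∈ Ideal.span
      {(Phi * Phi - Matrix.scalar (Fin 2) (β * β)) 0 0 +
        (Phi * Phi - Matrix.scalar (Fin 2) (β * β)) 1 1})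
    {m : ℕ} (z : Fin m → T) (hz : ∀ i, z i ∈ maximalIdeal T)
    (hgen : maximalIdeal T ≤
      entryIdeal Nm ⊔ entryIdeal (Phi - Matrix.scalar (Fin 2) β) ⊔ Ideal.span {lam} ⊔
        Ideal.span (Set.range z)) :
    ringKrullDim T ≤ ((m + 3 : ℕ) : WithBot ℕ∞) := by
  set G : Matrix (Fin 2) (Fin 2) T := Phi - Matrix.scalar (Fin 2) β with hG
  set U : Matrix (Fin 2) (Fin 2) T := Phi + Matrix.scalar (Fin 2) β with hU
  have hmul : Phi * Phi - Matrix.scalar (Fin 2) (β * β) = G * U := by
    ext i j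
    fin_cases i <;> fin_cases j <;>
      simp [hG, hU, Matrix.mul_apply, Fin.sum_univ_two, Matrix.sub_apply, Matrix.add_apply] <;>
      ring
  have hdetU : IsUnit U.det := by
    by_contra hnu
    have h1 : U.det ∈ maximalIdeal T := (IsLocalRing.mem_maximalIdeal _).mpr hnu
    have hg00 := hPhi 0 0
    have hg01 := hPhi 0 1
    have hg10 := hPhi 1 0
    have hg11 := hPhi 1 1
    have e : (2 * β) * (2 * β) = U.det - (2 * β * (G 0 0 + G 1 1) + G 0 0 * G 1 1 - G 0 1 * G 1 0) := by
      rw [Matrix.det_fin_two]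
      simp [hG, hU, Matrix.sub_apply, Matrix.add_apply]
      ring
    have h2 : (2 * β) * (2 * β) ∈ maximalIdeal T := by
      rw [e]
      refine Ideal.sub_mem _ h1 (Ideal.sub_mem _ (Ideal.add_mem _ ?_ ?_) ?_)
      · exact Ideal.mul_mem_left _ _ (Ideal.add_mem _ hg00 hg11)
      · exact Ideal.mul_mem_left _ _ hg11
      · exact Ideal.mul_mem_left _ _ hg10
    exact (IsLocalRing.mem_maximalIdeal _).mp h2 (hβ.mul hβ)
  have hUV : U * U⁻¹ = 1 := Matrix.mul_nonsing_inv U hdetU
  have hle : entryIdeal G ≤ entryIdeal (Phi * Phi - Matrix.scalar (Fin 2) (β * β)) :=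
    entryIdeal_le_of_mul_eq hmul hUV
  exact ringKrullDim_le_of_imageIncl hfaith hN h11 hX lam hlam z hz
    (hgen.trans (sup_le_sup_right (sup_le_sup_right (sup_le_sup_left hle _) _) _))

end Pivot

section Integral

variable {S T : Type*} [CommRing S] [CommRing T] [Algebra S T]

/-- An injective integral extension does not lower the Krull dimension (lying over + going up). -/
theorem ringKrullDim_le_of_isIntegral_of_injective [Algebra.IsIntegral S T]
    (hinj : Function.Injective (algebraMap S T)) : ringKrullDim S ≤ ringKrullDim T := by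
  rw [ringKrullDim, ringKrullDim, Order.krullDim]
  refine iSup_le fun l => ?_
  obtain ⟨Q, -, hQ, hQl⟩ := Ideal.exists_ideal_over_prime_of_isIntegral (S := T)
    (RelSeries.head l).asIdeal (⊥ : Ideal T) (by
      rw [← RingHom.ker_eq_comap_bot, (RingHom.injective_iff_ker_eq_bot _).mp hinj]
      exact bot_le)
  have : Q.IsPrime := hQ
  have : Q.LiesOver (RelSeries.head l).asIdeal := ⟨hQl.symm⟩
  obtain ⟨L, hlen, -, -⟩ := Ideal.exists_ltSeries_of_hasGoingUp l Q
  rw [← hlen]
  exact Order.LTSeries.length_le_krullDim L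

/-- The abstract endgame of findings #3710: a finite faithful module over a Noetherian local ring
`T` that is integral over a subring `S` of dimension at least `r + 1` cannot satisfy (X) when the
maximal ideal of `T` is generated by the entries of `Nm`, of `Gm`, `lam` and `m ≤ r - 3` further
elements. -/
theorem pivot_endgame [Algebra.IsIntegral S T] (hinj : Function.Injective (algebraMap S T))
    [IsNoetherianRing T] [IsLocalRing T] {P : Type*} [AddCommGroup P] [Module T P]
    [Module.Finite T P] (hfaith : ∀ t : T, (∀ x : P, t • x = 0) → t = 0)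
    {Gm Nm : Matrix (Fin 2) (Fin 2) T} (hN : ∀ i j, Nm i j ∈ maximalIdeal T)
    (h11 : Nm 1 1 ∈ Ideal.span ({Nm 0 0, Nm 0 1, Nm 1 0} : Set T)) (hX : ImageIncl P Gm Nm)
    (lam : T) (hlam : ∃ k : ℕ, lam ^ k ∈ Ideal.span {Gm 0 0 + Gm 1 1})
    {m r : ℕ} (z : Fin m → T) (hz : ∀ i, z i ∈ maximalIdeal T)
    (hgen : maximalIdeal T ≤
      entryIdeal Nm ⊔ entryIdeal Gm ⊔ Ideal.span {lam} ⊔ Ideal.span (Set.range z))
    (hmr : m + 3 ≤ r) (hS : ((r + 1 : ℕ) : WithBot ℕ∞) ≤ ringKrullDim S) : False := by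
  have h1 : ringKrullDim T ≤ ((m + 3 : ℕ) : WithBot ℕ∞) :=
    ringKrullDim_le_of_imageIncl hfaith hN h11 hX lam hlam z hz hgen
  have h2 : ((r + 1 : ℕ) : WithBot ℕ∞) ≤ ((m + 3 : ℕ) : WithBot ℕ∞) :=
    (hS.trans (ringKrullDim_le_of_isIntegral_of_injective hinj)).trans h1
  have h3 : r + 1 ≤ m + 3 := by exact_mod_cast h2
  omega

end Integral

section PowerSeriesDim

/-- `dim R⟦s₁..s_r⟧ ≥ dim R + r`. -/
theorem le_ringKrullDim_mvPowerSeries (R : Type*) [CommRing R] (r : ℕ) :
    ringKrullDim R + (r : WithBot ℕ∞) ≤ ringKrullDim (MvPowerSeries (Fin r) R) := by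
  induction r with
  | zero =>
    rw [ringKrullDim_eq_of_ringEquiv
      (MvPowerSeries.isEmptyEquiv (σ := Fin 0) (R := R)).toRingEquiv]
    simp
  | succ n ih =>
    rw [ringKrullDim_eq_of_ringEquiv (MvPowerSeries.finSuccEquiv R n).toRingEquiv]
    refine le_trans ?_ (ringKrullDim_succ_le_ringKrullDim_powerseries
      (R := MvPowerSeries (Fin n) R))
    have : ringKrullDim R + ((n + 1 : ℕ) : WithBot ℕ∞) = ringKrullDim R + (n : WithBot ℕ∞) + 1 := by
      push_cast
      rw [add_assoc]
    rw [this]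
    gcongr

/-- For a domain `O` that is not a field (e.g. a discrete valuation ring),
`dim O⟦s₁..s_r⟧ ≥ r + 1`. -/
theorem succ_le_ringKrullDim_mvPowerSeries (O : Type*) [CommRing O] [IsDomain O]
    (hO : ¬ IsField O) (r : ℕ) :
    ((r + 1 : ℕ) : WithBot ℕ∞) ≤ ringKrullDim (MvPowerSeries (Fin r) O) := by
  have h1 : (1 : WithBot ℕ∞) ≤ ringKrullDim O := by
    obtain ⟨p, hp0, hp⟩ := Ring.not_isField_iff_exists_prime.mp hO
    rw [ringKrullDim, Order.one_le_krullDim_iff]
    refine ⟨⟨⊥, Ideal.isPrime_bot⟩, ⟨p, hp⟩, ?_⟩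
    rw [← PrimeSpectrum.asIdeal_lt_asIdeal]
    exact bot_lt_iff_ne_bot.mpr hp0
  refine le_trans ?_ (le_ringKrullDim_mvPowerSeries O r)
  have : ((r + 1 : ℕ) : WithBot ℕ∞) = 1 + (r : WithBot ℕ∞) := by
    push_cast
    rw [add_comm]
  rw [this]
  gcongr

end PowerSeriesDim

section Assembled

open IsLocalRing

/-- The endgame in the shape a patching functor delivers: `T` a Noetherian local ring, integral
over and containing `S = O⟦s₁..s_r⟧` (`O` a domain that is not a field), `P` a finite faithful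
`T`-module, (X) for `Gm`, `Nm`, and the maximal ideal of `T` generated by the entries of `Nm`,
of `Gm`, `lam` and `m` further elements with `m + 3 ≤ r`: contradiction. -/
theorem pivot_endgame_mvPowerSeries (O : Type*) [CommRing O] [IsDomain O] (hO : ¬ IsField O)
    {r : ℕ} {T : Type*} [CommRing T] [Algebra (MvPowerSeries (Fin r) O) T]
    [Algebra.IsIntegral (MvPowerSeries (Fin r) O) T]
    (hinj : Function.Injective (algebraMap (MvPowerSeries (Fin r) O) T))
    [IsNoetherianRing T] [IsLocalRing T] {P : Type*} [AddCommGroup P] [Module T P]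
    [Module.Finite T P] (hfaith : ∀ t : T, (∀ x : P, t • x = 0) → t = 0)
    {Gm Nm : Matrix (Fin 2) (Fin 2) T} (hN : ∀ i j, Nm i j ∈ maximalIdeal T)
    (h11 : Nm 1 1 ∈ Ideal.span ({Nm 0 0, Nm 0 1, Nm 1 0} : Set T)) (hX : ImageIncl P Gm Nm)
    (lam : T) (hlam : ∃ k : ℕ, lam ^ k ∈ Ideal.span {Gm 0 0 + Gm 1 1})
    {m : ℕ} (z : Fin m → T) (hz : ∀ i, z i ∈ maximalIdeal T)
    (hgen : maximalIdeal T ≤
      entryIdeal Nm ⊔ entryIdeal Gm ⊔ Ideal.span {lam} ⊔ Ideal.span (Set.range z))
    (hmr : m + 3 ≤ r) : False :=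
  pivot_endgame hinj hfaith hN h11 hX lam hlam z hz hgen hmr
    (succ_le_ringKrullDim_mvPowerSeries O hO r)

end Assembled

end Fermat.Agent.S43.helper5638
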