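/-
helper442 — multi-prime ("all hard primes at once") form of the pivot endgame of findings #3710
(helper5638), and the matrix identity that turns the base-level input (X0) into the inclusion (X)
at every Taylor–Wiles level with no reducedness and no pointwise argument.

Mathlib + `helper5638_Pivot` (imported unchanged).

* `ringKrullDim_le_of_imageIncl_family` : `T` Noetherian local, `P` finite faithful, a finite
  nonempty family `(Nm v, Gm v)` of pairs of `2 × 2` matrices with (X) for every `v`; if the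
  maximal ideal is generated by all entries, `lam` and `m` further elements, then
  `dim T ≤ m + 3 * #ι`.
* `pivot_endgame_family` : contradiction with `dim T ≥ r + 1` when `m + 3 * #ι ≤ r`.
* `mul_sub_scalar_eq` : `N ^ 2 = 0`, `det (1 + N) = 1`, `Φ N = q N Φ`, `u (q + 1) = 1`
  ⟹ `N * (Φ - u tr Φ) = u tr (Φ N)` and `(1 - q) tr (Φ N) = 0`.
* `imageIncl_of_exact` : if moreover `im N = ker N` on `P²` and `P` has no `(q - 1)`-torsion, then
  (X) holds for `Gm = Φ - u tr Φ`, and `tr Gm = u (q - 1) tr Φ`.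
-/
import Mathlib
import Fermat.Agent.S43.helper5638_Pivot

set_option autoImplicit false

namespace Fermat.Agent.S43.helper442

open IsLocalRing Fermat.Agent.S43.helper5638

section Family

variable {T : Type*} [CommRing T] {P : Type*} [AddCommGroup P] [Module T P]

/-- Multi-prime dimension bound: (X) at every member of a finite nonempty family. -/
theorem ringKrullDim_le_of_imageIncl_family {ι : Type*} [Fintype ι] [Nonempty ι]
    [IsNoetherianRing T] [IsLocalRing T] [Module.Finite T P]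
    (hfaith : ∀ t : T, (∀ x : P, t • x = 0) → t = 0)
    (Gm Nm : ι → Matrix (Fin 2) (Fin 2) T)
    (hN : ∀ v i j, Nm v i j ∈ maximalIdeal T)
    (h11 : ∀ v, Nm v 1 1 ∈ Ideal.span ({Nm v 0 0, Nm v 0 1, Nm v 1 0} : Set T))
    (hX : ∀ v, ImageIncl P (Gm v) (Nm v))
    (lam : T) (hlam : ∃ v, ∃ k : ℕ, lam ^ k ∈ Ideal.span {Gm v 0 0 + Gm v 1 1})
    {m : ℕ} (z : Fin m → T) (hz : ∀ i, z i ∈ maximalIdeal T)
    (hgen : maximalIdeal T ≤
      (⨆ v, entryIdeal (Nm v) ⊔ entryIdeal (Gm v)) ⊔ Ideal.span {lam} ⊔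
        Ideal.span (Set.range z)) :
    ringKrullDim T ≤ ((m + 3 * Fintype.card ι : ℕ) : WithBot ℕ∞) := by
  classical
  set s : Finset T :=
    (Finset.univ.biUnion fun v : ι => ({Nm v 0 0, Nm v 0 1, Nm v 1 0} : Finset T)) ∪
      Finset.univ.image z with hs
  have hscard : s.card ≤ m + 3 * Fintype.card ι := by
    refine (Finset.card_union_le _ _).trans ?_
    have h1 : (Finset.univ.biUnion fun v : ι => ({Nm v 0 0, Nm v 0 1, Nm v 1 0} : Finset T)).card
        ≤ 3 * Fintype.card ι := by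
      refine (Finset.card_biUnion_le).trans ?_
      calc ∑ v : ι, ({Nm v 0 0, Nm v 0 1, Nm v 1 0} : Finset T).card
          ≤ ∑ _v : ι, 3 := Finset.sum_le_sum fun v _ => Finset.card_le_three
        _ = 3 * Fintype.card ι := by simp [mul_comm]
    have h2 : (Finset.univ.image z).card ≤ m := by
      simpa using Finset.card_image_le (s := (Finset.univ : Finset (Fin m))) (f := z)
    omega
  have hmem3 : ∀ v, Nm v 0 0 ∈ Ideal.span (s : Set T) ∧ Nm v 0 1 ∈ Ideal.span (s : Set T) ∧
      Nm v 1 0 ∈ Ideal.span (s : Set T) := by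
    intro v
    refine ⟨Ideal.subset_span ?_, Ideal.subset_span ?_, Ideal.subset_span ?_⟩ <;>
    · rw [hs, Finset.coe_union]
      refine Or.inl ?_
      rw [Finset.mem_coe, Finset.mem_biUnion]
      exact ⟨v, Finset.mem_univ v, by simp⟩
  have hNle : ∀ v, entryIdeal (Nm v) ≤ Ideal.span (s : Set T) := by
    intro v
    refine Ideal.span_le.mpr ?_
    rintro _ ⟨⟨i, j⟩, rfl⟩
    obtain ⟨h00, h01, h10⟩ := hmem3 v
    have h11' : Nm v 1 1 ∈ Ideal.span (s : Set T) := by
      refine (Ideal.span_le.mpr ?_) (h11 v)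
      intro x hx
      simp only [Set.mem_insert_iff, Set.mem_singleton_iff] at hx
      rcases hx with rfl | rfl | rfl <;> assumption
    fin_cases i <;> fin_cases j <;> assumption
  have hzle : Ideal.span (Set.range z) ≤ Ideal.span (s : Set T) := by
    refine Ideal.span_mono ?_
    rintro _ ⟨i, rfl⟩
    simp [hs]
  have hsle : Ideal.span (s : Set T) ≤ maximalIdeal T := by
    refine Ideal.span_le.mpr ?_
    intro x hx
    rw [hs, Finset.coe_union] at hx
    rcases hx with hx | hx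
    · rw [Finset.mem_coe, Finset.mem_biUnion] at hx
      obtain ⟨v, -, hx⟩ := hx
      simp only [Finset.mem_insert, Finset.mem_singleton] at hx
      rcases hx with rfl | rfl | rfl
      · exact hN v 0 0
      · exact hN v 0 1
      · exact hN v 1 0
    · simp only [Finset.coe_image, Finset.coe_univ, Set.image_univ, Set.mem_range] at hx
      obtain ⟨i, rfl⟩ := hx
      exact hz i
  have hmin : maximalIdeal T ∈ (Ideal.span (s : Set T)).minimalPrimes := by
    refine ⟨⟨inferInstance, hsle⟩, ?_⟩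
    rintro q ⟨hq, hsq⟩ -
    have hNq : ∀ v, entryIdeal (Nm v) ≤ q := fun v => (hNle v).trans hsq
    have hGq : ∀ v, entryIdeal (Gm v) ≤ q := by
      intro v
      have hrad : (entryIdeal (Nm v)).radical ≤ q :=
        (Ideal.IsPrime.radical_le_iff hq).mpr (hNq v)
      refine Ideal.span_le.mpr ?_
      rintro _ ⟨ij, rfl⟩
      exact hrad (entry_mem_radical hfaith (hX v) ij.1 ij.2)
    have hlamq : Ideal.span {lam} ≤ q := by
      obtain ⟨v, k, hk⟩ := hlam
      have htr : Gm v 0 0 + Gm v 1 1 ∈ q :=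
        q.add_mem (hGq v (entry_mem_entryIdeal (Gm v) 0 0))
          (hGq v (entry_mem_entryIdeal (Gm v) 1 1))
      have hk' : lam ^ k ∈ q :=
        (Ideal.span_le.mpr (Set.singleton_subset_iff.mpr htr)) hk
      exact (Ideal.span_singleton_le_iff_mem (I := q)).mpr (hq.mem_of_pow_mem k hk')
    refine hgen.trans (sup_le (sup_le (iSup_le fun v => sup_le (hNq v) (hGq v)) hlamq)
      (hzle.trans hsq))
  have hheight : (maximalIdeal T).height ≤ s.card :=
    Ideal.height_le_card_of_mem_minimalPrimes_span_finset hmin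
  rw [← IsLocalRing.maximalIdeal_height_eq_ringKrullDim]
  exact WithBot.coe_le_coe.mpr (hheight.trans (by exact_mod_cast hscard))

/-- The multi-prime abstract endgame: a finite faithful module over a Noetherian local ring `T`
that is integral over a subring `S` of dimension at least `r + 1` cannot satisfy (X) at every
member of a finite nonempty family when the maximal ideal of `T` is generated by the entries of
the `Nm v`, `Gm v`, `lam` and `m ≤ r - 3 * #ι` further elements. -/
theorem pivot_endgame_family {S : Type*} [CommRing S] [Algebra S T] [Algebra.IsIntegral S T]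
    (hinj : Function.Injective (algebraMap S T))
    {ι : Type*} [Fintype ι] [Nonempty ι]
    [IsNoetherianRing T] [IsLocalRing T] [Module.Finite T P]
    (hfaith : ∀ t : T, (∀ x : P, t • x = 0) → t = 0)
    (Gm Nm : ι → Matrix (Fin 2) (Fin 2) T)
    (hN : ∀ v i j, Nm v i j ∈ maximalIdeal T)
    (h11 : ∀ v, Nm v 1 1 ∈ Ideal.span ({Nm v 0 0, Nm v 0 1, Nm v 1 0} : Set T))
    (hX : ∀ v, ImageIncl P (Gm v) (Nm v))
    (lam : T) (hlam : ∃ v, ∃ k : ℕ, lam ^ k ∈ Ideal.span {Gm v 0 0 + Gm v 1 1})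
    {m r : ℕ} (z : Fin m → T) (hz : ∀ i, z i ∈ maximalIdeal T)
    (hgen : maximalIdeal T ≤
      (⨆ v, entryIdeal (Nm v) ⊔ entryIdeal (Gm v)) ⊔ Ideal.span {lam} ⊔
        Ideal.span (Set.range z))
    (hmr : m + 3 * Fintype.card ι ≤ r) (hS : ((r + 1 : ℕ) : WithBot ℕ∞) ≤ ringKrullDim S) :
    False := by
  have h1 : ringKrullDim T ≤ ((m + 3 * Fintype.card ι : ℕ) : WithBot ℕ∞) :=
    ringKrullDim_le_of_imageIncl_family hfaith Gm Nm hN h11 hX lam hlam z hz hgen
  have h2 : ((r + 1 : ℕ) : WithBot ℕ∞) ≤ ((m + 3 * Fintype.card ι : ℕ) : WithBot ℕ∞) :=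
    (hS.trans (ringKrullDim_le_of_isIntegral_of_injective hinj)).trans h1
  have h3 : r + 1 ≤ m + 3 * Fintype.card ι := by exact_mod_cast h2
  omega

/-- Margin-2 form (audits #3930, #3970): if `tr (Nm v) = 0 = det (Nm v)` (unipotent inertia,
frozen S34 shape), the entries of `Nm v` are generated up to radical by the two off-diagonal
ones, so `dim T ≤ m + 2 * #ι`. -/
theorem ringKrullDim_le_of_imageIncl_family_two {ι : Type*} [Fintype ι] [Nonempty ι]
    [IsNoetherianRing T] [IsLocalRing T] [Module.Finite T P]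
    (hfaith : ∀ t : T, (∀ x : P, t • x = 0) → t = 0)
    (Gm Nm : ι → Matrix (Fin 2) (Fin 2) T)
    (hN : ∀ v i j, Nm v i j ∈ maximalIdeal T)
    (htr : ∀ v, Nm v 0 0 + Nm v 1 1 = 0)
    (hdet : ∀ v, Nm v 0 0 * Nm v 1 1 = Nm v 0 1 * Nm v 1 0)
    (hX : ∀ v, ImageIncl P (Gm v) (Nm v))
    (lam : T) (hlam : ∃ v, ∃ k : ℕ, lam ^ k ∈ Ideal.span {Gm v 0 0 + Gm v 1 1})
    {m : ℕ} (z : Fin m → T) (hz : ∀ i, z i ∈ maximalIdeal T)
    (hgen : maximalIdeal T ≤
      (⨆ v, entryIdeal (Nm v) ⊔ entryIdeal (Gm v)) ⊔ Ideal.span {lam} ⊔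
        Ideal.span (Set.range z)) :
    ringKrullDim T ≤ ((m + 2 * Fintype.card ι : ℕ) : WithBot ℕ∞) := by
  classical
  set s : Finset T :=
    (Finset.univ.biUnion fun v : ι => ({Nm v 0 1, Nm v 1 0} : Finset T)) ∪
      Finset.univ.image z with hs
  have hscard : s.card ≤ m + 2 * Fintype.card ι := by
    refine (Finset.card_union_le _ _).trans ?_
    have h1 : (Finset.univ.biUnion fun v : ι => ({Nm v 0 1, Nm v 1 0} : Finset T)).card
        ≤ 2 * Fintype.card ι := by
      refine (Finset.card_biUnion_le).trans ?_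
      calc ∑ v : ι, ({Nm v 0 1, Nm v 1 0} : Finset T).card
          ≤ ∑ _v : ι, 2 := Finset.sum_le_sum fun v _ => Finset.card_le_two
        _ = 2 * Fintype.card ι := by simp [mul_comm]
    have h2 : (Finset.univ.image z).card ≤ m := by
      simpa using Finset.card_image_le (s := (Finset.univ : Finset (Fin m))) (f := z)
    omega
  have hmem2 : ∀ v, Nm v 0 1 ∈ Ideal.span (s : Set T) ∧ Nm v 1 0 ∈ Ideal.span (s : Set T) := by
    intro v
    refine ⟨Ideal.subset_span ?_, Ideal.subset_span ?_⟩ <;>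
    · rw [hs, Finset.coe_union]
      refine Or.inl ?_
      rw [Finset.mem_coe, Finset.mem_biUnion]
      exact ⟨v, Finset.mem_univ v, by simp⟩
  have hzle : Ideal.span (Set.range z) ≤ Ideal.span (s : Set T) := by
    refine Ideal.span_mono ?_
    rintro _ ⟨i, rfl⟩
    simp [hs]
  have hsle : Ideal.span (s : Set T) ≤ maximalIdeal T := by
    refine Ideal.span_le.mpr ?_
    intro x hx
    rw [hs, Finset.coe_union] at hx
    rcases hx with hx | hx
    · rw [Finset.mem_coe, Finset.mem_biUnion] at hx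
      obtain ⟨v, -, hx⟩ := hx
      simp only [Finset.mem_insert, Finset.mem_singleton] at hx
      rcases hx with rfl | rfl
      · exact hN v 0 1
      · exact hN v 1 0
    · simp only [Finset.coe_image, Finset.coe_univ, Set.image_univ, Set.mem_range] at hx
      obtain ⟨i, rfl⟩ := hx
      exact hz i
  have hmin : maximalIdeal T ∈ (Ideal.span (s : Set T)).minimalPrimes := by
    refine ⟨⟨inferInstance, hsle⟩, ?_⟩
    rintro q ⟨hq, hsq⟩ -
    have hNq : ∀ v, entryIdeal (Nm v) ≤ q := by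
      intro v
      obtain ⟨h01, h10⟩ := hmem2 v
      have h01q : Nm v 0 1 ∈ q := hsq h01
      have h10q : Nm v 1 0 ∈ q := hsq h10
      have h00sq : Nm v 0 0 ^ 2 ∈ q := by
        have e : Nm v 0 0 ^ 2 = Nm v 0 0 * (Nm v 0 0 + Nm v 1 1) - Nm v 0 1 * Nm v 1 0 := by
          linear_combination -(hdet v)
        rw [e, htr v, mul_zero, zero_sub]
        exact q.neg_mem (q.mul_mem_right _ h01q)
      have h00q : Nm v 0 0 ∈ q := hq.mem_of_pow_mem 2 h00sq
      have h11q : Nm v 1 1 ∈ q := by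
        have e : Nm v 1 1 = -Nm v 0 0 := by linear_combination htr v
        rw [e]
        exact q.neg_mem h00q
      refine Ideal.span_le.mpr ?_
      rintro _ ⟨⟨i, j⟩, rfl⟩
      fin_cases i <;> fin_cases j <;> assumption
    have hGq : ∀ v, entryIdeal (Gm v) ≤ q := by
      intro v
      have hrad : (entryIdeal (Nm v)).radical ≤ q :=
        (Ideal.IsPrime.radical_le_iff hq).mpr (hNq v)
      refine Ideal.span_le.mpr ?_
      rintro _ ⟨ij, rfl⟩
      exact hrad (entry_mem_radical hfaith (hX v) ij.1 ij.2)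
    have hlamq : Ideal.span {lam} ≤ q := by
      obtain ⟨v, k, hk⟩ := hlam
      have htr' : Gm v 0 0 + Gm v 1 1 ∈ q :=
        q.add_mem (hGq v (entry_mem_entryIdeal (Gm v) 0 0))
          (hGq v (entry_mem_entryIdeal (Gm v) 1 1))
      have hk' : lam ^ k ∈ q :=
        (Ideal.span_le.mpr (Set.singleton_subset_iff.mpr htr')) hk
      exact (Ideal.span_singleton_le_iff_mem (I := q)).mpr (hq.mem_of_pow_mem k hk')
    refine hgen.trans (sup_le (sup_le (iSup_le fun v => sup_le (hNq v) (hGq v)) hlamq)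
      (hzle.trans hsq))
  have hheight : (maximalIdeal T).height ≤ s.card :=
    Ideal.height_le_card_of_mem_minimalPrimes_span_finset hmin
  rw [← IsLocalRing.maximalIdeal_height_eq_ringKrullDim]
  exact WithBot.coe_le_coe.mpr (hheight.trans (by exact_mod_cast hscard))

/-- The multi-prime endgame, margin-2 form: `m + 2 * #ι ≤ r` suffices. -/
theorem pivot_endgame_family_two {S : Type*} [CommRing S] [Algebra S T] [Algebra.IsIntegral S T]
    (hinj : Function.Injective (algebraMap S T))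
    {ι : Type*} [Fintype ι] [Nonempty ι]
    [IsNoetherianRing T] [IsLocalRing T] [Module.Finite T P]
    (hfaith : ∀ t : T, (∀ x : P, t • x = 0) → t = 0)
    (Gm Nm : ι → Matrix (Fin 2) (Fin 2) T)
    (hN : ∀ v i j, Nm v i j ∈ maximalIdeal T)
    (htr : ∀ v, Nm v 0 0 + Nm v 1 1 = 0)
    (hdet : ∀ v, Nm v 0 0 * Nm v 1 1 = Nm v 0 1 * Nm v 1 0)
    (hX : ∀ v, ImageIncl P (Gm v) (Nm v))
    (lam : T) (hlam : ∃ v, ∃ k : ℕ, lam ^ k ∈ Ideal.span {Gm v 0 0 + Gm v 1 1})
    {m r : ℕ} (z : Fin m → T) (hz : ∀ i, z i ∈ maximalIdeal T)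
    (hgen : maximalIdeal T ≤
      (⨆ v, entryIdeal (Nm v) ⊔ entryIdeal (Gm v)) ⊔ Ideal.span {lam} ⊔
        Ideal.span (Set.range z))
    (hmr : m + 2 * Fintype.card ι ≤ r) (hS : ((r + 1 : ℕ) : WithBot ℕ∞) ≤ ringKrullDim S) :
    False := by
  have h1 : ringKrullDim T ≤ ((m + 2 * Fintype.card ι : ℕ) : WithBot ℕ∞) :=
    ringKrullDim_le_of_imageIncl_family_two hfaith Gm Nm hN htr hdet hX lam hlam z hz hgen
  have h2 : ((r + 1 : ℕ) : WithBot ℕ∞) ≤ ((m + 2 * Fintype.card ι : ℕ) : WithBot ℕ∞) :=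
    (hS.trans (ringKrullDim_le_of_isIntegral_of_injective hinj)).trans h1
  have h3 : r + 1 ≤ m + 2 * Fintype.card ι := by exact_mod_cast h2
  omega

end Family

section Identity

variable {T : Type*} [CommRing T]

/-- `N ^ 2 = 0` and `det (1 + N) = 1` force `tr N = 0` and `det N = 0`. -/
theorem trace_det_eq_zero_of_sq_zero {N : Matrix (Fin 2) (Fin 2) T} (hsq : N * N = 0)
    (hdet : (1 + N).det = 1) : N 0 0 + N 1 1 = 0 ∧ N 0 0 * N 1 1 - N 0 1 * N 1 0 = 0 := by
  have e00 : N 0 0 * N 0 0 + N 0 1 * N 1 0 = 0 := by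
    have := congrFun (congrFun hsq 0) 0
    simpa [Matrix.mul_apply, Fin.sum_univ_two] using this
  have e01 : N 0 0 * N 0 1 + N 0 1 * N 1 1 = 0 := by
    have := congrFun (congrFun hsq 0) 1
    simpa [Matrix.mul_apply, Fin.sum_univ_two] using this
  have e11 : N 1 0 * N 0 1 + N 1 1 * N 1 1 = 0 := by
    have := congrFun (congrFun hsq 1) 1
    simpa [Matrix.mul_apply, Fin.sum_univ_two] using this
  have hd : N 0 0 + N 1 1 + (N 0 0 * N 1 1 - N 0 1 * N 1 0) = 0 := by
    have := hdet
    rw [Matrix.det_fin_two] at this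
    simp only [Matrix.add_apply, Matrix.one_apply_eq, Matrix.one_apply_ne, ne_eq,
      Fin.zero_eq_one_iff, Fin.one_eq_zero_iff, OfNat.ofNat_ne_one, not_false_eq_true,
      zero_add] at this
    linear_combination this
  -- t = tr N, δ = det N: Cayley–Hamilton with N² = 0 gives t N = δ; det gives t = -δ
  have h1 : (N 0 0 + N 1 1) * N 0 0 = N 0 0 * N 1 1 - N 0 1 * N 1 0 := by
    linear_combination e00
  have h2 : (N 0 0 + N 1 1) * N 1 1 = N 0 0 * N 1 1 - N 0 1 * N 1 0 := by
    linear_combination e11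
  have h3 : (N 0 0 + N 1 1) * N 0 1 = 0 := by linear_combination e01
  generalize hδ : N 0 0 * N 1 1 - N 0 1 * N 1 0 = δ at *
  have ht : N 0 0 + N 1 1 = -δ := by linear_combination hd
  rw [ht] at h1 h2 h3
  -- δ² = δ (N00 N11 - N01 N10) = δ and δ² = t² = t N00 + t N11 = 2 δ
  have hδδ : δ * δ = δ := by
    have : δ * δ = (δ * N 0 0) * N 1 1 - (δ * N 0 1) * N 1 0 := by rw [← hδ]; ring
    rw [this]
    linear_combination (-N 1 1) * h1 + h2 + N 1 0 * h3
  have hδδ' : δ * δ = 2 * δ := by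
    have : δ * δ = -δ * (N 0 0 + N 1 1) := by rw [ht]; ring
    rw [this]
    linear_combination h1 + h2
  have hδ0 : δ = 0 := by linear_combination hδδ - hδδ'
  rw [ht, hδ0]
  simp

/-- The key identity. If `N ^ 2 = 0`, `det (1 + N) = 1`, `Φ N = q N Φ` and `u (q + 1) = 1`, then
`N (Φ - u tr Φ) = u tr (Φ N)`, and `(1 - q) tr (Φ N) = 0`. -/
theorem mul_sub_scalar_eq {N Phi : Matrix (Fin 2) (Fin 2) T} {q u : T} (hsq : N * N = 0)
    (hdet : (1 + N).det = 1) (hPhi : Phi * N = q • (N * Phi)) (hu : u * (q + 1) = 1) :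
    N * (Phi - Matrix.scalar (Fin 2) (u * Phi.trace)) =
        Matrix.scalar (Fin 2) (u * (Phi * N).trace) ∧
      (1 - q) * (Phi * N).trace = 0 := by
  obtain ⟨htr, -⟩ := trace_det_eq_zero_of_sq_zero hsq hdet
  have p00 := congrFun (congrFun hPhi 0) 0
  have p01 := congrFun (congrFun hPhi 0) 1
  have p10 := congrFun (congrFun hPhi 1) 0
  have p11 := congrFun (congrFun hPhi 1) 1
  simp only [Matrix.mul_apply, Fin.sum_univ_two, Matrix.smul_apply, smul_eq_mul] at p00 p01 p10 p11
  have g00 : N 0 0 * (Phi 0 0 - u * (Phi 0 0 + Phi 1 1)) + N 0 1 * Phi 1 0 =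
      u * (Phi 0 0 * N 0 0 + Phi 0 1 * N 1 0 + (Phi 1 0 * N 0 1 + Phi 1 1 * N 1 1)) := by
    linear_combination (-(N 0 0 * Phi 0 0 + N 0 1 * Phi 1 0)) * hu - u * Phi 1 1 * htr - u * p00
  have g01 : N 0 0 * Phi 0 1 + N 0 1 * (Phi 1 1 - u * (Phi 0 0 + Phi 1 1)) = 0 := by
    linear_combination (-(N 0 0 * Phi 0 1 + N 0 1 * Phi 1 1)) * hu + u * Phi 0 1 * htr - u * p01
  have g10 : N 1 0 * (Phi 0 0 - u * (Phi 0 0 + Phi 1 1)) + N 1 1 * Phi 1 0 = 0 := by
    linear_combination (-(N 1 0 * Phi 0 0 + N 1 1 * Phi 1 0)) * hu + u * Phi 1 0 * htr - u * p10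
  have g11 : N 1 0 * Phi 0 1 + N 1 1 * (Phi 1 1 - u * (Phi 0 0 + Phi 1 1)) =
      u * (Phi 0 0 * N 0 0 + Phi 0 1 * N 1 0 + (Phi 1 0 * N 0 1 + Phi 1 1 * N 1 1)) := by
    linear_combination (-(N 1 0 * Phi 0 1 + N 1 1 * Phi 1 1)) * hu - u * Phi 0 0 * htr - u * p11
  constructor
  · ext i j
    fin_cases i <;> fin_cases j
    · simpa [Matrix.mul_apply, Fin.sum_univ_two, Matrix.trace_fin_two] using g00
    · simpa [Matrix.mul_apply, Fin.sum_univ_two, Matrix.trace_fin_two] using g01
    · simpa [Matrix.mul_apply, Fin.sum_univ_two, Matrix.trace_fin_two] using g10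
    · simpa [Matrix.mul_apply, Fin.sum_univ_two, Matrix.trace_fin_two] using g11
  · simp only [Matrix.trace_fin_two, Matrix.mul_apply, Fin.sum_univ_two]
    linear_combination p00 + p11

end Identity

section Exact

variable {T : Type*} [CommRing T] (P : Type*) [AddCommGroup P] [Module T P]

/-- Exactness of `Nm` on `P²`: `ker Nm ⊆ im Nm`. (This is what the Nakayama transfer from the
base level delivers: `im N = ker N` is a free direct summand of half rank.) -/
def KerLeIm (Nm : Matrix (Fin 2) (Fin 2) T) : Prop :=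
  ∀ v : Fin 2 → P, (∀ i, ∑ j, Nm i j • v j = 0) → ∃ w : Fin 2 → P, ∀ i, v i = ∑ j, Nm i j • w j

variable {P}

/-- (X) from exactness: if `ker N ⊆ im N` on `P²`, `N ^ 2 = 0`, `det (1 + N) = 1`,
`Φ N = q N Φ`, `u (q + 1) = 1` and `P` has no `(q - 1)`-torsion, then the image of
`Φ - u tr Φ` on `P²` lies in the image of `N`. -/
theorem imageIncl_of_exact {N Phi : Matrix (Fin 2) (Fin 2) T} {q u : T} (hsq : N * N = 0)
    (hdet : (1 + N).det = 1) (hPhi : Phi * N = q • (N * Phi)) (hu : u * (q + 1) = 1)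
    (htors : ∀ x : P, (q - 1) • x = 0 → x = 0) (hex : KerLeIm P N) :
    ImageIncl P (Phi - Matrix.scalar (Fin 2) (u * Phi.trace)) N := by
  obtain ⟨hmul, ht⟩ := mul_sub_scalar_eq hsq hdet hPhi hu
  set G := Phi - Matrix.scalar (Fin 2) (u * Phi.trace) with hG
  have htP : ∀ x : P, ((Phi * N).trace) • x = 0 := by
    intro x
    apply htors
    rw [smul_smul]
    have : (q - 1) * (Phi * N).trace = 0 := by linear_combination -ht
    rw [this, zero_smul]
  intro v
  refine hex (fun i => ∑ j, G i j • v j) ?_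
  intro i
  -- N (G v) = (N G) v = (u t) v = 0
  have key : ∀ i, ∑ j, N i j • ∑ l, G j l • v l = ∑ l, (N * G) i l • v l := by
    intro i
    simp only [Finset.smul_sum, smul_smul, Matrix.mul_apply, Finset.sum_smul]
    rw [Finset.sum_comm]
  rw [key, hmul]
  simp only [Matrix.scalar_apply, Matrix.diagonal_apply, ite_smul, zero_smul, mul_smul]
  rw [Finset.sum_ite_eq]
  simp [htP]

/-- The trace of `Φ - u tr Φ` when `u (q + 1) = 1`. -/
theorem trace_sub_scalar {Phi : Matrix (Fin 2) (Fin 2) T} {q u : T} (hu : u * (q + 1) = 1) :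
    (Phi - Matrix.scalar (Fin 2) (u * Phi.trace)) 0 0 +
        (Phi - Matrix.scalar (Fin 2) (u * Phi.trace)) 1 1 = u * (q - 1) * Phi.trace := by
  simp only [Matrix.sub_apply, Matrix.scalar_apply, Matrix.diagonal_apply_eq,
    Matrix.trace_fin_two]
  linear_combination (-(Phi 0 0 + Phi 1 1)) * hu

end Exact

end Fermat.Agent.S43.helper442
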