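/-
S43 top wiring (helper8058).  Hypothesis-passing, nothing route-specific.

frozen S43  ⟸  frozen S44 (removal of `p`)  +  `Stmt_DescendFlat`
            ⟸  frozen S44                    +  `Stmt_NoNewOnly`

`Stmt_DescendFlat` : at a conductor level `N` PRIME TO `p` that contains an odd prime `q ≠ p`
at which the Frey representation is unramified, the representation is modular of SOME proper
divisor of `N` (no prime is singled out: this is the shape produced by a "several hard primes
at once" argument, and it is all the outer induction needs).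

`Stmt_NoNewOnly` : the contrapositive (minimal-level) form: such an `N` is never a minimal level.

S44-OPTIONAL FORM (second half of the file):
frozen S43  ⟸  `Stmt_Minimal`  ⟸  `Stmt_NoNewOnly` (branch `p ∤ N`)  +  `Stmt_NoNewOnlyOrd`
(branch `p ∣ N`), and `Stmt_NoNewOnlyOrd` ⟸ frozen S44.
-/
import Fermat.Statements.S43

set_option autoImplicit false
open WeierstrassCurve WeierstrassCurve.Affine WeierstrassCurve.Affine.Point
open CuspForm ModularFormClass UpperHalfPlane
open FreyPackage

namespace Fermat.Agent.S43.helper8058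

/-- The frozen S43 statement (binders verbatim). -/
def Stmt_S43 : Prop :=
  ∀ (P : FreyPackage) {N q : ℕ} (_hcond : P.IsConductorLevel N) (_hq : q.Prime) (_hq2 : q ≠ 2)
    (_hqp : q ≠ P.p) (_hqN : q ∣ N)
    (_hirr : GaloisRepIsIrreducible (K := AlgebraicClosure ℚ) ℚ P.freyCurve P.p)
    (_hmod : P.ModularRepOfLevel N) (_hunr : P.GaloisRepUnramifiedAt q),
    ∃ M : ℕ, M ∣ N ∧ ¬ q ∣ M ∧ P.ModularRepOfLevel M

/-- The frozen S44 statement (binders verbatim). -/
def Stmt_S44 : Prop :=
  ∀ (P : FreyPackage) {N : ℕ} (_hcond : P.IsConductorLevel N) (_hpN : P.p ∣ N)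
    (_hirr : GaloisRepIsIrreducible (K := AlgebraicClosure ℚ) ℚ P.freyCurve P.p)
    (_hmod : P.ModularRepOfLevel N),
    ∃ M : ℕ, M ∣ N ∧ ¬ P.p ∣ M ∧ P.ModularRepOfLevel M

/-- Core of S43 at levels prime to `p`: some proper divisor of the level works. -/
def Stmt_DescendFlat : Prop :=
  ∀ (P : FreyPackage) {N q : ℕ}, P.IsConductorLevel N → ¬ P.p ∣ N → q.Prime → q ≠ 2 →
    q ≠ P.p → q ∣ N →
    GaloisRepIsIrreducible (K := AlgebraicClosure ℚ) ℚ P.freyCurve P.p →
    P.ModularRepOfLevel N → P.GaloisRepUnramifiedAt q →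
    ∃ M : ℕ, M ∣ N ∧ M ≠ N ∧ P.ModularRepOfLevel M

/-- Minimal-level form: a conductor level prime to `p` containing an odd prime `q ≠ p` at
which the representation is unramified is never a minimal level of modularity. -/
def Stmt_NoNewOnly : Prop :=
  ∀ (P : FreyPackage) {N q : ℕ}, P.IsConductorLevel N → ¬ P.p ∣ N → q.Prime → q ≠ 2 →
    q ≠ P.p → q ∣ N →
    GaloisRepIsIrreducible (K := AlgebraicClosure ℚ) ℚ P.freyCurve P.p →
    P.ModularRepOfLevel N → P.GaloisRepUnramifiedAt q →
    (∀ M : ℕ, M ∣ N → M ≠ N → ¬ P.ModularRepOfLevel M) → False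

theorem stmt_DescendFlat_of_noNewOnly (h : Stmt_NoNewOnly) : Stmt_DescendFlat := by
  intro P N q hcond hpN hq hq2 hqp hqN hirr hmod hunr
  by_contra hno
  refine h P hcond hpN hq hq2 hqp hqN hirr hmod hunr ?_
  intro M hMN hne hM
  exact hno ⟨M, hMN, hne, hM⟩

theorem stmt_noNewOnly_of_descendFlat (h : Stmt_DescendFlat) : Stmt_NoNewOnly := by
  intro P N q hcond hpN hq hq2 hqp hqN hirr hmod hunr hmin
  obtain ⟨M, hMN, hne, hM⟩ := h P hcond hpN hq hq2 hqp hqN hirr hmod hunr
  exact hmin M hMN hne hM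

/-- Outer induction on the level: frozen S43 from frozen S44 and the prime-to-`p` core. -/
theorem stmt_S43_of (h44 : Stmt_S44) (hD : Stmt_DescendFlat) : Stmt_S43 := by
  intro P N
  induction N using Nat.strong_induction_on with
  | _ N ih =>
    intro q hcond hq hq2 hqp hqN hirr hmod hunr
    -- a proper divisor `M` of `N` at which the representation is modular
    have key : ∃ M : ℕ, M ∣ N ∧ M ≠ N ∧ P.ModularRepOfLevel M := by
      by_cases hpN : P.p ∣ N
      · obtain ⟨M, hMN, hpM, hM⟩ := h44 P hcond hpN hirr hmod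
        refine ⟨M, hMN, ?_, hM⟩
        rintro rfl
        exact hpM hpN
      · exact hD P hcond hpN hq hq2 hqp hqN hirr hmod hunr
    obtain ⟨M, hMN, hne, hM⟩ := key
    by_cases hqM : q ∣ M
    · have hMpos : 0 < M := Nat.pos_of_dvd_of_pos hMN hcond.pos
      have hlt : M < N := lt_of_le_of_ne (Nat.le_of_dvd hcond.pos hMN) hne
      obtain ⟨M', hM'M, hqM', hM'⟩ :=
        ih M hlt (q := q) (hcond.of_dvd hMN hMpos) hq hq2 hqp hqM hirr hM hunr
      exact ⟨M', hM'M.trans hMN, hqM', hM'⟩
    · exact ⟨M, hMN, hqM, hM⟩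

theorem stmt_S43_of_noNewOnly (h44 : Stmt_S44) (hN : Stmt_NoNewOnly) : Stmt_S43 :=
  stmt_S43_of h44 (stmt_DescendFlat_of_noNewOnly hN)

/-! ### The S44-optional form

`Stmt_Minimal` is `Stmt_NoNewOnly` without the binder `¬ P.p ∣ N` ("Theorem (M)": a conductor
level containing an odd prime `q ≠ p` at which the representation is unramified is never a
divisibility-minimal level of modularity).  Frozen S43 follows from it ALONE, with no use of
S44.  It splits into the branch `p ∤ N` (`Stmt_NoNewOnly`, flat at `p`) and the branch `p ∣ N`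
(`Stmt_NoNewOnlyOrd`, ordinary at `p`); the latter is closed EITHER by the frozen S44 OR by an
ordinary-at-`p` run of the hard-case argument. -/

/-- Minimal-level core with no restriction at `p`. -/
def Stmt_Minimal : Prop :=
  ∀ (P : FreyPackage) {N q : ℕ}, P.IsConductorLevel N → q.Prime → q ≠ 2 →
    q ≠ P.p → q ∣ N →
    GaloisRepIsIrreducible (K := AlgebraicClosure ℚ) ℚ P.freyCurve P.p →
    P.ModularRepOfLevel N → P.GaloisRepUnramifiedAt q →
    (∀ M : ℕ, M ∣ N → M ≠ N → ¬ P.ModularRepOfLevel M) → False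

/-- The branch `p ∣ N` of `Stmt_Minimal`. -/
def Stmt_NoNewOnlyOrd : Prop :=
  ∀ (P : FreyPackage) {N q : ℕ}, P.IsConductorLevel N → P.p ∣ N → q.Prime → q ≠ 2 →
    q ≠ P.p → q ∣ N →
    GaloisRepIsIrreducible (K := AlgebraicClosure ℚ) ℚ P.freyCurve P.p →
    P.ModularRepOfLevel N → P.GaloisRepUnramifiedAt q →
    (∀ M : ℕ, M ∣ N → M ≠ N → ¬ P.ModularRepOfLevel M) → False

theorem stmt_minimal_of_branches (hF : Stmt_NoNewOnly) (hO : Stmt_NoNewOnlyOrd) :
    Stmt_Minimal := by
  intro P N q hcond hq hq2 hqp hqN hirr hmod hunr hmin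
  by_cases hpN : P.p ∣ N
  · exact hO P hcond hpN hq hq2 hqp hqN hirr hmod hunr hmin
  · exact hF P hcond hpN hq hq2 hqp hqN hirr hmod hunr hmin

theorem stmt_noNewOnly_of_minimal (h : Stmt_Minimal) : Stmt_NoNewOnly := by
  intro P N q hcond _ hq hq2 hqp hqN hirr hmod hunr hmin
  exact h P hcond hq hq2 hqp hqN hirr hmod hunr hmin

theorem stmt_noNewOnlyOrd_of_minimal (h : Stmt_Minimal) : Stmt_NoNewOnlyOrd := by
  intro P N q hcond _ hq hq2 hqp hqN hirr hmod hunr hmin
  exact h P hcond hq hq2 hqp hqN hirr hmod hunr hmin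

/-- The frozen S44 closes the branch `p ∣ N` outright (no hard-case argument there). -/
theorem stmt_noNewOnlyOrd_of_S44 (h44 : Stmt_S44) : Stmt_NoNewOnlyOrd := by
  intro P N q hcond hpN _ _ _ _ hirr hmod _ hmin
  obtain ⟨M, hMN, hpM, hM⟩ := h44 P hcond hpN hirr hmod
  refine hmin M hMN ?_ hM
  rintro rfl
  exact hpM hpN

/-- Frozen S43 from the minimal-level core alone: pass to the least divisor of `N` at which
the representation is modular; it cannot contain `q`. -/
theorem stmt_S43_of_minimal (h : Stmt_Minimal) : Stmt_S43 := by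
  classical
  intro P N q hcond hq hq2 hqp hqN hirr hmod hunr
  have hex : ∃ M : ℕ, M ∣ N ∧ P.ModularRepOfLevel M := ⟨N, dvd_rfl, hmod⟩
  obtain ⟨hMN, hM⟩ := Nat.find_spec hex
  have hMpos : 0 < Nat.find hex := Nat.pos_of_dvd_of_pos hMN hcond.pos
  refine ⟨Nat.find hex, hMN, ?_, hM⟩
  intro hqM
  refine h P (hcond.of_dvd hMN hMpos) hq hq2 hqp hqM hirr hM hunr ?_
  intro M' hM'M hne hM'
  have hlt : M' < Nat.find hex := lt_of_le_of_ne (Nat.le_of_dvd hMpos hM'M) hne
  exact Nat.find_min hex hlt ⟨hM'M.trans hMN, hM'⟩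

/-- Frozen S43 from the two branches. -/
theorem stmt_S43_of_branches (hF : Stmt_NoNewOnly) (hO : Stmt_NoNewOnlyOrd) : Stmt_S43 :=
  stmt_S43_of_minimal (stmt_minimal_of_branches hF hO)

/-- Frozen S43 from the flat branch and the frozen S44 (same content as `stmt_S43_of_noNewOnly`,
through the minimal-level form). -/
theorem stmt_S43_of_noNewOnly_S44 (hF : Stmt_NoNewOnly) (h44 : Stmt_S44) : Stmt_S43 :=
  stmt_S43_of_branches hF (stmt_noNewOnlyOrd_of_S44 h44)

end Fermat.Agent.S43.helper8058
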