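/-
S43 (row 37, Ribet, Frey-curve form): TOP wiring.

`result_of` proves the frozen S43 statement VERBATIM from two leaf Props, generic in a
predicate `Hard : FreyPackage → ℕ → Prop` ("the prime is a hard prime"):

* `Stmt_MP Hard`   : a removable prime `r` of a conductor level `L` that is NOT hard can be
                     removed from the level (Mazur's principle).
* `Stmt_Hard Hard` : at a conductor level `L` ALL of whose removable primes are hard (and which
                     has at least one), SOME removable prime can be removed (patched pivot).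

The induction is on the level: at each step some removable prime is removed; the step at which
`q` itself is removed gives the `M` of the frozen statement.

Imports: Mathlib + the Prelude definition modules of the frozen statement only.
-/
import Mathlib
import Fermat.Prelude.Def_FLTPrelim_FreyPackage
import Fermat.Prelude.Def_FLTPrelim_GaloisRep
import Fermat.Prelude.Def_FLTPrelim_Modularity
import Fermat.Prelude.Def_FLTPrelim_ModularRep
import Fermat.Prelude.Def_FLTPrelim_Ramification
import Fermat.Prelude.Def_FreyPackage_IsConductorLevel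
import Fermat.Prelude.Def_EllipticCurve_FrobeniusTrace

set_option autoImplicit false
open WeierstrassCurve WeierstrassCurve.Affine WeierstrassCurve.Affine.Point
open CuspForm ModularFormClass UpperHalfPlane
open FreyPackage

namespace Fermat.Agent.S43.helper8397

/-- `r` is a removable prime of the level `L`: an odd prime different from `P.p` dividing `L`. -/
def Removable (P : FreyPackage) (L r : ℕ) : Prop :=
  r.Prime ∧ r ≠ 2 ∧ r ≠ P.p ∧ r ∣ L

/-- The mod-`p` representation of the Frey curve is irreducible (frozen hypothesis `hirr`). -/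
abbrev Irr (P : FreyPackage) : Prop :=
  GaloisRepIsIrreducible (K := AlgebraicClosure ℚ) ℚ P.freyCurve P.p

/-- The intended instance of `Hard`: `r ≡ 1 mod p` and every Frobenius at `r` acts on the
`p`-torsion of the Frey curve as a scalar. (The wiring below is generic in `Hard`.) -/
def HardPrime (P : FreyPackage) (r : ℕ) : Prop :=
  P.p ∣ r - 1 ∧
    ∀ A : ValuationSubring (AlgebraicClosure ℚ), A.LiesOverPrime r →
      ∀ σ : AlgebraicClosure ℚ ≃ₐ[ℚ] AlgebraicClosure ℚ, A.IsFrobeniusAt σ r →
        ∃ c : ℤ, ∀ x : Submodule.torsionBy ℤ (P.freyCurve⁄(AlgebraicClosure ℚ)).Point P.p,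
          σ • x = c • x

/-- One step: at a conductor level with a removable prime, SOME removable prime can be removed. -/
def Stmt_Step : Prop :=
  ∀ (P : FreyPackage) (L : ℕ), P.IsConductorLevel L → Irr P → P.ModularRepOfLevel L →
    (∃ r, Removable P L r) → ∃ r, Removable P L r ∧ P.ModularRepOfLevel (L / r)

/-- Mazur's principle: a removable prime that is not hard can be removed. -/
def Stmt_MP (Hard : FreyPackage → ℕ → Prop) : Prop :=
  ∀ (P : FreyPackage) (L r : ℕ), P.IsConductorLevel L → Irr P → P.ModularRepOfLevel L →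
    Removable P L r → ¬ Hard P r → P.ModularRepOfLevel (L / r)

/-- The hard case: if ALL removable primes of the level are hard, SOME removable prime can be
removed. -/
def Stmt_Hard (Hard : FreyPackage → ℕ → Prop) : Prop :=
  ∀ (P : FreyPackage) (L : ℕ), P.IsConductorLevel L → Irr P → P.ModularRepOfLevel L →
    (∃ r, Removable P L r) → (∀ r, Removable P L r → Hard P r) →
      ∃ r, Removable P L r ∧ P.ModularRepOfLevel (L / r)

theorem stmt_Step_of {Hard : FreyPackage → ℕ → Prop} (hMP : Stmt_MP Hard)
    (hH : Stmt_Hard Hard) : Stmt_Step := by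
  intro P L hL hirr hmod hex
  by_cases hall : ∀ r, Removable P L r → Hard P r
  · exact hH P L hL hirr hmod hex hall
  · obtain ⟨r, hr⟩ := not_forall.mp hall
    obtain ⟨hr, hnot⟩ := Classical.not_imp.mp hr
    exact ⟨r, hr, hMP P L r hL hirr hmod hr hnot⟩

/-- Removing a prime divisor from a conductor level gives a conductor level. -/
theorem isConductorLevel_div {P : FreyPackage} {L r : ℕ} (hL : P.IsConductorLevel L)
    (hr : r ∣ L) : P.IsConductorLevel (L / r) :=
  hL.of_dvd (Nat.div_dvd_of_dvd hr) (Nat.div_pos (Nat.le_of_dvd hL.pos hr)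
    (Nat.pos_of_dvd_of_pos hr hL.pos))

/-- The induction: from `Stmt_Step`, any given removable prime `q` of a conductor level `N`
can be removed at the cost of passing to some divisor `M` of `N`. -/
theorem exists_level_of_step (h : Stmt_Step) (P : FreyPackage) (hirr : Irr P) :
    ∀ (n N : ℕ), N ≤ n → P.IsConductorLevel N → P.ModularRepOfLevel N →
      ∀ q : ℕ, Removable P N q → ∃ M : ℕ, M ∣ N ∧ ¬ q ∣ M ∧ P.ModularRepOfLevel M := by
  intro n
  induction n with
  | zero =>
    intro N hN hL _ _ _
    exact absurd hL.pos (by omega)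
  | succ n ih =>
    intro N hN hL hmod q hq
    obtain ⟨r, hr, hmodr⟩ := h P N hL hirr hmod ⟨q, hq⟩
    have hrN : r ∣ N := hr.2.2.2
    have hr1 : 1 < r := hr.1.one_lt
    have hLr : P.IsConductorLevel (N / r) := isConductorLevel_div hL hrN
    have hdvd : N / r ∣ N := Nat.div_dvd_of_dvd hrN
    by_cases hqr : q = r
    · subst hqr
      refine ⟨N / q, hdvd, ?_, hmodr⟩
      intro hqd
      -- `q ∣ N / q` contradicts squarefreeness of `N`
      have hsq : q * q ∣ N := by
        obtain ⟨k, hk⟩ := hqd
        have : N = q * (N / q) := (Nat.mul_div_cancel' hrN).symm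
        rw [this, hk]
        exact ⟨k, by ring⟩
      exact hq.1.not_isUnit (hL.squarefree q hsq)
    · -- `q` still divides `N / r`
      have hqN : q ∣ N := hq.2.2.2
      have hcop : Nat.Coprime q r := (Nat.coprime_primes hq.1 hr.1).2 hqr
      have hqNr : q ∣ N / r := by
        have h1 : q ∣ r * (N / r) := by rw [Nat.mul_div_cancel' hrN]; exact hqN
        exact hcop.dvd_of_dvd_mul_left h1
      have hlt : N / r < N := Nat.div_lt_self hL.pos hr1
      obtain ⟨M, hM, hqM, hmodM⟩ :=
        ih (N / r) (by omega) hLr hmodr q ⟨hq.1, hq.2.1, hq.2.2.1, hqNr⟩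
      exact ⟨M, hM.trans hdvd, hqM, hmodM⟩

/-- The frozen S43 statement, verbatim, from `Stmt_Step`. -/
theorem result_of_step (h : Stmt_Step) (P : FreyPackage) {N q : ℕ} (hcond : P.IsConductorLevel N)
    (hq : q.Prime) (hq2 : q ≠ 2) (hqp : q ≠ P.p) (hqN : q ∣ N)
    (hirr : GaloisRepIsIrreducible (K := AlgebraicClosure ℚ) ℚ P.freyCurve P.p)
    (hmod : P.ModularRepOfLevel N) (_hunr : P.GaloisRepUnramifiedAt q) :
    ∃ M : ℕ, M ∣ N ∧ ¬ q ∣ M ∧ P.ModularRepOfLevel M :=
  exists_level_of_step h P hirr N N le_rfl hcond hmod q ⟨hq, hq2, hqp, hqN⟩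

/-- The frozen S43 statement, verbatim, from Mazur's principle and the hard case. -/
theorem result_of {Hard : FreyPackage → ℕ → Prop} (hMP : Stmt_MP Hard) (hH : Stmt_Hard Hard)
    (P : FreyPackage) {N q : ℕ} (hcond : P.IsConductorLevel N)
    (hq : q.Prime) (hq2 : q ≠ 2) (hqp : q ≠ P.p) (hqN : q ∣ N)
    (hirr : GaloisRepIsIrreducible (K := AlgebraicClosure ℚ) ℚ P.freyCurve P.p)
    (hmod : P.ModularRepOfLevel N) (hunr : P.GaloisRepUnramifiedAt q) :
    ∃ M : ℕ, M ∣ N ∧ ¬ q ∣ M ∧ P.ModularRepOfLevel M :=
  result_of_step (stmt_Step_of hMP hH) P hcond hq hq2 hqp hqN hirr hmod hunr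

/-! ### Minimal-level form (no induction on primes)

`N` is a *minimal level* for `P` if no proper divisor of `N` is a level of modularity.
`result_of_noNew` proves the frozen statement from "a minimal conductor level has no removable
prime"; `stmt_NoNew_of` splits that into Mazur's principle and the hard case at a minimal level.
-/

/-- No proper divisor of `N` is a level of modularity of the Frey representation. -/
def MinimalLevel (P : FreyPackage) (N : ℕ) : Prop :=
  ∀ M : ℕ, M ∣ N → M ≠ N → ¬ P.ModularRepOfLevel M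

/-- A minimal conductor level of modularity has no removable prime. -/
def Stmt_NoNew : Prop :=
  ∀ (P : FreyPackage) (N : ℕ), P.IsConductorLevel N → Irr P → P.ModularRepOfLevel N →
    MinimalLevel P N → ∀ r, Removable P N r → False

/-- Mazur's principle at a minimal level: every removable prime is hard. -/
def Stmt_MPMin (Hard : FreyPackage → ℕ → Prop) : Prop :=
  ∀ (P : FreyPackage) (N : ℕ), P.IsConductorLevel N → Irr P → P.ModularRepOfLevel N →
    MinimalLevel P N → ∀ r, Removable P N r → Hard P r

/-- The hard case at a minimal level: the removable primes cannot all be hard (if there is one). -/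
def Stmt_HardMin (Hard : FreyPackage → ℕ → Prop) : Prop :=
  ∀ (P : FreyPackage) (N : ℕ), P.IsConductorLevel N → Irr P → P.ModularRepOfLevel N →
    MinimalLevel P N → (∃ r, Removable P N r) → (∀ r, Removable P N r → Hard P r) → False

theorem stmt_NoNew_of {Hard : FreyPackage → ℕ → Prop} (hMP : Stmt_MPMin Hard)
    (hH : Stmt_HardMin Hard) : Stmt_NoNew := fun P N hN hirr hmod hmin r hr =>
  hH P N hN hirr hmod hmin ⟨r, hr⟩ (hMP P N hN hirr hmod hmin)

/-- The level-by-level leaves imply the minimal-level ones. -/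
theorem stmt_NoNew_of_step (h : Stmt_Step) : Stmt_NoNew := by
  intro P N hN hirr hmod hmin r hr
  obtain ⟨s, hs, hmods⟩ := h P N hN hirr hmod ⟨r, hr⟩
  have hsN : s ∣ N := hs.2.2.2
  refine hmin (N / s) (Nat.div_dvd_of_dvd hsN) ?_ hmods
  exact (Nat.div_lt_self hN.pos hs.1.one_lt).ne

/-- Every level of modularity dividing `N` contains a minimal one. -/
theorem exists_minimalLevel (P : FreyPackage) {N : ℕ} (hN : 0 < N)
    (hmod : P.ModularRepOfLevel N) :
    ∃ M : ℕ, M ∣ N ∧ P.ModularRepOfLevel M ∧ MinimalLevel P M := by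
  classical
  have hex : ∃ M : ℕ, M ∣ N ∧ P.ModularRepOfLevel M := ⟨N, dvd_rfl, hmod⟩
  refine ⟨Nat.find hex, (Nat.find_spec hex).1, (Nat.find_spec hex).2, ?_⟩
  intro M hM hne hmodM
  have hpos : 0 < Nat.find hex := Nat.pos_of_dvd_of_pos (Nat.find_spec hex).1 hN
  have hle : M ≤ Nat.find hex := Nat.le_of_dvd hpos hM
  have hlt : M < Nat.find hex := lt_of_le_of_ne hle hne
  exact Nat.find_min hex hlt ⟨hM.trans (Nat.find_spec hex).1, hmodM⟩

/-- The frozen S43 statement, verbatim, from `Stmt_NoNew` (minimal-level form). -/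
theorem result_of_noNew (h : Stmt_NoNew) (P : FreyPackage) {N q : ℕ}
    (hcond : P.IsConductorLevel N)
    (hq : q.Prime) (hq2 : q ≠ 2) (hqp : q ≠ P.p) (_hqN : q ∣ N)
    (hirr : GaloisRepIsIrreducible (K := AlgebraicClosure ℚ) ℚ P.freyCurve P.p)
    (hmod : P.ModularRepOfLevel N) (_hunr : P.GaloisRepUnramifiedAt q) :
    ∃ M : ℕ, M ∣ N ∧ ¬ q ∣ M ∧ P.ModularRepOfLevel M := by
  obtain ⟨M, hMN, hmodM, hmin⟩ := exists_minimalLevel P hcond.pos hmod
  have hM : P.IsConductorLevel M := hcond.of_dvd hMN (Nat.pos_of_dvd_of_pos hMN hcond.pos)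
  exact ⟨M, hMN, fun hqM => h P M hM hirr hmodM hmin q ⟨hq, hq2, hqp, hqM⟩, hmodM⟩

/-- The frozen S43 statement, verbatim, from Mazur's principle and the hard case at a minimal
level. -/
theorem result_of_min {Hard : FreyPackage → ℕ → Prop} (hMP : Stmt_MPMin Hard)
    (hH : Stmt_HardMin Hard) (P : FreyPackage) {N q : ℕ} (hcond : P.IsConductorLevel N)
    (hq : q.Prime) (hq2 : q ≠ 2) (hqp : q ≠ P.p) (hqN : q ∣ N)
    (hirr : GaloisRepIsIrreducible (K := AlgebraicClosure ℚ) ℚ P.freyCurve P.p)
    (hmod : P.ModularRepOfLevel N) (hunr : P.GaloisRepUnramifiedAt q) :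
    ∃ M : ℕ, M ∣ N ∧ ¬ q ∣ M ∧ P.ModularRepOfLevel M :=
  result_of_noNew (stmt_NoNew_of hMP hH) P hcond hq hq2 hqp hqN hirr hmod hunr

end Fermat.Agent.S43.helper8397
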