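/-
helper442 — S43 SPEC, layer 1 (registry leaf S43-SPEC of table ia_leaves).

Chain (all arrows compiled here, no `sorry`):

  frozen S43  ⟸  helper8397.Stmt_MPMin HardPrime            [Mazur's principle at a minimal level]
               +  helper8397.Stmt_HardMin HardPrime          [hard case at a minimal level]
  Stmt_HardMin HardPrime  ⟸  Stmt_PivotSystem  +  Stmt_PatchPivot
  Stmt_PivotSystem        ⟸  Stmt_PivotSystemFlat + (frozen S44  or  Stmt_PivotSystemOrd)

* `PivotLevel`   : one finite Taylor–Wiles level, as pure commutative algebra (a local ring `T`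
                   acting on a module `M` that is free of rank `d` modulo `nS ^ n`, and for every
                   hard prime `v` a pair of matrices `Nm v = ρ(τ_v) - 1`, `Gm v = ρ(Φ_v) - β_v`
                   with (X), the trace condition and the generator count).
* `PivotSystem`  : a coefficient ring `S` (in the application `𝒪⟦s₁..s_r⟧`) with a `PivotLevel`
                   for every `n`, for a NONEMPTY finite family of hard primes, `m + 2 * #ι ≤ r`.
* `Stmt_PatchPivot` : no `PivotSystem` exists (patching + multi-prime pivot + Krull; Mathlib-only;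
                   = registry leaves P-PIVOT ∘ L-PIVOT, family form
                   `helper442.pivot_endgame_family_two`).
* `Stmt_PivotSystem` : at a minimal conductor level of modularity all of whose removable primes
                   are hard (and which has one), a `PivotSystem` exists (= everything arithmetic:
                   H-*, C-*, X0).
-/
import Fermat.Agent.S43.helper8397_Top
import Fermat.Agent.S43.helper8058_TopSpec
import Fermat.Agent.S43.helper442_PivotFamily

set_option autoImplicit false
open WeierstrassCurve WeierstrassCurve.Affine WeierstrassCurve.Affine.Point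
open CuspForm ModularFormClass UpperHalfPlane
open FreyPackage

namespace Fermat.Agent.S43.helper442

open IsLocalRing Fermat.Agent.S43.helper5638 Fermat.Agent.S43.helper8397

/-- One finite level of a pivot system, depth `n`. `S` is the coefficient ring of the patching
(`𝒪⟦s₁..s_r⟧` in the application), `nS` its maximal ideal, `ι` indexes the hard primes, `d` is
the rank of the Taylor–Wiles modules, `m` the number of extra generators, `lam` a uniformiser
and `k v` the exponent with `lam ^ k v ∈ (tr (Gm v))`. -/
structure PivotLevel (S : Type) [CommRing S] (nS : Ideal S) (ι : Type) (d m : ℕ) (lam : S)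
    (k : ι → ℕ) (n : ℕ) : Type 1 where
  /-- the (local) Hecke algebra at the `n`-th Taylor–Wiles level -/
  T : Type
  [instCommRing : CommRing T]
  [instIsLocalRing : IsLocalRing T]
  [instAlgebra : Algebra S T]
  /-- the Taylor–Wiles module -/
  M : Type
  [instAddCommGroup : AddCommGroup M]
  [instModuleT : Module T M]
  [instModuleS : Module S M]
  [instIsScalarTower : IsScalarTower S T M]
  /-- `d` generators of `M` over `S` ... -/
  e : Fin d → M
  span_e : Submodule.span S (Set.range e) = ⊤
  /-- ... all of whose relations lie in `nS ^ n` (`M` is free of rank `d` over `S / 𝔞_n`,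
  `𝔞_n ≤ nS ^ n`). -/
  rel_e : ∀ c : Fin d → S, ∑ i, c i • e i = 0 → ∀ i, c i ∈ nS ^ n
  /-- `Nm v = ρ(τ_v) - 1`, `τ_v` a generator of tame `p`-inertia at the hard prime `v` -/
  Nm : ι → Matrix (Fin 2) (Fin 2) T
  /-- `Gm v = ρ(Φ_v) - β_v`, `Φ_v` a Frobenius lift at `v` -/
  Gm : ι → Matrix (Fin 2) (Fin 2) T
  hN : ∀ v i j, Nm v i j ∈ maximalIdeal T
  /-- unipotent inertia (frozen S34 shape): `tr (Nm v) = 0` ... -/
  htr : ∀ v, Nm v 0 0 + Nm v 1 1 = 0
  /-- ... and `det (Nm v) = 0` -/
  hdet : ∀ v, Nm v 0 0 * Nm v 1 1 = Nm v 0 1 * Nm v 1 0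
  /-- (X): `Gm v • M² ⊆ Nm v • M²` -/
  hX : ∀ v, ImageIncl M (Gm v) (Nm v)
  hlam : ∀ v, algebraMap S T lam ^ k v ∈ Ideal.span {Gm v 0 0 + Gm v 1 1}
  /-- the `m` extra generators (images of generators of the deformation ring with the scalar
  condition at every hard prime) -/
  z : Fin m → T
  hz : ∀ i, z i ∈ maximalIdeal T
  hgen : maximalIdeal T ≤
    (⨆ v, entryIdeal (Nm v) ⊔ entryIdeal (Gm v)) ⊔ Ideal.span {algebraMap S T lam} ⊔
      Ideal.span (Set.range z)

/-- A pivot system: finite levels of every depth over one coefficient ring, for a nonempty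
finite family of hard primes, with the numerology `m + 2 * #ι ≤ r < r + 1 ≤ dim S` (margin-2
form: in the flat / strict-ordinary case `m = r - 3 * #ι`, in the plain ordinary case
`m = r + 1 - 3 * #ι`). -/
structure PivotSystem : Type 1 where
  S : Type
  [instCommRing : CommRing S]
  [instNoeth : IsNoetherianRing S]
  nS : Ideal S
  nS_le : nS ≤ Ideal.jacobson ⊥
  complete : IsAdicComplete nS S
  finite_quot : ∀ j : ℕ, Finite (S ⧸ nS ^ j)
  r : ℕ
  dim_le : ((r + 1 : ℕ) : WithBot ℕ∞) ≤ ringKrullDim S
  ι : Type
  [instFintype : Fintype ι]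
  [instNonempty : Nonempty ι]
  d : ℕ
  d_pos : 0 < d
  m : ℕ
  hmr : m + 2 * Fintype.card ι ≤ r
  lam : S
  k : ι → ℕ
  level : ∀ n : ℕ, PivotLevel S nS ι d m lam k n

/-- PATCH + PIVOT (Mathlib-only): a pivot system is contradictory.
Proof design (#3968 helper2336, family form): `P∞ := Patch U nS M` is free of rank `d` over `S`;
`T∞ :=` image of `∏ T_n` in `End_S P∞` is local, finite over `S`, contains `S`; the marked
elements and all hypotheses pass to `T∞` componentwise; then
`helper442.pivot_endgame_family_two`. -/
def Stmt_PatchPivot : Prop := PivotSystem → False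

/-- The arithmetic content: at a minimal conductor level of modularity all of whose removable
primes are hard, and which has a removable prime, a pivot system exists. -/
def Stmt_PivotSystem : Prop :=
  ∀ (P : FreyPackage) (N : ℕ), P.IsConductorLevel N → Irr P → P.ModularRepOfLevel N →
    MinimalLevel P N → (∃ r, Removable P N r) → (∀ r, Removable P N r → HardPrime P r) →
    Nonempty PivotSystem

/-- Same, at levels prime to `p` (flat deformation condition at `p`). -/
def Stmt_PivotSystemFlat : Prop :=
  ∀ (P : FreyPackage) (N : ℕ), P.IsConductorLevel N → ¬ P.p ∣ N → Irr P →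
    P.ModularRepOfLevel N → MinimalLevel P N → (∃ r, Removable P N r) →
    (∀ r, Removable P N r → HardPrime P r) → Nonempty PivotSystem

/-- Same, at levels divisible by `p` (ordinary deformation condition at `p`); NOT needed when the
frozen S44 is available. -/
def Stmt_PivotSystemOrd : Prop :=
  ∀ (P : FreyPackage) (N : ℕ), P.IsConductorLevel N → P.p ∣ N → Irr P →
    P.ModularRepOfLevel N → MinimalLevel P N → (∃ r, Removable P N r) →
    (∀ r, Removable P N r → HardPrime P r) → Nonempty PivotSystem

theorem stmt_PivotSystem_of_flat_ord (hF : Stmt_PivotSystemFlat) (hO : Stmt_PivotSystemOrd) :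
    Stmt_PivotSystem := by
  intro P N hN hirr hmod hmin hex hall
  by_cases hp : P.p ∣ N
  · exact hO P N hN hp hirr hmod hmin hex hall
  · exact hF P N hN hp hirr hmod hmin hex hall

/-- With the frozen S44, a minimal level is prime to `p`, so the flat case suffices. -/
theorem stmt_PivotSystem_of_flat_S44 (h44 : helper8058.Stmt_S44) (hF : Stmt_PivotSystemFlat) :
    Stmt_PivotSystem := by
  intro P N hN hirr hmod hmin hex hall
  by_cases hp : P.p ∣ N
  · exfalso
    obtain ⟨M, hMN, hpM, hM⟩ := h44 P hN hp hirr hmod
    refine hmin M hMN ?_ hM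
    rintro rfl
    exact hpM hp
  · exact hF P N hN hp hirr hmod hmin hex hall

/-- The hard case at a minimal level from a pivot system and patching. -/
theorem stmt_HardMin_of (hsys : Stmt_PivotSystem) (hpp : Stmt_PatchPivot) :
    Stmt_HardMin HardPrime := by
  intro P N hN hirr hmod hmin hex hall
  obtain ⟨X⟩ := hsys P N hN hirr hmod hmin hex hall
  exact hpp X

/-- Frozen S43, verbatim, from the three leaves of layer 1. -/
theorem result_of_pivot (hMP : Stmt_MPMin HardPrime) (hsys : Stmt_PivotSystem)
    (hpp : Stmt_PatchPivot) (P : FreyPackage) {N q : ℕ} (hcond : P.IsConductorLevel N)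
    (hq : q.Prime) (hq2 : q ≠ 2) (hqp : q ≠ P.p) (hqN : q ∣ N)
    (hirr : GaloisRepIsIrreducible (K := AlgebraicClosure ℚ) ℚ P.freyCurve P.p)
    (hmod : P.ModularRepOfLevel N) (hunr : P.GaloisRepUnramifiedAt q) :
    ∃ M : ℕ, M ∣ N ∧ ¬ q ∣ M ∧ P.ModularRepOfLevel M :=
  result_of_min hMP (stmt_HardMin_of hsys hpp) P hcond hq hq2 hqp hqN hirr hmod hunr

/-- Frozen S43 from the frozen S44 and the flat leaves only. -/
theorem result_of_pivot_flat (h44 : helper8058.Stmt_S44) (hMP : Stmt_MPMin HardPrime)
    (hF : Stmt_PivotSystemFlat) (hpp : Stmt_PatchPivot) (P : FreyPackage) {N q : ℕ}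
    (hcond : P.IsConductorLevel N) (hq : q.Prime) (hq2 : q ≠ 2) (hqp : q ≠ P.p) (hqN : q ∣ N)
    (hirr : GaloisRepIsIrreducible (K := AlgebraicClosure ℚ) ℚ P.freyCurve P.p)
    (hmod : P.ModularRepOfLevel N) (hunr : P.GaloisRepUnramifiedAt q) :
    ∃ M : ℕ, M ∣ N ∧ ¬ q ∣ M ∧ P.ModularRepOfLevel M :=
  result_of_pivot hMP (stmt_PivotSystem_of_flat_S44 h44 hF) hpp P hcond hq hq2 hqp hqN hirr hmod
    hunr

end Fermat.Agent.S43.helper442
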