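/-
helper442 — S43 SPEC, layer 2: the Galois-level form of a Taylor–Wiles level and the compiled
adapter to `PivotLevel`.

A `GaloisPivotLevel` is what the Hecke side (H-*), the count (C-*) and the base-level geometry
(X0, through the Nakayama transfer L-NAK) have to produce at depth `n`, in the frozen vocabulary
(`GaloisRepAdic T`, charpoly `(X - 1)^2` = `IsUnipotentOnInertiaAt` shape):

* `T`, `M`, `e`, `span_e`, `rel_e`, `htors`   — H-FREE (+ the `S`-algebra structure: H-TRANSFER)
* `ρ`, `b`                                    — H-GLUE at the Taylor–Wiles level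
* `hunip`                                     — frozen S34 shape at the Taylor–Wiles level
* `htame`                                     — tame relation `ρ(φ) ρ(τ) = ρ(τ)^q ρ(φ)`
* `hres`                                      — `ρ̄` unramified at the hard primes
* `hex`                                       — `ker ⊆ im` for `ρ(τ) - 1` on `M²`
                                                (= (X0) at base level + control + L-NAK)
* `u`, `hu`, `hlam`                           — hard primes: `q + 1` is a unit, `tr ρ(φ)` is a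
                                                unit and `lam ^ k ∈ (q - 1)`
* `z`, `hz`, `hgen`                           — C-COUNT/C-DICT + frozen S54 (`R ↠ T`)

`GaloisPivotLevel.toPivotLevel` derives (X) with `β = tr ρ(φ) / (q + 1)` from the matrix identity
`helper442.mul_sub_scalar_eq` (no reducedness, no eigenform-wise argument).
-/
import Fermat.Agent.S43.helper442_Spec
import Fermat.Prelude.Def_GaloisRep_Adic

set_option autoImplicit false

namespace Fermat.Agent.S43.helper442

open IsLocalRing Polynomial Fermat.Agent.S43.helper5638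

section MatrixLemmas

variable {T : Type*} [CommRing T]

/-- A `2 × 2` matrix with characteristic polynomial `(X - 1)^2` has trace `2` and determinant
`1`. -/
theorem trace_det_of_charpoly [Nontrivial T] {A : Matrix (Fin 2) (Fin 2) T}
    (h : A.charpoly = (X - 1) ^ 2) : A.trace = 2 ∧ A.det = 1 := by
  rw [Matrix.charpoly_fin_two] at h
  have h1 := congrArg (fun p : T[X] => p.coeff 1) h
  have h0 := congrArg (fun p : T[X] => p.coeff 0) h
  have e : ((X : T[X]) - 1) ^ 2 = X ^ 2 - C 2 * X + C 1 := by
    simp only [map_ofNat, map_one]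
    ring
  rw [e] at h1 h0
  simp only [coeff_add, coeff_sub, coeff_X_pow, coeff_C_mul, coeff_X_one, coeff_X_zero,
    coeff_C_zero, coeff_C_succ, mul_one, mul_zero] at h1 h0
  norm_num at h1 h0
  exact ⟨h1, h0⟩

/-- `N = A - 1` for `A` with `tr A = 2`, `det A = 1`: `tr N = 0`, `det N = 0`, `N ^ 2 = 0`,
`det (1 + N) = 1`. -/
theorem sub_one_of_trace_det {A : Matrix (Fin 2) (Fin 2) T} (htr : A.trace = 2)
    (hdet : A.det = 1) :
    (A - 1) 0 0 + (A - 1) 1 1 = 0 ∧ (A - 1) 0 0 * (A - 1) 1 1 = (A - 1) 0 1 * (A - 1) 1 0 ∧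
      (A - 1) * (A - 1) = 0 ∧ (1 + (A - 1)).det = 1 := by
  rw [Matrix.trace_fin_two] at htr
  rw [Matrix.det_fin_two] at hdet
  have e00 : (A - 1) 0 0 = A 0 0 - 1 := by simp
  have e11 : (A - 1) 1 1 = A 1 1 - 1 := by simp
  have e01 : (A - 1) 0 1 = A 0 1 := by simp
  have e10 : (A - 1) 1 0 = A 1 0 := by simp
  refine ⟨?_, ?_, ?_, ?_⟩
  · rw [e00, e11]; linear_combination htr
  · rw [e00, e11, e01, e10]; linear_combination hdet - htr
  · ext i j
    fin_cases i <;> fin_cases j <;>
      simp only [Matrix.mul_apply, Fin.sum_univ_two, Fin.zero_eta, Fin.mk_one, Matrix.zero_apply]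
    · rw [e00, e01, e10]; linear_combination (A 0 0 - 1) * htr - hdet + htr
    · rw [e00, e01, e11]; linear_combination A 0 1 * htr
    · rw [e00, e10, e11]; linear_combination A 1 0 * htr
    · rw [e11, e01, e10]; linear_combination (A 1 1 - 1) * htr - hdet + htr
  · rw [add_sub_cancel]
    rw [Matrix.det_fin_two]
    exact hdet

/-- `(1 + N)^q = 1 + q N` when `N ^ 2 = 0`. -/
theorem one_add_pow_of_sq_zero {N : Matrix (Fin 2) (Fin 2) T} (hsq : N * N = 0) (q : ℕ) :
    (1 + N) ^ q = 1 + (q : T) • N := by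
  induction q with
  | zero => simp
  | succ n ih =>
    rw [pow_succ, ih]
    simp only [add_mul, mul_add, one_mul, mul_one, Matrix.smul_mul, hsq, smul_zero, add_zero,
      Nat.cast_succ, add_smul, one_smul]
    abel

/-- The tame relation in matrix form: `Φ A = A^q Φ`, `A = 1 + N`, `N ^ 2 = 0` gives
`Φ N = q N Φ`. -/
theorem tame_matrix {A Phi : Matrix (Fin 2) (Fin 2) T} {q : ℕ}
    (hsq : (A - 1) * (A - 1) = 0) (htame : Phi * A = A ^ q * Phi) :
    Phi * (A - 1) = (q : T) • ((A - 1) * Phi) := by
  have hA : A = 1 + (A - 1) := by abel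
  have hpow : A ^ q = 1 + (q : T) • (A - 1) := by
    conv_lhs => rw [hA]
    exact one_add_pow_of_sq_zero hsq q
  rw [hpow] at htame
  rw [mul_sub, mul_one, htame, add_mul, one_mul, Matrix.smul_mul]
  abel

end MatrixLemmas

/-- One Taylor–Wiles level in Galois form (depth `n`). `qv v` is the `v`-th hard prime. -/
structure GaloisPivotLevel (S : Type) [CommRing S] (nS : Ideal S) (ι : Type) (qv : ι → ℕ)
    (d m : ℕ) (lam : S) (k : ι → ℕ) (n : ℕ) : Type 1 where
  T : Type
  [instCommRing : CommRing T]
  [instIsLocalRing : IsLocalRing T]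
  [instAlgebra : Algebra S T]
  M : Type
  [instAddCommGroup : AddCommGroup M]
  [instModuleT : Module T M]
  [instModuleS : Module S M]
  [instIsScalarTower : IsScalarTower S T M]
  e : Fin d → M
  span_e : Submodule.span S (Set.range e) = ⊤
  rel_e : ∀ c : Fin d → S, ∑ i, c i • e i = 0 → ∀ i, c i ∈ nS ^ n
  /-- the Galois representation over the Hecke ring of the level -/
  ρ : GaloisRepAdic T
  /-- a frame -/
  b : Module.Basis (Fin 2) T ρ.V
  /-- an element of an inertia group at the hard prime `v` whose image generates the image of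
  inertia (may depend on the level) -/
  τ : ι → (AlgebraicClosure ℚ ≃ₐ[ℚ] AlgebraicClosure ℚ)
  /-- a Frobenius lift at the hard prime `v` -/
  φ : ι → (AlgebraicClosure ℚ ≃ₐ[ℚ] AlgebraicClosure ℚ)
  /-- frozen S34 shape -/
  hunip : ∀ v, LinearMap.charpoly (ρ.ρ (τ v)) = (X - 1) ^ 2
  /-- tame relation -/
  htame : ∀ v, ρ.ρ (φ v) * ρ.ρ (τ v) = ρ.ρ (τ v) ^ qv v * ρ.ρ (φ v)
  /-- the residual representation is unramified at the hard primes -/
  hres : ∀ v i j, (LinearMap.toMatrix b b (ρ.ρ (τ v)) - 1) i j ∈ maximalIdeal T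
  /-- exactness of `ρ(τ) - 1` on `M²` (base-level (X0) + control + Nakayama) -/
  hex : ∀ v, KerLeIm M (LinearMap.toMatrix b b (ρ.ρ (τ v)) - 1)
  /-- `M` has no `(q - 1)`-torsion -/
  htors : ∀ v (x : M), ((qv v : T) - 1) • x = 0 → x = 0
  /-- the inverse of `q + 1` -/
  u : ι → T
  hu : ∀ v, u v * ((qv v : T) + 1) = 1
  hlam : ∀ v, algebraMap S T lam ^ k v ∈
    Ideal.span {u v * ((qv v : T) - 1) * (LinearMap.toMatrix b b (ρ.ρ (φ v))).trace}
  z : Fin m → T
  hz : ∀ i, z i ∈ maximalIdeal T
  /-- generator count: modulo the entries of `ρ(τ_v) - 1` and of `ρ(φ_v) - β_v`,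
  `β_v = tr ρ(φ_v) / (q_v + 1)`, the maximal ideal is generated by `lam` and `z` -/
  hgen : maximalIdeal T ≤
    (⨆ v, entryIdeal (LinearMap.toMatrix b b (ρ.ρ (τ v)) - 1) ⊔
        entryIdeal (LinearMap.toMatrix b b (ρ.ρ (φ v)) -
          Matrix.scalar (Fin 2) (u v * (LinearMap.toMatrix b b (ρ.ρ (φ v))).trace))) ⊔
      Ideal.span {algebraMap S T lam} ⊔ Ideal.span (Set.range z)

namespace GaloisPivotLevel

attribute [instance] instCommRing instIsLocalRing instAlgebra instAddCommGroup instModuleT
  instModuleS instIsScalarTower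

variable {S : Type} [CommRing S] {nS : Ideal S} {ι : Type} {qv : ι → ℕ} {d m : ℕ} {lam : S}
  {k : ι → ℕ} {n : ℕ}

/-- The compiled adapter: a Galois-form level is a pivot level, with
`Nm v = ρ(τ_v) - 1` and `Gm v = ρ(φ_v) - tr ρ(φ_v) / (q_v + 1)` in the frame `b`. -/
noncomputable def toPivotLevel (L : GaloisPivotLevel S nS ι qv d m lam k n) :
    PivotLevel S nS ι d m lam k n :=
  have key : ∀ v, (LinearMap.toMatrix L.b L.b (L.ρ.ρ (L.τ v))).trace = 2 ∧
      (LinearMap.toMatrix L.b L.b (L.ρ.ρ (L.τ v))).det = 1 := fun v =>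
    trace_det_of_charpoly (by rw [LinearMap.charpoly_toMatrix]; exact L.hunip v)
  have hmat : ∀ v, LinearMap.toMatrix L.b L.b (L.ρ.ρ (L.φ v)) *
      LinearMap.toMatrix L.b L.b (L.ρ.ρ (L.τ v)) =
      LinearMap.toMatrix L.b L.b (L.ρ.ρ (L.τ v)) ^ qv v *
        LinearMap.toMatrix L.b L.b (L.ρ.ρ (L.φ v)) := fun v => by
    have h := congrArg (LinearMap.toMatrixAlgEquiv L.b) (L.htame v)
    rw [map_mul, map_mul, map_pow] at h
    exact h
  { T := L.T
    M := L.M
    e := L.e
    span_e := L.span_e
    rel_e := L.rel_e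
    Nm := fun v => LinearMap.toMatrix L.b L.b (L.ρ.ρ (L.τ v)) - 1
    Gm := fun v => LinearMap.toMatrix L.b L.b (L.ρ.ρ (L.φ v)) -
      Matrix.scalar (Fin 2) (L.u v * (LinearMap.toMatrix L.b L.b (L.ρ.ρ (L.φ v))).trace)
    hN := L.hres
    htr := fun v => (sub_one_of_trace_det (key v).1 (key v).2).1
    hdet := fun v => (sub_one_of_trace_det (key v).1 (key v).2).2.1
    hX := fun v => by
      obtain ⟨-, -, hsq, hdet1⟩ := sub_one_of_trace_det (key v).1 (key v).2
      exact imageIncl_of_exact hsq hdet1 (tame_matrix hsq (hmat v)) (L.hu v) (L.htors v)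
        (L.hex v)
    hlam := fun v => by
      have h := L.hlam v
      rwa [← trace_sub_scalar (L.hu v)] at h
    z := L.z
    hz := L.hz
    hgen := L.hgen }

end GaloisPivotLevel

/-- A pivot system in Galois form. -/
structure GaloisPivotSystem : Type 1 where
  S : Type
  [instCommRing : CommRing S]
  [instNoeth : IsNoetherianRing S]
  nS : Ideal S
  nS_le : nS ≤ Ideal.jacobson ⊥
  complete : IsAdicComplete nS S
  finite_quot : ∀ j : ℕ, Finite (S ⧸ nS ^ j)
  r : ℕ
  dim_le : ((r + 1 : ℕ) : WithBot ℕ∞) ≤ ringKrullDim S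
  ι : Type
  [instFintype : Fintype ι]
  [instNonempty : Nonempty ι]
  qv : ι → ℕ
  d : ℕ
  d_pos : 0 < d
  m : ℕ
  hmr : m + 2 * Fintype.card ι ≤ r
  lam : S
  k : ι → ℕ
  level : ∀ n : ℕ, GaloisPivotLevel S nS ι qv d m lam k n

attribute [instance] GaloisPivotSystem.instCommRing GaloisPivotSystem.instNoeth
  GaloisPivotSystem.instFintype GaloisPivotSystem.instNonempty

/-- A Galois-form pivot system is a pivot system. -/
noncomputable def GaloisPivotSystem.toPivotSystem (X : GaloisPivotSystem) : PivotSystem :=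
  { S := X.S
    nS := X.nS
    nS_le := X.nS_le
    complete := X.complete
    finite_quot := X.finite_quot
    r := X.r
    dim_le := X.dim_le
    ι := X.ι
    d := X.d
    d_pos := X.d_pos
    m := X.m
    hmr := X.hmr
    lam := X.lam
    k := X.k
    level := fun n => (X.level n).toPivotLevel }

open Fermat.Agent.S43.helper8397 in
/-- Layer-2 leaf (flat case): the arithmetic produces a Galois-form pivot system. -/
def Stmt_GaloisPivotSystemFlat : Prop :=
  ∀ (P : FreyPackage) (N : ℕ), P.IsConductorLevel N → ¬ P.p ∣ N → Irr P →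
    P.ModularRepOfLevel N → MinimalLevel P N → (∃ r, Removable P N r) →
    (∀ r, Removable P N r → HardPrime P r) → Nonempty GaloisPivotSystem

open Fermat.Agent.S43.helper8397 in
/-- Layer-2 leaf (ordinary case, `p ∣ N`). -/
def Stmt_GaloisPivotSystemOrd : Prop :=
  ∀ (P : FreyPackage) (N : ℕ), P.IsConductorLevel N → P.p ∣ N → Irr P →
    P.ModularRepOfLevel N → MinimalLevel P N → (∃ r, Removable P N r) →
    (∀ r, Removable P N r → HardPrime P r) → Nonempty GaloisPivotSystem

theorem stmt_PivotSystemFlat_of_galois (h : Stmt_GaloisPivotSystemFlat) :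
    Stmt_PivotSystemFlat := by
  intro P N hN hp hirr hmod hmin hex hall
  obtain ⟨X⟩ := h P N hN hp hirr hmod hmin hex hall
  exact ⟨X.toPivotSystem⟩

theorem stmt_PivotSystemOrd_of_galois (h : Stmt_GaloisPivotSystemOrd) :
    Stmt_PivotSystemOrd := by
  intro P N hN hp hirr hmod hmin hex hall
  obtain ⟨X⟩ := h P N hN hp hirr hmod hmin hex hall
  exact ⟨X.toPivotSystem⟩

end Fermat.Agent.S43.helper442
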