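/-
helper6757 — FAMILY FORM (several hard primes at once) of the pivot lemma and of the abstract
endgame of findings #3710 (helper5638), Mathlib-only algebra on top of
`Fermat.Agent.S43.helper5638_Pivot` (imported unchanged).

Why it is needed.  At a minimal level `N` (helper8058 `Stmt_NoNewOnly`) every odd prime of `N` is
hard, so there are `j ≥ 1` hard primes `q_i`, not one.  The count of #3710 is then
"`r - 3 j` generators of the scalar-at-all-hard-primes ring against `dim T_∞ = r + 1`", and the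
maximal ideal of the patched ring is generated by the entries of ALL pairs `(N_i, Γ_i)`, a
uniformiser and `r - 3 j` further elements.  The single-pair lemma cannot be fed with that
(putting the other pairs among the `z`'s costs 8 per prime instead of 3).

Here `ι` indexes the hard primes, `Nm i = ρ(τ_i) - 1`, `Gm i = ρ(Φ_i) - β_i`, and
`ImageIncl P (Gm i) (Nm i)` is (X) at `q_i`.

* `ringKrullDim_le_of_imageIncl_family`: core statement.  For each `i` a finite set `gens i` of
  at most `c` elements of the maximal ideal generating the entries of `Nm i` up to radical.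
  Then `dim T ≤ m + c * #ι`.
* `..._three`: `c = 3` from `Nm i 1 1 ∈ span {Nm i 0 0, Nm i 0 1, Nm i 1 0}`
  (helper5638 `entry11_mem_of_trace` / `entry11_mem_of_det`).
* `..._two_of_sq_zero`: `c = 2` from `Nm i * Nm i = 0` (the frozen S34 shape: unipotent inertia).
* `..._two_of_trace_det`: `c = 2` from `tr (Nm i) = 0` and `det (1 + Nm i) = 1`.
* `..._sq_three`: squared sign-free form (`Phi i * Phi i - β i * β i`), `c = 3`.
* `pivot_endgame_family`, `pivot_endgame_family_mvPowerSeries`: contradiction with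
  `dim S ≥ r + 1` when `m + c * #ι ≤ r`.
-/
import Mathlib
import Fermat.Agent.S43.helper5638_Pivot

set_option autoImplicit false

namespace Fermat.Agent.S43.helper6757

open IsLocalRing
open Fermat.Agent.S43.helper5638

section Family

variable {T : Type*} [CommRing T] {P : Type*} [AddCommGroup P] [Module T P]

/-- Family form of the dimension bound.  `ι` indexes the hard primes.  For every `i`, (X) holds
for the pair `(Gm i, Nm i)`, and the entries of `Nm i` lie in the radical of the ideal generated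
by a finite set `gens i` of at most `c` elements of the maximal ideal.  If `lam` lies in the
radical of the ideal of all entries of the `Gm i`, and the maximal ideal is generated by the
entries of all `Nm i`, `Gm i`, by `lam` and by `m` further elements, then
`dim T ≤ m + c * #ι`. -/
theorem ringKrullDim_le_of_imageIncl_family [IsNoetherianRing T] [IsLocalRing T]
    [Module.Finite T P] (hfaith : ∀ t : T, (∀ x : P, t • x = 0) → t = 0)
    {ι : Type*} [Fintype ι] (Gm Nm : ι → Matrix (Fin 2) (Fin 2) T)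
    (hX : ∀ i, ImageIncl P (Gm i) (Nm i))
    (c : ℕ) (gens : ι → Finset T) (hcard : ∀ i, (gens i).card ≤ c)
    (hgens_mem : ∀ i, ∀ x ∈ gens i, x ∈ maximalIdeal T)
    (hgens : ∀ i, entryIdeal (Nm i) ≤ (Ideal.span (gens i : Set T)).radical)
    (lam : T) (hlam : lam ∈ (⨆ i, entryIdeal (Gm i)).radical)
    {m : ℕ} (z : Fin m → T) (hz : ∀ k, z k ∈ maximalIdeal T)
    (hgen : maximalIdeal T ≤
      (⨆ i, entryIdeal (Nm i) ⊔ entryIdeal (Gm i)) ⊔ Ideal.span {lam} ⊔
        Ideal.span (Set.range z)) :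
    ringKrullDim T ≤ ((m + c * Fintype.card ι : ℕ) : WithBot ℕ∞) := by
  classical
  set s : Finset T := (Finset.univ.biUnion gens) ∪ Finset.univ.image z with hs
  have hscard : s.card ≤ m + c * Fintype.card ι := by
    refine (Finset.card_union_le _ _).trans ?_
    have h1 : (Finset.univ.biUnion gens).card ≤ c * Fintype.card ι := by
      refine Finset.card_biUnion_le.trans ?_
      calc ∑ i : ι, (gens i).card ≤ ∑ _i : ι, c := Finset.sum_le_sum fun i _ => hcard i
        _ = c * Fintype.card ι := by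
          rw [Finset.sum_const, Finset.card_univ, smul_eq_mul, mul_comm]
    have h2 : (Finset.univ.image z).card ≤ m := by
      simpa using Finset.card_image_le (s := (Finset.univ : Finset (Fin m))) (f := z)
    omega
  have hgens_sub : ∀ i, (gens i : Set T) ⊆ (s : Set T) := by
    intro i x hx
    have hx' : x ∈ gens i := hx
    have : x ∈ s := by
      rw [hs]
      exact Finset.mem_union_left _ (Finset.mem_biUnion.mpr ⟨i, Finset.mem_univ i, hx'⟩)
    exact this
  have hz_sub : Set.range z ⊆ (s : Set T) := by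
    rintro _ ⟨k, rfl⟩
    have : z k ∈ s := by
      rw [hs]
      exact Finset.mem_union_right _ (Finset.mem_image.mpr ⟨k, Finset.mem_univ k, rfl⟩)
    exact this
  have hsle : Ideal.span (s : Set T) ≤ maximalIdeal T := by
    refine Ideal.span_le.mpr ?_
    intro x hx
    have hx' : x ∈ s := hx
    rw [hs] at hx'
    rcases Finset.mem_union.mp hx' with h | h
    · obtain ⟨i, -, hi⟩ := Finset.mem_biUnion.mp h
      exact hgens_mem i x hi
    · obtain ⟨k, -, rfl⟩ := Finset.mem_image.mp h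
      exact hz k
  have hmin : maximalIdeal T ∈ (Ideal.span (s : Set T)).minimalPrimes := by
    refine ⟨⟨inferInstance, hsle⟩, ?_⟩
    rintro q ⟨hq, hsq⟩ -
    have hNq : ∀ i, entryIdeal (Nm i) ≤ q := fun i =>
      (hgens i).trans ((Ideal.IsPrime.radical_le_iff hq).mpr
        ((Ideal.span_mono (hgens_sub i)).trans hsq))
    have hGq : ∀ i, entryIdeal (Gm i) ≤ q := by
      intro i
      refine Ideal.span_le.mpr ?_
      rintro _ ⟨ij, rfl⟩
      exact (Ideal.IsPrime.radical_le_iff hq).mpr (hNq i)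
        (entry_mem_radical hfaith (hX i) ij.1 ij.2)
    have hlamq : Ideal.span {lam} ≤ q :=
      (Ideal.span_singleton_le_iff_mem (I := q)).mpr
        ((Ideal.IsPrime.radical_le_iff hq).mpr (iSup_le hGq) hlam)
    have hzq : Ideal.span (Set.range z) ≤ q := (Ideal.span_mono hz_sub).trans hsq
    exact hgen.trans
      (sup_le (sup_le (iSup_le fun i => sup_le (hNq i) (hGq i)) hlamq) hzq)
  have hheight : (maximalIdeal T).height ≤ s.card :=
    Ideal.height_le_card_of_mem_minimalPrimes_span_finset hmin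
  rw [← IsLocalRing.maximalIdeal_height_eq_ringKrullDim]
  exact WithBot.coe_le_coe.mpr (hheight.trans (by exact_mod_cast hscard))

/-- A power of `lam` in the ideal generated by the trace of one `Gm i₀` puts `lam` in the radical
of the ideal of all entries of the `Gm i`. -/
theorem mem_radical_iSup_of_pow_mem_trace {ι : Type*} (Gm : ι → Matrix (Fin 2) (Fin 2) T)
    (lam : T) (i₀ : ι) (hlam : ∃ k : ℕ, lam ^ k ∈ Ideal.span {Gm i₀ 0 0 + Gm i₀ 1 1}) :
    lam ∈ (⨆ i, entryIdeal (Gm i)).radical := by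
  obtain ⟨k, hk⟩ := hlam
  refine ⟨k, ?_⟩
  have h1 : Ideal.span {Gm i₀ 0 0 + Gm i₀ 1 1} ≤ entryIdeal (Gm i₀) :=
    Ideal.span_le.mpr (Set.singleton_subset_iff.mpr
      ((entryIdeal (Gm i₀)).add_mem (entry_mem_entryIdeal (Gm i₀) 0 0)
        (entry_mem_entryIdeal (Gm i₀) 1 1)))
  exact (le_iSup (fun i => entryIdeal (Gm i)) i₀) (h1 hk)

/-- Three generators per hard prime (`tr (Nm i) = 0`, or `det (1 + Nm i) = 1`, through
helper5638 `entry11_mem_of_trace` / `entry11_mem_of_det`): `dim T ≤ m + 3 * #ι`. -/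
theorem ringKrullDim_le_of_imageIncl_family_three [IsNoetherianRing T] [IsLocalRing T]
    [Module.Finite T P] (hfaith : ∀ t : T, (∀ x : P, t • x = 0) → t = 0)
    {ι : Type*} [Fintype ι] (Gm Nm : ι → Matrix (Fin 2) (Fin 2) T)
    (hN : ∀ i a b, Nm i a b ∈ maximalIdeal T)
    (h11 : ∀ i, Nm i 1 1 ∈ Ideal.span ({Nm i 0 0, Nm i 0 1, Nm i 1 0} : Set T))
    (hX : ∀ i, ImageIncl P (Gm i) (Nm i))
    (lam : T) (hlam : lam ∈ (⨆ i, entryIdeal (Gm i)).radical)
    {m : ℕ} (z : Fin m → T) (hz : ∀ k, z k ∈ maximalIdeal T)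
    (hgen : maximalIdeal T ≤
      (⨆ i, entryIdeal (Nm i) ⊔ entryIdeal (Gm i)) ⊔ Ideal.span {lam} ⊔
        Ideal.span (Set.range z)) :
    ringKrullDim T ≤ ((m + 3 * Fintype.card ι : ℕ) : WithBot ℕ∞) := by
  classical
  refine ringKrullDim_le_of_imageIncl_family hfaith Gm Nm hX 3
    (fun i => {Nm i 0 0, Nm i 0 1, Nm i 1 0}) (fun i => Finset.card_le_three) ?_ ?_
    lam hlam z hz hgen
  · intro i x hx
    simp only [Finset.mem_insert, Finset.mem_singleton] at hx
    rcases hx with rfl | rfl | rfl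
    · exact hN i 0 0
    · exact hN i 0 1
    · exact hN i 1 0
  · intro i
    refine le_trans ?_ Ideal.le_radical
    refine entryIdeal_le_iff.mpr fun a b => ?_
    have h00 : Nm i 0 0 ∈ Ideal.span
        (((({Nm i 0 0, Nm i 0 1, Nm i 1 0} : Finset T)) : Set T)) :=
      Ideal.subset_span (by simp)
    have h01 : Nm i 0 1 ∈ Ideal.span
        (((({Nm i 0 0, Nm i 0 1, Nm i 1 0} : Finset T)) : Set T)) :=
      Ideal.subset_span (by simp)
    have h10 : Nm i 1 0 ∈ Ideal.span
        (((({Nm i 0 0, Nm i 0 1, Nm i 1 0} : Finset T)) : Set T)) :=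
      Ideal.subset_span (by simp)
    have h11' : Nm i 1 1 ∈ Ideal.span
        (((({Nm i 0 0, Nm i 0 1, Nm i 1 0} : Finset T)) : Set T)) := by
      have := h11 i
      simpa using this
    fin_cases a <;> fin_cases b <;> assumption

/-- Both diagonal entries of a `2 × 2` matrix with `Nm 0 0 ^ 2` and `Nm 1 1 ^ 2` in the ideal of
the off-diagonal entries lie in the radical of that ideal. -/
theorem entryIdeal_le_radical_offDiag {Nm : Matrix (Fin 2) (Fin 2) T}
    (h00 : Nm 0 0 * Nm 0 0 ∈ Ideal.span ({Nm 0 1, Nm 1 0} : Set T))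
    (h11 : Nm 1 1 * Nm 1 1 ∈ Ideal.span ({Nm 0 1, Nm 1 0} : Set T)) :
    entryIdeal Nm ≤ (Ideal.span ({Nm 0 1, Nm 1 0} : Set T)).radical := by
  refine entryIdeal_le_iff.mpr fun a b => ?_
  have h01 : Nm 0 1 ∈ (Ideal.span ({Nm 0 1, Nm 1 0} : Set T)).radical :=
    Ideal.le_radical (Ideal.subset_span (by simp))
  have h10 : Nm 1 0 ∈ (Ideal.span ({Nm 0 1, Nm 1 0} : Set T)).radical :=
    Ideal.le_radical (Ideal.subset_span (by simp))
  have h00' : Nm 0 0 ∈ (Ideal.span ({Nm 0 1, Nm 1 0} : Set T)).radical :=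
    ⟨2, by rw [pow_two]; exact h00⟩
  have h11' : Nm 1 1 ∈ (Ideal.span ({Nm 0 1, Nm 1 0} : Set T)).radical :=
    ⟨2, by rw [pow_two]; exact h11⟩
  fin_cases a <;> fin_cases b <;> assumption

/-- `Nm * Nm = 0` (unipotent inertia, the frozen S34 shape) makes the ideal of entries of `Nm`
two-generated up to radical. -/
theorem entryIdeal_le_radical_of_sq_zero {Nm : Matrix (Fin 2) (Fin 2) T} (hsq : Nm * Nm = 0) :
    entryIdeal Nm ≤ (Ideal.span ({Nm 0 1, Nm 1 0} : Set T)).radical := by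
  have e00 : Nm 0 0 * Nm 0 0 + Nm 0 1 * Nm 1 0 = 0 := by
    have := congrFun (congrFun hsq 0) 0
    simpa [Matrix.mul_apply, Fin.sum_univ_two] using this
  have e11 : Nm 1 0 * Nm 0 1 + Nm 1 1 * Nm 1 1 = 0 := by
    have := congrFun (congrFun hsq 1) 1
    simpa [Matrix.mul_apply, Fin.sum_univ_two] using this
  refine entryIdeal_le_radical_offDiag ?_ ?_
  · have : Nm 0 0 * Nm 0 0 = -(Nm 0 1 * Nm 1 0) := by linear_combination e00
    rw [this]
    exact neg_mem (Ideal.mul_mem_right _ _ (Ideal.subset_span (by simp)))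
  · have : Nm 1 1 * Nm 1 1 = -(Nm 1 0 * Nm 0 1) := by linear_combination e11
    rw [this]
    exact neg_mem (Ideal.mul_mem_right _ _ (Ideal.subset_span (by simp)))

/-- `tr Nm = 0` and `det (1 + Nm) = 1` make the ideal of entries of `Nm` two-generated up to
radical. -/
theorem entryIdeal_le_radical_of_trace_det {Nm : Matrix (Fin 2) (Fin 2) T}
    (htr : Nm 0 0 + Nm 1 1 = 0) (hdet : (1 + Nm).det = 1) :
    entryIdeal Nm ≤ (Ideal.span ({Nm 0 1, Nm 1 0} : Set T)).radical := by
  have hdet' : (1 + Nm 0 0) * (1 + Nm 1 1) - Nm 0 1 * Nm 1 0 = 1 := by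
    have := hdet
    rw [Matrix.det_fin_two] at this
    simpa using this
  have hd : Nm 1 1 = -Nm 0 0 := by linear_combination htr
  refine entryIdeal_le_radical_offDiag ?_ ?_
  · have : Nm 0 0 * Nm 0 0 = -(Nm 0 1 * Nm 1 0) := by
      rw [hd] at hdet'
      linear_combination -hdet'
    rw [this]
    exact neg_mem (Ideal.mul_mem_right _ _ (Ideal.subset_span (by simp)))
  · have : Nm 1 1 * Nm 1 1 = -(Nm 0 1 * Nm 1 0) := by
      rw [hd] at hdet' ⊢
      linear_combination -hdet'
    rw [this]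
    exact neg_mem (Ideal.mul_mem_right _ _ (Ideal.subset_span (by simp)))

/-- `tr Nm = 0` and `det Nm = 0` (in the form `Nm 0 0 * Nm 1 1 = Nm 0 1 * Nm 1 0`) make the ideal
of entries of `Nm` two-generated up to radical. -/
theorem entryIdeal_le_radical_of_trace_det_zero {Nm : Matrix (Fin 2) (Fin 2) T}
    (htr : Nm 0 0 + Nm 1 1 = 0) (hdet : Nm 0 0 * Nm 1 1 = Nm 0 1 * Nm 1 0) :
    entryIdeal Nm ≤ (Ideal.span ({Nm 0 1, Nm 1 0} : Set T)).radical := by
  have hd : Nm 1 1 = -Nm 0 0 := by linear_combination htr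
  refine entryIdeal_le_radical_offDiag ?_ ?_
  · have : Nm 0 0 * Nm 0 0 = -(Nm 0 1 * Nm 1 0) := by
      rw [hd] at hdet
      linear_combination -hdet
    rw [this]
    exact neg_mem (Ideal.mul_mem_right _ _ (Ideal.subset_span (by simp)))
  · have : Nm 1 1 * Nm 1 1 = -(Nm 0 1 * Nm 1 0) := by
      rw [hd] at hdet ⊢
      linear_combination -hdet
    rw [this]
    exact neg_mem (Ideal.mul_mem_right _ _ (Ideal.subset_span (by simp)))

/-- Two generators per hard prime, from any proof that the entries of `Nm i` lie in the radical of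
the ideal of its off-diagonal entries: `dim T ≤ m + 2 * #ι`. -/
theorem ringKrullDim_le_of_imageIncl_family_two [IsNoetherianRing T] [IsLocalRing T]
    [Module.Finite T P] (hfaith : ∀ t : T, (∀ x : P, t • x = 0) → t = 0)
    {ι : Type*} [Fintype ι] (Gm Nm : ι → Matrix (Fin 2) (Fin 2) T)
    (hN : ∀ i a b, Nm i a b ∈ maximalIdeal T)
    (hrad : ∀ i, entryIdeal (Nm i) ≤ (Ideal.span ({Nm i 0 1, Nm i 1 0} : Set T)).radical)
    (hX : ∀ i, ImageIncl P (Gm i) (Nm i))
    (lam : T) (hlam : lam ∈ (⨆ i, entryIdeal (Gm i)).radical)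
    {m : ℕ} (z : Fin m → T) (hz : ∀ k, z k ∈ maximalIdeal T)
    (hgen : maximalIdeal T ≤
      (⨆ i, entryIdeal (Nm i) ⊔ entryIdeal (Gm i)) ⊔ Ideal.span {lam} ⊔
        Ideal.span (Set.range z)) :
    ringKrullDim T ≤ ((m + 2 * Fintype.card ι : ℕ) : WithBot ℕ∞) := by
  classical
  refine ringKrullDim_le_of_imageIncl_family hfaith Gm Nm hX 2
    (fun i => {Nm i 0 1, Nm i 1 0}) (fun i => Finset.card_le_two) ?_ ?_
    lam hlam z hz hgen
  · intro i x hx
    simp only [Finset.mem_insert, Finset.mem_singleton] at hx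
    rcases hx with rfl | rfl
    · exact hN i 0 1
    · exact hN i 1 0
  · intro i
    have := hrad i
    simpa using this

/-- Two generators per hard prime from unipotent inertia `Nm i * Nm i = 0`. -/
theorem ringKrullDim_le_of_imageIncl_family_two_of_sq_zero [IsNoetherianRing T] [IsLocalRing T]
    [Module.Finite T P] (hfaith : ∀ t : T, (∀ x : P, t • x = 0) → t = 0)
    {ι : Type*} [Fintype ι] (Gm Nm : ι → Matrix (Fin 2) (Fin 2) T)
    (hN : ∀ i a b, Nm i a b ∈ maximalIdeal T)
    (hsq : ∀ i, Nm i * Nm i = 0)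
    (hX : ∀ i, ImageIncl P (Gm i) (Nm i))
    (lam : T) (hlam : lam ∈ (⨆ i, entryIdeal (Gm i)).radical)
    {m : ℕ} (z : Fin m → T) (hz : ∀ k, z k ∈ maximalIdeal T)
    (hgen : maximalIdeal T ≤
      (⨆ i, entryIdeal (Nm i) ⊔ entryIdeal (Gm i)) ⊔ Ideal.span {lam} ⊔
        Ideal.span (Set.range z)) :
    ringKrullDim T ≤ ((m + 2 * Fintype.card ι : ℕ) : WithBot ℕ∞) :=
  ringKrullDim_le_of_imageIncl_family_two hfaith Gm Nm hN
    (fun i => entryIdeal_le_radical_of_sq_zero (hsq i)) hX lam hlam z hz hgen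

/-- Two generators per hard prime from `tr (Nm i) = 0` and `det (1 + Nm i) = 1`. -/
theorem ringKrullDim_le_of_imageIncl_family_two_of_trace_det [IsNoetherianRing T]
    [IsLocalRing T] [Module.Finite T P] (hfaith : ∀ t : T, (∀ x : P, t • x = 0) → t = 0)
    {ι : Type*} [Fintype ι] (Gm Nm : ι → Matrix (Fin 2) (Fin 2) T)
    (hN : ∀ i a b, Nm i a b ∈ maximalIdeal T)
    (htr : ∀ i, Nm i 0 0 + Nm i 1 1 = 0) (hdet : ∀ i, (1 + Nm i).det = 1)
    (hX : ∀ i, ImageIncl P (Gm i) (Nm i))
    (lam : T) (hlam : lam ∈ (⨆ i, entryIdeal (Gm i)).radical)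
    {m : ℕ} (z : Fin m → T) (hz : ∀ k, z k ∈ maximalIdeal T)
    (hgen : maximalIdeal T ≤
      (⨆ i, entryIdeal (Nm i) ⊔ entryIdeal (Gm i)) ⊔ Ideal.span {lam} ⊔
        Ideal.span (Set.range z)) :
    ringKrullDim T ≤ ((m + 2 * Fintype.card ι : ℕ) : WithBot ℕ∞) :=
  ringKrullDim_le_of_imageIncl_family_two hfaith Gm Nm hN
    (fun i => entryIdeal_le_radical_of_trace_det (htr i) (hdet i)) hX lam hlam z hz hgen

/-- `Phi - β` has its entries in the ideal of entries of `Phi * Phi - β * β` when `2 β` is a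
unit and `Phi ≡ β` residually (hard case). -/
theorem entryIdeal_sub_scalar_le_sq [IsLocalRing T] {Phi : Matrix (Fin 2) (Fin 2) T} (β : T)
    (hβ : IsUnit (2 * β))
    (hPhi : ∀ a b, (Phi - Matrix.scalar (Fin 2) β) a b ∈ maximalIdeal T) :
    entryIdeal (Phi - Matrix.scalar (Fin 2) β) ≤
      entryIdeal (Phi * Phi - Matrix.scalar (Fin 2) (β * β)) := by
  set G : Matrix (Fin 2) (Fin 2) T := Phi - Matrix.scalar (Fin 2) β with hG
  set U : Matrix (Fin 2) (Fin 2) T := Phi + Matrix.scalar (Fin 2) β with hU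
  have hmul : Phi * Phi - Matrix.scalar (Fin 2) (β * β) = G * U := by
    ext a b
    fin_cases a <;> fin_cases b <;>
      simp [hG, hU, Matrix.mul_apply, Fin.sum_univ_two, Matrix.sub_apply, Matrix.add_apply] <;>
      ring
  have hdetU : IsUnit U.det := by
    by_contra hnu
    have h1 : U.det ∈ maximalIdeal T := (IsLocalRing.mem_maximalIdeal _).mpr hnu
    have hg00 := hPhi 0 0
    have hg10 := hPhi 1 0
    have hg11 := hPhi 1 1
    have e : (2 * β) * (2 * β) =
        U.det - (2 * β * (G 0 0 + G 1 1) + G 0 0 * G 1 1 - G 0 1 * G 1 0) := by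
      rw [Matrix.det_fin_two]
      simp [hG, hU, Matrix.sub_apply, Matrix.add_apply]
      ring
    have h2 : (2 * β) * (2 * β) ∈ maximalIdeal T := by
      rw [e]
      refine Ideal.sub_mem _ h1 (Ideal.sub_mem _ (Ideal.add_mem _ ?_ ?_) ?_)
      · exact Ideal.mul_mem_left _ _ (Ideal.add_mem _ hg00 hg11)
      · exact Ideal.mul_mem_left _ _ hg11
      · exact Ideal.mul_mem_left _ _ hg10
    exact (IsLocalRing.mem_maximalIdeal _).mp h2 (hβ.mul hβ)
  have hUV : U * U⁻¹ = 1 := Matrix.mul_nonsing_inv U hdetU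
  exact entryIdeal_le_of_mul_eq hmul hUV

/-- Squared (sign-free) family form, general generator count: for every `i`, (X) is only assumed
for `Phi i * Phi i - β i * β i` (the S35 shape "σ² = q²"), with `2 β i` a unit and
`Phi i ≡ β i` residually. -/
theorem ringKrullDim_le_of_imageIncl_family_sq [IsNoetherianRing T] [IsLocalRing T]
    [Module.Finite T P] (hfaith : ∀ t : T, (∀ x : P, t • x = 0) → t = 0)
    {ι : Type*} [Fintype ι] (Phi Nm : ι → Matrix (Fin 2) (Fin 2) T) (β : ι → T)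
    (hβ : ∀ i, IsUnit (2 * β i))
    (hPhi : ∀ i a b, (Phi i - Matrix.scalar (Fin 2) (β i)) a b ∈ maximalIdeal T)
    (hX : ∀ i, ImageIncl P (Phi i * Phi i - Matrix.scalar (Fin 2) (β i * β i)) (Nm i))
    (c : ℕ) (gens : ι → Finset T) (hcard : ∀ i, (gens i).card ≤ c)
    (hgens_mem : ∀ i, ∀ x ∈ gens i, x ∈ maximalIdeal T)
    (hgens : ∀ i, entryIdeal (Nm i) ≤ (Ideal.span (gens i : Set T)).radical)
    (lam : T)
    (hlam : lam ∈ (⨆ i, entryIdeal (Phi i * Phi i - Matrix.scalar (Fin 2) (β i * β i))).radical)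
    {m : ℕ} (z : Fin m → T) (hz : ∀ k, z k ∈ maximalIdeal T)
    (hgen : maximalIdeal T ≤
      (⨆ i, entryIdeal (Nm i) ⊔ entryIdeal (Phi i - Matrix.scalar (Fin 2) (β i))) ⊔
        Ideal.span {lam} ⊔ Ideal.span (Set.range z)) :
    ringKrullDim T ≤ ((m + c * Fintype.card ι : ℕ) : WithBot ℕ∞) := by
  refine ringKrullDim_le_of_imageIncl_family hfaith
    (fun i => Phi i * Phi i - Matrix.scalar (Fin 2) (β i * β i)) Nm hX c gens hcard hgens_mem
    hgens lam hlam z hz (hgen.trans ?_)
  refine sup_le_sup_right (sup_le_sup_right (iSup_mono fun i => sup_le_sup_left ?_ _) _) _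
  exact entryIdeal_sub_scalar_le_sq (β i) (hβ i) (hPhi i)

/-- Squared (sign-free) family form with three generators per hard prime. -/
theorem ringKrullDim_le_of_imageIncl_family_sq_three [IsNoetherianRing T] [IsLocalRing T]
    [Module.Finite T P] (hfaith : ∀ t : T, (∀ x : P, t • x = 0) → t = 0)
    {ι : Type*} [Fintype ι] (Phi Nm : ι → Matrix (Fin 2) (Fin 2) T) (β : ι → T)
    (hN : ∀ i a b, Nm i a b ∈ maximalIdeal T)
    (h11 : ∀ i, Nm i 1 1 ∈ Ideal.span ({Nm i 0 0, Nm i 0 1, Nm i 1 0} : Set T))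
    (hβ : ∀ i, IsUnit (2 * β i))
    (hPhi : ∀ i a b, (Phi i - Matrix.scalar (Fin 2) (β i)) a b ∈ maximalIdeal T)
    (hX : ∀ i, ImageIncl P (Phi i * Phi i - Matrix.scalar (Fin 2) (β i * β i)) (Nm i))
    (lam : T)
    (hlam : lam ∈ (⨆ i, entryIdeal (Phi i * Phi i - Matrix.scalar (Fin 2) (β i * β i))).radical)
    {m : ℕ} (z : Fin m → T) (hz : ∀ k, z k ∈ maximalIdeal T)
    (hgen : maximalIdeal T ≤
      (⨆ i, entryIdeal (Nm i) ⊔ entryIdeal (Phi i - Matrix.scalar (Fin 2) (β i))) ⊔
        Ideal.span {lam} ⊔ Ideal.span (Set.range z)) :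
    ringKrullDim T ≤ ((m + 3 * Fintype.card ι : ℕ) : WithBot ℕ∞) := by
  classical
  refine ringKrullDim_le_of_imageIncl_family_sq hfaith Phi Nm β hβ hPhi hX 3
    (fun i => {Nm i 0 0, Nm i 0 1, Nm i 1 0}) (fun i => Finset.card_le_three) ?_ ?_
    lam hlam z hz hgen
  · intro i x hx
    simp only [Finset.mem_insert, Finset.mem_singleton] at hx
    rcases hx with rfl | rfl | rfl
    · exact hN i 0 0
    · exact hN i 0 1
    · exact hN i 1 0
  · intro i
    refine le_trans ?_ Ideal.le_radical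
    refine entryIdeal_le_iff.mpr fun a b => ?_
    have h00 : Nm i 0 0 ∈ Ideal.span
        (((({Nm i 0 0, Nm i 0 1, Nm i 1 0} : Finset T)) : Set T)) :=
      Ideal.subset_span (by simp)
    have h01 : Nm i 0 1 ∈ Ideal.span
        (((({Nm i 0 0, Nm i 0 1, Nm i 1 0} : Finset T)) : Set T)) :=
      Ideal.subset_span (by simp)
    have h10 : Nm i 1 0 ∈ Ideal.span
        (((({Nm i 0 0, Nm i 0 1, Nm i 1 0} : Finset T)) : Set T)) :=
      Ideal.subset_span (by simp)
    have h11' : Nm i 1 1 ∈ Ideal.span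
        (((({Nm i 0 0, Nm i 0 1, Nm i 1 0} : Finset T)) : Set T)) := by
      have := h11 i
      simpa using this
    fin_cases a <;> fin_cases b <;> assumption

/-- Squared (sign-free) family form with two generators per hard prime, from unipotent inertia
`Nm i * Nm i = 0`. -/
theorem ringKrullDim_le_of_imageIncl_family_sq_two_of_sq_zero [IsNoetherianRing T]
    [IsLocalRing T] [Module.Finite T P] (hfaith : ∀ t : T, (∀ x : P, t • x = 0) → t = 0)
    {ι : Type*} [Fintype ι] (Phi Nm : ι → Matrix (Fin 2) (Fin 2) T) (β : ι → T)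
    (hN : ∀ i a b, Nm i a b ∈ maximalIdeal T)
    (hsq : ∀ i, Nm i * Nm i = 0)
    (hβ : ∀ i, IsUnit (2 * β i))
    (hPhi : ∀ i a b, (Phi i - Matrix.scalar (Fin 2) (β i)) a b ∈ maximalIdeal T)
    (hX : ∀ i, ImageIncl P (Phi i * Phi i - Matrix.scalar (Fin 2) (β i * β i)) (Nm i))
    (lam : T)
    (hlam : lam ∈ (⨆ i, entryIdeal (Phi i * Phi i - Matrix.scalar (Fin 2) (β i * β i))).radical)
    {m : ℕ} (z : Fin m → T) (hz : ∀ k, z k ∈ maximalIdeal T)
    (hgen : maximalIdeal T ≤
      (⨆ i, entryIdeal (Nm i) ⊔ entryIdeal (Phi i - Matrix.scalar (Fin 2) (β i))) ⊔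
        Ideal.span {lam} ⊔ Ideal.span (Set.range z)) :
    ringKrullDim T ≤ ((m + 2 * Fintype.card ι : ℕ) : WithBot ℕ∞) := by
  classical
  refine ringKrullDim_le_of_imageIncl_family_sq hfaith Phi Nm β hβ hPhi hX 2
    (fun i => {Nm i 0 1, Nm i 1 0}) (fun i => Finset.card_le_two) ?_ ?_
    lam hlam z hz hgen
  · intro i x hx
    simp only [Finset.mem_insert, Finset.mem_singleton] at hx
    rcases hx with rfl | rfl
    · exact hN i 0 1
    · exact hN i 1 0
  · intro i
    have := entryIdeal_le_radical_of_sq_zero (hsq i)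
    simpa using this

end Family

section Endgame

variable {S T : Type*} [CommRing S] [CommRing T] [Algebra S T]

/-- Family form of the abstract endgame of findings #3710: `T` Noetherian local, integral over
and containing `S` with `dim S ≥ r + 1`, `P` a finite faithful `T`-module, (X) for every pair
`(Gm i, Nm i)`, at most `c` generators up to radical for each `Nm i`, and the maximal ideal of
`T` generated by the entries of all `Nm i`, `Gm i`, by `lam` and by `m` further elements with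
`m + c * #ι ≤ r`: contradiction.  (For `j` hard primes: `c = 3`, `m = r - 3 j`.) -/
theorem pivot_endgame_family [Algebra.IsIntegral S T]
    (hinj : Function.Injective (algebraMap S T))
    [IsNoetherianRing T] [IsLocalRing T] {P : Type*} [AddCommGroup P] [Module T P]
    [Module.Finite T P] (hfaith : ∀ t : T, (∀ x : P, t • x = 0) → t = 0)
    {ι : Type*} [Fintype ι] (Gm Nm : ι → Matrix (Fin 2) (Fin 2) T)
    (hX : ∀ i, ImageIncl P (Gm i) (Nm i))
    (c : ℕ) (gens : ι → Finset T) (hcard : ∀ i, (gens i).card ≤ c)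
    (hgens_mem : ∀ i, ∀ x ∈ gens i, x ∈ maximalIdeal T)
    (hgens : ∀ i, entryIdeal (Nm i) ≤ (Ideal.span (gens i : Set T)).radical)
    (lam : T) (hlam : lam ∈ (⨆ i, entryIdeal (Gm i)).radical)
    {m r : ℕ} (z : Fin m → T) (hz : ∀ k, z k ∈ maximalIdeal T)
    (hgen : maximalIdeal T ≤
      (⨆ i, entryIdeal (Nm i) ⊔ entryIdeal (Gm i)) ⊔ Ideal.span {lam} ⊔
        Ideal.span (Set.range z))
    (hmr : m + c * Fintype.card ι ≤ r)
    (hS : ((r + 1 : ℕ) : WithBot ℕ∞) ≤ ringKrullDim S) : False := by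
  have h1 : ringKrullDim T ≤ ((m + c * Fintype.card ι : ℕ) : WithBot ℕ∞) :=
    ringKrullDim_le_of_imageIncl_family hfaith Gm Nm hX c gens hcard hgens_mem hgens lam hlam
      z hz hgen
  have h2 : ((r + 1 : ℕ) : WithBot ℕ∞) ≤ ((m + c * Fintype.card ι : ℕ) : WithBot ℕ∞) :=
    (hS.trans (ringKrullDim_le_of_isIntegral_of_injective hinj)).trans h1
  have h3 : r + 1 ≤ m + c * Fintype.card ι := by exact_mod_cast h2
  omega

/-- The family endgame with three generators per hard prime, in the shape of helper5638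
`pivot_endgame` (same hypotheses, indexed by `ι`; `lam ^ k ∈ (tr (Gm i₀))` for one `i₀`). -/
theorem pivot_endgame_family_three [Algebra.IsIntegral S T]
    (hinj : Function.Injective (algebraMap S T))
    [IsNoetherianRing T] [IsLocalRing T] {P : Type*} [AddCommGroup P] [Module T P]
    [Module.Finite T P] (hfaith : ∀ t : T, (∀ x : P, t • x = 0) → t = 0)
    {ι : Type*} [Fintype ι] (Gm Nm : ι → Matrix (Fin 2) (Fin 2) T)
    (hN : ∀ i a b, Nm i a b ∈ maximalIdeal T)
    (h11 : ∀ i, Nm i 1 1 ∈ Ideal.span ({Nm i 0 0, Nm i 0 1, Nm i 1 0} : Set T))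
    (hX : ∀ i, ImageIncl P (Gm i) (Nm i))
    (lam : T) (i₀ : ι) (hlam : ∃ k : ℕ, lam ^ k ∈ Ideal.span {Gm i₀ 0 0 + Gm i₀ 1 1})
    {m r : ℕ} (z : Fin m → T) (hz : ∀ k, z k ∈ maximalIdeal T)
    (hgen : maximalIdeal T ≤
      (⨆ i, entryIdeal (Nm i) ⊔ entryIdeal (Gm i)) ⊔ Ideal.span {lam} ⊔
        Ideal.span (Set.range z))
    (hmr : m + 3 * Fintype.card ι ≤ r)
    (hS : ((r + 1 : ℕ) : WithBot ℕ∞) ≤ ringKrullDim S) : False := by
  have h1 : ringKrullDim T ≤ ((m + 3 * Fintype.card ι : ℕ) : WithBot ℕ∞) :=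
    ringKrullDim_le_of_imageIncl_family_three hfaith Gm Nm hN h11 hX lam
      (mem_radical_iSup_of_pow_mem_trace Gm lam i₀ hlam) z hz hgen
  have h2 : ((r + 1 : ℕ) : WithBot ℕ∞) ≤ ((m + 3 * Fintype.card ι : ℕ) : WithBot ℕ∞) :=
    (hS.trans (ringKrullDim_le_of_isIntegral_of_injective hinj)).trans h1
  have h3 : r + 1 ≤ m + 3 * Fintype.card ι := by exact_mod_cast h2
  omega

end Endgame

section Assembled

/-- The family endgame over `S = O⟦s₁..s_r⟧` (`O` a domain that is not a field), three generators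
per hard prime: the multi-prime twin of helper5638 `pivot_endgame_mvPowerSeries`. -/
theorem pivot_endgame_family_mvPowerSeries (O : Type*) [CommRing O] [IsDomain O]
    (hO : ¬ IsField O) {r : ℕ} {T : Type*} [CommRing T] [Algebra (MvPowerSeries (Fin r) O) T]
    [Algebra.IsIntegral (MvPowerSeries (Fin r) O) T]
    (hinj : Function.Injective (algebraMap (MvPowerSeries (Fin r) O) T))
    [IsNoetherianRing T] [IsLocalRing T] {P : Type*} [AddCommGroup P] [Module T P]
    [Module.Finite T P] (hfaith : ∀ t : T, (∀ x : P, t • x = 0) → t = 0)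
    {ι : Type*} [Fintype ι] (Gm Nm : ι → Matrix (Fin 2) (Fin 2) T)
    (hN : ∀ i a b, Nm i a b ∈ maximalIdeal T)
    (h11 : ∀ i, Nm i 1 1 ∈ Ideal.span ({Nm i 0 0, Nm i 0 1, Nm i 1 0} : Set T))
    (hX : ∀ i, ImageIncl P (Gm i) (Nm i))
    (lam : T) (i₀ : ι) (hlam : ∃ k : ℕ, lam ^ k ∈ Ideal.span {Gm i₀ 0 0 + Gm i₀ 1 1})
    {m : ℕ} (z : Fin m → T) (hz : ∀ k, z k ∈ maximalIdeal T)
    (hgen : maximalIdeal T ≤
      (⨆ i, entryIdeal (Nm i) ⊔ entryIdeal (Gm i)) ⊔ Ideal.span {lam} ⊔
        Ideal.span (Set.range z))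
    (hmr : m + 3 * Fintype.card ι ≤ r) : False :=
  pivot_endgame_family_three hinj hfaith Gm Nm hN h11 hX lam i₀ hlam z hz hgen hmr
    (succ_le_ringKrullDim_mvPowerSeries O hO r)

/-- Same, with the general generator count `c` (e.g. `c = 2` from unipotent inertia). -/
theorem pivot_endgame_family_mvPowerSeries' (O : Type*) [CommRing O] [IsDomain O]
    (hO : ¬ IsField O) {r : ℕ} {T : Type*} [CommRing T] [Algebra (MvPowerSeries (Fin r) O) T]
    [Algebra.IsIntegral (MvPowerSeries (Fin r) O) T]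
    (hinj : Function.Injective (algebraMap (MvPowerSeries (Fin r) O) T))
    [IsNoetherianRing T] [IsLocalRing T] {P : Type*} [AddCommGroup P] [Module T P]
    [Module.Finite T P] (hfaith : ∀ t : T, (∀ x : P, t • x = 0) → t = 0)
    {ι : Type*} [Fintype ι] (Gm Nm : ι → Matrix (Fin 2) (Fin 2) T)
    (hX : ∀ i, ImageIncl P (Gm i) (Nm i))
    (c : ℕ) (gens : ι → Finset T) (hcard : ∀ i, (gens i).card ≤ c)
    (hgens_mem : ∀ i, ∀ x ∈ gens i, x ∈ maximalIdeal T)
    (hgens : ∀ i, entryIdeal (Nm i) ≤ (Ideal.span (gens i : Set T)).radical)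
    (lam : T) (hlam : lam ∈ (⨆ i, entryIdeal (Gm i)).radical)
    {m : ℕ} (z : Fin m → T) (hz : ∀ k, z k ∈ maximalIdeal T)
    (hgen : maximalIdeal T ≤
      (⨆ i, entryIdeal (Nm i) ⊔ entryIdeal (Gm i)) ⊔ Ideal.span {lam} ⊔
        Ideal.span (Set.range z))
    (hmr : m + c * Fintype.card ι ≤ r) : False :=
  pivot_endgame_family hinj hfaith Gm Nm hX c gens hcard hgens_mem hgens lam hlam z hz hgen hmr
    (succ_le_ringKrullDim_mvPowerSeries O hO r)

end Assembled

end Fermat.Agent.S43.helper6757
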