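/-
helper6757 — FAMILY FORM (several hard primes at once) of helper2336's patched pivot
(`Fermat.Agent.S43.helper2336.pivot_patch_false`, findings #4166): "finite-level Taylor–Wiles
data with `j` hard primes ⟹ False".

Closure: Mathlib + `helper2336_UltraPatch` + `helper2336_PatchPivot` + `helper5638_Pivot`
(all three imported UNCHANGED) + `helper6757_PivotFamily`.

`κ` is the (fixed, finite) set of hard primes; at level `n` the marked data are the matrices
`Nm n i = ρ_{Q_n}(τ_i) - 1` and `Gm n i = ρ_{Q_n}(Φ_i) - β_i` (or `Phi n i`, `β n i` in the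
squared sign-free form) for `i : κ`.  The generation hypothesis `hgen` is the Selmer count
"`R'_Q` (scalar at ALL hard primes) has `m` generators", with `m + c * #κ ≤ r`
(`c = 3`: `tr N = 0` / `det (1 + N) = 1`; `c = 2`: unipotent inertia `N * N = 0`).

* `PatchRing.maximalIdeal_le_family`: the generation hypothesis passes to the patched ring.
* `pivot_patch_false_family`        : signed (X), three generators per prime.
* `pivot_patch_false_family_two`    : signed (X), `Nm n i * Nm n i = 0`, two per prime.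
* `pivot_patch_false_family_two_of_trace_det` : signed (X), `tr = 0`, `det = 0`, two per prime.
* `pivot_patch_false_family_sq`     : squared sign-free (X), three per prime.
* `pivot_patch_false_family_sq_two` : squared sign-free (X), `Nm n i * Nm n i = 0`, two per prime.
-/
import Mathlib
import Fermat.Agent.S43.helper2336_PatchPivot
import Fermat.Agent.S43.helper6757_PivotFamily

set_option autoImplicit false

namespace Fermat.Agent.S43.helper6757

open Filter IsLocalRing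
open Fermat.Agent.S43.helper2336
open Fermat.Agent.S43.helper5638

universe u v w

section Limit

variable {S : Type u} [CommRing S] (U : Ultrafilter ℕ) (𝔫 : Ideal S)
variable (M : ℕ → Type v) [∀ n, AddCommGroup (M n)] [∀ n, Module S (M n)]
variable (T : ℕ → Type w) [∀ n, CommRing (T n)] [∀ n, Algebra S (T n)]
variable [∀ n, Module (T n) (M n)] [∀ n, IsScalarTower S (T n) (M n)]

/-- The matrix of classes is multiplicative. -/
theorem patchMatrix_mul (A B : ∀ n, Matrix (Fin 2) (Fin 2) (T n)) :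
    PatchRing.matrix U 𝔫 M T (fun n => A n * B n) =
      PatchRing.matrix U 𝔫 M T A * PatchRing.matrix U 𝔫 M T B := by
  ext i j
  fin_cases i <;> fin_cases j <;>
    simp [PatchRing.matrix, Matrix.mul_apply, Fin.sum_univ_two] <;> rfl

/-- `Nm n * Nm n = 0` (`U`-eventually) passes to the matrix of classes. -/
theorem patchMatrix_sq_zero (Nm : ∀ n, Matrix (Fin 2) (Fin 2) (T n))
    (h : ∀ᶠ n in (U : Filter ℕ), Nm n * Nm n = 0) :
    PatchRing.matrix U 𝔫 M T Nm * PatchRing.matrix U 𝔫 M T Nm = 0 := by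
  rw [← patchMatrix_mul]
  ext i j
  rw [PatchRing.matrix_apply, Matrix.zero_apply,
    ← map_zero (PatchRing.cls U 𝔫 M T)]
  refine PatchRing.cls_eq_cls_of_eventually_eq ?_
  filter_upwards [h] with n hn
  rw [hn]
  rfl

/-- Family form of `helper2336.PatchRing.maximalIdeal_le`: generation of the maximal ideals by
the entries of the matrices `A n i`, `B n i` (`i` in a fixed finite type `κ`), one element and
`m` further elements passes to the patched ring. -/
theorem PatchRing.maximalIdeal_le_family [∀ n, IsLocalRing (T n)]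
    [IsLocalRing (PatchRing U 𝔫 M T)] {κ : Type*} [Fintype κ]
    (A B : ∀ n, κ → Matrix (Fin 2) (Fin 2) (T n)) (lam : ∀ n, T n) {m : ℕ}
    (z : ∀ n, Fin m → T n)
    (hgen : ∀ᶠ n in (U : Filter ℕ), maximalIdeal (T n) ≤
      (⨆ i, entryIdeal (A n i) ⊔ entryIdeal (B n i)) ⊔ Ideal.span {lam n} ⊔
        Ideal.span (Set.range (z n))) :
    maximalIdeal (PatchRing U 𝔫 M T) ≤
      (⨆ i, entryIdeal (PatchRing.matrix U 𝔫 M T (fun n => A n i)) ⊔
          entryIdeal (PatchRing.matrix U 𝔫 M T (fun n => B n i))) ⊔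
        Ideal.span {PatchRing.cls U 𝔫 M T lam} ⊔
        Ideal.span (Set.range fun k => PatchRing.cls U 𝔫 M T (fun n => z n k)) := by
  classical
  -- all marked elements as one family indexed by a fixed finite type
  let g : ∀ n, ((κ × (Fin 2 × Fin 2)) ⊕ ((κ × (Fin 2 × Fin 2)) ⊕ (Unit ⊕ Fin m))) → T n :=
    fun n s => Sum.elim (fun x => A n x.1 x.2.1 x.2.2)
      (Sum.elim (fun x => B n x.1 x.2.1 x.2.2) (Sum.elim (fun _ => lam n) (fun k => z n k))) s
  have hle : ∀ n, (⨆ i, entryIdeal (A n i) ⊔ entryIdeal (B n i)) ⊔ Ideal.span {lam n} ⊔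
      Ideal.span (Set.range (z n)) ≤ Ideal.span (Set.range (g n)) := by
    intro n
    refine sup_le (sup_le (iSup_le fun i => sup_le ?_ ?_) ?_) ?_
    · exact entryIdeal_le_iff.mpr fun a b => Ideal.subset_span ⟨Sum.inl (i, (a, b)), rfl⟩
    · exact entryIdeal_le_iff.mpr fun a b =>
        Ideal.subset_span ⟨Sum.inr (Sum.inl (i, (a, b))), rfl⟩
    · exact Ideal.span_le.mpr (Set.singleton_subset_iff.mpr
        (Ideal.subset_span ⟨Sum.inr (Sum.inr (Sum.inl ())), rfl⟩))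
    · refine Ideal.span_mono ?_
      rintro _ ⟨k, rfl⟩
      exact ⟨Sum.inr (Sum.inr (Sum.inr k)), rfl⟩
  intro x hx
  obtain ⟨t, rfl⟩ := PatchRing.cls_surjective x
  have h := PatchRing.cls_mem_maximalIdeal_iff.mp hx
  have h1 : PatchRing.cls U 𝔫 M T t ∈
      PatchRing.evIdeal U 𝔫 M T (fun n => Ideal.span (Set.range (g n))) :=
    PatchRing.cls_mem_evIdeal (by filter_upwards [h, hgen] with n hn hg using hle n (hg hn))
  have h2 := PatchRing.evIdeal_span_range U 𝔫 M T g h1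
  refine (Ideal.span_le.mpr ?_) h2
  rintro _ ⟨s, rfl⟩
  rcases s with ⟨i, a, b⟩ | ⟨i, a, b⟩ | _ | k
  · refine Ideal.mem_sup_left (Ideal.mem_sup_left ?_)
    refine (le_iSup (fun i => entryIdeal (PatchRing.matrix U 𝔫 M T (fun n => A n i)) ⊔
      entryIdeal (PatchRing.matrix U 𝔫 M T (fun n => B n i))) i) (Ideal.mem_sup_left ?_)
    exact entry_mem_entryIdeal (PatchRing.matrix U 𝔫 M T (fun n => A n i)) a b
  · refine Ideal.mem_sup_left (Ideal.mem_sup_left ?_)
    refine (le_iSup (fun i => entryIdeal (PatchRing.matrix U 𝔫 M T (fun n => A n i)) ⊔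
      entryIdeal (PatchRing.matrix U 𝔫 M T (fun n => B n i))) i) (Ideal.mem_sup_right ?_)
    exact entry_mem_entryIdeal (PatchRing.matrix U 𝔫 M T (fun n => B n i)) a b
  · exact Ideal.mem_sup_left (Ideal.mem_sup_right (Ideal.subset_span rfl))
  · exact Ideal.mem_sup_right (Ideal.subset_span ⟨k, rfl⟩)

end Limit

section Endgame

variable {S : Type u} [CommRing S] [IsNoetherianRing S] (𝔫 : Ideal S) [IsAdicComplete 𝔫 S]

/-- `helper2336.PatchRing.package` for the hyperfilter, from hypotheses at every level. -/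
theorem hyper_package (hfin : ∀ k : ℕ, Finite (S ⧸ 𝔫 ^ k)) (h𝔫 : 𝔫 ≤ Ideal.jacobson ⊥)
    {r : ℕ} (hS : ((r + 1 : ℕ) : WithBot ℕ∞) ≤ ringKrullDim S)
    {ι : Type*} [Fintype ι] [Nonempty ι]
    (M : ℕ → Type v) [∀ n, AddCommGroup (M n)] [∀ n, Module S (M n)]
    (T : ℕ → Type w) [∀ n, CommRing (T n)] [∀ n, IsLocalRing (T n)] [∀ n, Algebra S (T n)]
    [∀ n, Module (T n) (M n)] [∀ n, IsScalarTower S (T n) (M n)]
    (e : ∀ n, ι → M n)
    (hspan : ∀ n, ∀ x : M n, ∃ c : ι → S, x = ∑ i, c i • e n i)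
    (a : ℕ → Ideal S)
    (hrel : ∀ n, ∀ c : ι → S, ∑ i, c i • e n i = 0 → ∀ i, c i ∈ a n)
    (ha : ∀ k : ℕ, ∀ᶠ n in atTop, a n ≤ 𝔫 ^ k) :
    IsLocalRing (PatchRing (Filter.hyperfilter ℕ) 𝔫 M T) ∧
      IsNoetherianRing (PatchRing (Filter.hyperfilter ℕ) 𝔫 M T) ∧
      Algebra.IsIntegral S (PatchRing (Filter.hyperfilter ℕ) 𝔫 M T) ∧
      Module.Finite (PatchRing (Filter.hyperfilter ℕ) 𝔫 M T)
        (Patch (Filter.hyperfilter ℕ) 𝔫 M) ∧
      Function.Injective (algebraMap S (PatchRing (Filter.hyperfilter ℕ) 𝔫 M T)) := by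
  have hUle : ((Filter.hyperfilter ℕ : Ultrafilter ℕ) : Filter ℕ) ≤ atTop :=
    Nat.hyperfilter_le_atTop
  have : Nontrivial S := by
    rcases subsingleton_or_nontrivial S with h | h
    · exfalso
      rw [ringKrullDim_eq_bot_of_subsingleton] at hS
      simp at hS
    · exact h
  exact PatchRing.package 𝔫 (Filter.hyperfilter ℕ) hfin h𝔫 M T e
    (Eventually.of_forall hspan) a (Eventually.of_forall hrel)
    (fun k => (ha k).filter_mono hUle)

/-- **Patched pivot, family form** (signed (X), three generators per hard prime).  The twin of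
`helper2336.pivot_patch_false` for a fixed finite set `κ` of hard primes: the maximal ideal of
`T n` is generated by the entries of all `Nm n i`, `Gm n i`, by `lam n` and by `m` further
elements, with `m + 3 * #κ ≤ r`. -/
theorem pivot_patch_false_family (hfin : ∀ k : ℕ, Finite (S ⧸ 𝔫 ^ k))
    (h𝔫 : 𝔫 ≤ Ideal.jacobson ⊥) {r m : ℕ} {κ : Type*} [Fintype κ]
    (hmr : m + 3 * Fintype.card κ ≤ r) (hS : ((r + 1 : ℕ) : WithBot ℕ∞) ≤ ringKrullDim S)
    {ι : Type*} [Fintype ι] [Nonempty ι]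
    (M : ℕ → Type v) [∀ n, AddCommGroup (M n)] [∀ n, Module S (M n)]
    (T : ℕ → Type w) [∀ n, CommRing (T n)] [∀ n, IsLocalRing (T n)] [∀ n, Algebra S (T n)]
    [∀ n, Module (T n) (M n)] [∀ n, IsScalarTower S (T n) (M n)]
    (e : ∀ n, ι → M n)
    (hspan : ∀ n, ∀ x : M n, ∃ c : ι → S, x = ∑ i, c i • e n i)
    (a : ℕ → Ideal S)
    (hrel : ∀ n, ∀ c : ι → S, ∑ i, c i • e n i = 0 → ∀ i, c i ∈ a n)
    (ha : ∀ k : ℕ, ∀ᶠ n in atTop, a n ≤ 𝔫 ^ k)
    (Gm Nm : ∀ n, κ → Matrix (Fin 2) (Fin 2) (T n))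
    (hN : ∀ n i a b, Nm n i a b ∈ maximalIdeal (T n))
    (h11 : ∀ n i,
      Nm n i 1 1 ∈ Ideal.span ({Nm n i 0 0, Nm n i 0 1, Nm n i 1 0} : Set (T n)))
    (hX : ∀ n i, ImageIncl (M n) (Gm n i) (Nm n i))
    (lam : ∀ n, T n) (k : ℕ) (i₀ : κ)
    (hlam : ∀ n, lam n ^ k ∈ Ideal.span {Gm n i₀ 0 0 + Gm n i₀ 1 1})
    (z : ∀ n, Fin m → T n) (hz : ∀ n j, z n j ∈ maximalIdeal (T n))
    (hgen : ∀ n, maximalIdeal (T n) ≤
      (⨆ i, entryIdeal (Nm n i) ⊔ entryIdeal (Gm n i)) ⊔ Ideal.span {lam n} ⊔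
        Ideal.span (Set.range (z n))) : False := by
  classical
  obtain ⟨hloc, hnoeth, hint, hfinP, hinj⟩ :=
    hyper_package 𝔫 hfin h𝔫 hS M T e hspan a hrel ha
  set U : Ultrafilter ℕ := Filter.hyperfilter ℕ with hU
  refine pivot_endgame_family_three (S := S) (T := PatchRing U 𝔫 M T) hinj
    (P := Patch U 𝔫 M) PatchRing.eq_zero_of_smul_eq_zero
    (fun i => PatchRing.matrix U 𝔫 M T (fun n => Gm n i))
    (fun i => PatchRing.matrix U 𝔫 M T (fun n => Nm n i)) ?_ ?_ ?_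
    (PatchRing.cls U 𝔫 M T lam) i₀ ?_
    (fun j => PatchRing.cls U 𝔫 M T (fun n => z n j)) ?_ ?_ hmr hS
  · intro i a b
    exact PatchRing.cls_mem_maximalIdeal_iff.mpr (Eventually.of_forall fun n => hN n i a b)
  · intro i
    exact PatchRing.cls_mem_span_triple (Eventually.of_forall fun n => h11 n i)
  · intro i
    exact PatchRing.imageIncl U 𝔫 M T _ _ (Eventually.of_forall fun n => hX n i)
  · exact ⟨k, PatchRing.cls_pow_mem_span_singleton k (Eventually.of_forall hlam)⟩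
  · intro j
    exact PatchRing.cls_mem_maximalIdeal_iff.mpr (Eventually.of_forall fun n => hz n j)
  · exact PatchRing.maximalIdeal_le_family U 𝔫 M T Nm Gm lam z (Eventually.of_forall hgen)

/-- **Patched pivot, family form, two generators per hard prime** (signed (X); unipotent
inertia `Nm n i * Nm n i = 0`, the frozen S34 shape): `m + 2 * #κ ≤ r` suffices. -/
theorem pivot_patch_false_family_two (hfin : ∀ k : ℕ, Finite (S ⧸ 𝔫 ^ k))
    (h𝔫 : 𝔫 ≤ Ideal.jacobson ⊥) {r m : ℕ} {κ : Type*} [Fintype κ]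
    (hmr : m + 2 * Fintype.card κ ≤ r) (hS : ((r + 1 : ℕ) : WithBot ℕ∞) ≤ ringKrullDim S)
    {ι : Type*} [Fintype ι] [Nonempty ι]
    (M : ℕ → Type v) [∀ n, AddCommGroup (M n)] [∀ n, Module S (M n)]
    (T : ℕ → Type w) [∀ n, CommRing (T n)] [∀ n, IsLocalRing (T n)] [∀ n, Algebra S (T n)]
    [∀ n, Module (T n) (M n)] [∀ n, IsScalarTower S (T n) (M n)]
    (e : ∀ n, ι → M n)
    (hspan : ∀ n, ∀ x : M n, ∃ c : ι → S, x = ∑ i, c i • e n i)
    (a : ℕ → Ideal S)
    (hrel : ∀ n, ∀ c : ι → S, ∑ i, c i • e n i = 0 → ∀ i, c i ∈ a n)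
    (ha : ∀ k : ℕ, ∀ᶠ n in atTop, a n ≤ 𝔫 ^ k)
    (Gm Nm : ∀ n, κ → Matrix (Fin 2) (Fin 2) (T n))
    (hN : ∀ n i a b, Nm n i a b ∈ maximalIdeal (T n))
    (hsq : ∀ n i, Nm n i * Nm n i = 0)
    (hX : ∀ n i, ImageIncl (M n) (Gm n i) (Nm n i))
    (lam : ∀ n, T n) (k : ℕ) (i₀ : κ)
    (hlam : ∀ n, lam n ^ k ∈ Ideal.span {Gm n i₀ 0 0 + Gm n i₀ 1 1})
    (z : ∀ n, Fin m → T n) (hz : ∀ n j, z n j ∈ maximalIdeal (T n))
    (hgen : ∀ n, maximalIdeal (T n) ≤
      (⨆ i, entryIdeal (Nm n i) ⊔ entryIdeal (Gm n i)) ⊔ Ideal.span {lam n} ⊔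
        Ideal.span (Set.range (z n))) : False := by
  classical
  obtain ⟨hloc, hnoeth, hint, hfinP, hinj⟩ :=
    hyper_package 𝔫 hfin h𝔫 hS M T e hspan a hrel ha
  set U : Ultrafilter ℕ := Filter.hyperfilter ℕ with hU
  have h1 : ringKrullDim (PatchRing U 𝔫 M T) ≤
      ((m + 2 * Fintype.card κ : ℕ) : WithBot ℕ∞) := by
    refine ringKrullDim_le_of_imageIncl_family_two_of_sq_zero (T := PatchRing U 𝔫 M T)
      (P := Patch U 𝔫 M) PatchRing.eq_zero_of_smul_eq_zero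
      (fun i => PatchRing.matrix U 𝔫 M T (fun n => Gm n i))
      (fun i => PatchRing.matrix U 𝔫 M T (fun n => Nm n i)) ?_ ?_ ?_
      (PatchRing.cls U 𝔫 M T lam) ?_
      (fun j => PatchRing.cls U 𝔫 M T (fun n => z n j)) ?_ ?_
    · intro i a b
      exact PatchRing.cls_mem_maximalIdeal_iff.mpr (Eventually.of_forall fun n => hN n i a b)
    · intro i
      exact patchMatrix_sq_zero U 𝔫 M T _ (Eventually.of_forall fun n => hsq n i)
    · intro i
      exact PatchRing.imageIncl U 𝔫 M T _ _ (Eventually.of_forall fun n => hX n i)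
    · exact mem_radical_iSup_of_pow_mem_trace _ _ i₀
        ⟨k, PatchRing.cls_pow_mem_span_singleton k (Eventually.of_forall hlam)⟩
    · intro j
      exact PatchRing.cls_mem_maximalIdeal_iff.mpr (Eventually.of_forall fun n => hz n j)
    · exact PatchRing.maximalIdeal_le_family U 𝔫 M T Nm Gm lam z (Eventually.of_forall hgen)
  have h2 : ((r + 1 : ℕ) : WithBot ℕ∞) ≤ ((m + 2 * Fintype.card κ : ℕ) : WithBot ℕ∞) :=
    (hS.trans (ringKrullDim_le_of_isIntegral_of_injective hinj)).trans h1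
  have h3 : r + 1 ≤ m + 2 * Fintype.card κ := by exact_mod_cast h2
  omega

/-- **Patched pivot, family form, two generators per hard prime** from `tr (Nm n i) = 0` and
`det (Nm n i) = 0` (the shape of helper442's `PivotLevel`): `m + 2 * #κ ≤ r` suffices. -/
theorem pivot_patch_false_family_two_of_trace_det (hfin : ∀ k : ℕ, Finite (S ⧸ 𝔫 ^ k))
    (h𝔫 : 𝔫 ≤ Ideal.jacobson ⊥) {r m : ℕ} {κ : Type*} [Fintype κ]
    (hmr : m + 2 * Fintype.card κ ≤ r) (hS : ((r + 1 : ℕ) : WithBot ℕ∞) ≤ ringKrullDim S)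
    {ι : Type*} [Fintype ι] [Nonempty ι]
    (M : ℕ → Type v) [∀ n, AddCommGroup (M n)] [∀ n, Module S (M n)]
    (T : ℕ → Type w) [∀ n, CommRing (T n)] [∀ n, IsLocalRing (T n)] [∀ n, Algebra S (T n)]
    [∀ n, Module (T n) (M n)] [∀ n, IsScalarTower S (T n) (M n)]
    (e : ∀ n, ι → M n)
    (hspan : ∀ n, ∀ x : M n, ∃ c : ι → S, x = ∑ i, c i • e n i)
    (a : ℕ → Ideal S)
    (hrel : ∀ n, ∀ c : ι → S, ∑ i, c i • e n i = 0 → ∀ i, c i ∈ a n)
    (ha : ∀ k : ℕ, ∀ᶠ n in atTop, a n ≤ 𝔫 ^ k)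
    (Gm Nm : ∀ n, κ → Matrix (Fin 2) (Fin 2) (T n))
    (hN : ∀ n i a b, Nm n i a b ∈ maximalIdeal (T n))
    (htr : ∀ n i, Nm n i 0 0 + Nm n i 1 1 = 0)
    (hdet : ∀ n i, Nm n i 0 0 * Nm n i 1 1 = Nm n i 0 1 * Nm n i 1 0)
    (hX : ∀ n i, ImageIncl (M n) (Gm n i) (Nm n i))
    (lam : ∀ n, T n) (k : ℕ) (i₀ : κ)
    (hlam : ∀ n, lam n ^ k ∈ Ideal.span {Gm n i₀ 0 0 + Gm n i₀ 1 1})
    (z : ∀ n, Fin m → T n) (hz : ∀ n j, z n j ∈ maximalIdeal (T n))
    (hgen : ∀ n, maximalIdeal (T n) ≤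
      (⨆ i, entryIdeal (Nm n i) ⊔ entryIdeal (Gm n i)) ⊔ Ideal.span {lam n} ⊔
        Ideal.span (Set.range (z n))) : False := by
  classical
  obtain ⟨hloc, hnoeth, hint, hfinP, hinj⟩ :=
    hyper_package 𝔫 hfin h𝔫 hS M T e hspan a hrel ha
  set U : Ultrafilter ℕ := Filter.hyperfilter ℕ with hU
  have htr' : ∀ i, PatchRing.matrix U 𝔫 M T (fun n => Nm n i) 0 0 +
      PatchRing.matrix U 𝔫 M T (fun n => Nm n i) 1 1 = 0 := by
    intro i
    rw [PatchRing.matrix_apply, PatchRing.matrix_apply, ← map_add,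
      ← map_zero (PatchRing.cls U 𝔫 M T)]
    congr 1
    funext n
    exact htr n i
  have hdet' : ∀ i, PatchRing.matrix U 𝔫 M T (fun n => Nm n i) 0 0 *
      PatchRing.matrix U 𝔫 M T (fun n => Nm n i) 1 1 =
      PatchRing.matrix U 𝔫 M T (fun n => Nm n i) 0 1 *
        PatchRing.matrix U 𝔫 M T (fun n => Nm n i) 1 0 := by
    intro i
    rw [PatchRing.matrix_apply, PatchRing.matrix_apply, PatchRing.matrix_apply,
      PatchRing.matrix_apply, ← map_mul, ← map_mul]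
    congr 1
    funext n
    exact hdet n i
  have h1 : ringKrullDim (PatchRing U 𝔫 M T) ≤
      ((m + 2 * Fintype.card κ : ℕ) : WithBot ℕ∞) := by
    refine ringKrullDim_le_of_imageIncl_family_two (T := PatchRing U 𝔫 M T)
      (P := Patch U 𝔫 M) PatchRing.eq_zero_of_smul_eq_zero
      (fun i => PatchRing.matrix U 𝔫 M T (fun n => Gm n i))
      (fun i => PatchRing.matrix U 𝔫 M T (fun n => Nm n i)) ?_
      (fun i => entryIdeal_le_radical_of_trace_det_zero (htr' i) (hdet' i)) ?_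
      (PatchRing.cls U 𝔫 M T lam) ?_
      (fun j => PatchRing.cls U 𝔫 M T (fun n => z n j)) ?_ ?_
    · intro i a b
      exact PatchRing.cls_mem_maximalIdeal_iff.mpr (Eventually.of_forall fun n => hN n i a b)
    · intro i
      exact PatchRing.imageIncl U 𝔫 M T _ _ (Eventually.of_forall fun n => hX n i)
    · exact mem_radical_iSup_of_pow_mem_trace _ _ i₀
        ⟨k, PatchRing.cls_pow_mem_span_singleton k (Eventually.of_forall hlam)⟩
    · intro j
      exact PatchRing.cls_mem_maximalIdeal_iff.mpr (Eventually.of_forall fun n => hz n j)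
    · exact PatchRing.maximalIdeal_le_family U 𝔫 M T Nm Gm lam z (Eventually.of_forall hgen)
  have h2 : ((r + 1 : ℕ) : WithBot ℕ∞) ≤ ((m + 2 * Fintype.card κ : ℕ) : WithBot ℕ∞) :=
    (hS.trans (ringKrullDim_le_of_isIntegral_of_injective hinj)).trans h1
  have h3 : r + 1 ≤ m + 2 * Fintype.card κ := by exact_mod_cast h2
  omega

omit [IsNoetherianRing S] [IsAdicComplete 𝔫 S] in
/-- Common limit step of the two squared forms: the hypotheses of
`ringKrullDim_le_of_imageIncl_family_sq` other than the generator count pass to the patched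
ring. -/
theorem sq_limit (U : Ultrafilter ℕ) {κ : Type*} [Fintype κ]
    (M : ℕ → Type v) [∀ n, AddCommGroup (M n)] [∀ n, Module S (M n)]
    (T : ℕ → Type w) [∀ n, CommRing (T n)] [∀ n, IsLocalRing (T n)] [∀ n, Algebra S (T n)]
    [∀ n, Module (T n) (M n)] [∀ n, IsScalarTower S (T n) (M n)]
    [IsLocalRing (PatchRing U 𝔫 M T)]
    (Phi Nm : ∀ n, κ → Matrix (Fin 2) (Fin 2) (T n))
    (β : ∀ n, κ → T n) (hβ : ∀ n i, IsUnit (2 * β n i))
    (hPhi : ∀ n i a b, (Phi n i - Matrix.scalar (Fin 2) (β n i)) a b ∈ maximalIdeal (T n))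
    (hX : ∀ n i, ImageIncl (M n)
      (Phi n i * Phi n i - Matrix.scalar (Fin 2) (β n i * β n i)) (Nm n i))
    (lam : ∀ n, T n) (k : ℕ) (i₀ : κ)
    (hlam : ∀ n, lam n ^ k ∈ Ideal.span
      {(Phi n i₀ * Phi n i₀ - Matrix.scalar (Fin 2) (β n i₀ * β n i₀)) 0 0 +
        (Phi n i₀ * Phi n i₀ - Matrix.scalar (Fin 2) (β n i₀ * β n i₀)) 1 1})
    {m : ℕ} (z : ∀ n, Fin m → T n)
    (hgen : ∀ n, maximalIdeal (T n) ≤
      (⨆ i, entryIdeal (Nm n i) ⊔ entryIdeal (Phi n i - Matrix.scalar (Fin 2) (β n i))) ⊔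
        Ideal.span {lam n} ⊔ Ideal.span (Set.range (z n))) :
    (∀ i, IsUnit (2 * PatchRing.cls U 𝔫 M T (fun n => β n i))) ∧
    (∀ i a b, (PatchRing.matrix U 𝔫 M T (fun n => Phi n i) -
      Matrix.scalar (Fin 2) (PatchRing.cls U 𝔫 M T (fun n => β n i))) a b ∈
        maximalIdeal (PatchRing U 𝔫 M T)) ∧
    (∀ i, ImageIncl (Patch U 𝔫 M)
      (PatchRing.matrix U 𝔫 M T (fun n => Phi n i) * PatchRing.matrix U 𝔫 M T (fun n => Phi n i) -
        Matrix.scalar (Fin 2) (PatchRing.cls U 𝔫 M T (fun n => β n i) *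
          PatchRing.cls U 𝔫 M T (fun n => β n i)))
      (PatchRing.matrix U 𝔫 M T (fun n => Nm n i))) ∧
    (PatchRing.cls U 𝔫 M T lam ∈ (⨆ i, entryIdeal
      (PatchRing.matrix U 𝔫 M T (fun n => Phi n i) * PatchRing.matrix U 𝔫 M T (fun n => Phi n i) -
        Matrix.scalar (Fin 2) (PatchRing.cls U 𝔫 M T (fun n => β n i) *
          PatchRing.cls U 𝔫 M T (fun n => β n i)))).radical) ∧
    (maximalIdeal (PatchRing U 𝔫 M T) ≤
      (⨆ i, entryIdeal (PatchRing.matrix U 𝔫 M T (fun n => Nm n i)) ⊔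
          entryIdeal (PatchRing.matrix U 𝔫 M T (fun n => Phi n i) -
            Matrix.scalar (Fin 2) (PatchRing.cls U 𝔫 M T (fun n => β n i)))) ⊔
        Ideal.span {PatchRing.cls U 𝔫 M T lam} ⊔
        Ideal.span (Set.range fun j => PatchRing.cls U 𝔫 M T (fun n => z n j))) := by
  refine ⟨?_, ?_, ?_, ?_, ?_⟩
  · intro i
    have h : (2 : PatchRing U 𝔫 M T) * PatchRing.cls U 𝔫 M T (fun n => β n i) =
        PatchRing.cls U 𝔫 M T (fun n => 2 * β n i) := by
      rw [← map_ofNat (PatchRing.cls U 𝔫 M T) 2, ← map_mul]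
      rfl
    rw [h]
    exact PatchRing.isUnit_cls_of_eventually_isUnit (Eventually.of_forall fun n => hβ n i)
  · intro i a b
    rw [← PatchRing.matrix_sub_scalar]
    exact PatchRing.cls_mem_maximalIdeal_iff.mpr
      (Eventually.of_forall fun n => hPhi n i a b)
  · intro i
    rw [← PatchRing.matrix_mul_sub_scalar]
    exact PatchRing.imageIncl U 𝔫 M T _ _ (Eventually.of_forall fun n => hX n i)
  · refine mem_radical_iSup_of_pow_mem_trace _ _ i₀ ⟨k, ?_⟩
    rw [← PatchRing.matrix_mul_sub_scalar]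
    exact PatchRing.cls_pow_mem_span_singleton k (Eventually.of_forall hlam)
  · have h := PatchRing.maximalIdeal_le_family U 𝔫 M T Nm
      (fun n i => Phi n i - Matrix.scalar (Fin 2) (β n i)) lam z (Eventually.of_forall hgen)
    simp only [PatchRing.matrix_sub_scalar] at h
    exact h

/-- **Patched pivot, family form, squared (sign-free) (X)**, three generators per hard prime:
the twin of `helper2336.pivot_patch_false_sq` for a finite set `κ` of hard primes. -/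
theorem pivot_patch_false_family_sq (hfin : ∀ k : ℕ, Finite (S ⧸ 𝔫 ^ k))
    (h𝔫 : 𝔫 ≤ Ideal.jacobson ⊥) {r m : ℕ} {κ : Type*} [Fintype κ]
    (hmr : m + 3 * Fintype.card κ ≤ r) (hS : ((r + 1 : ℕ) : WithBot ℕ∞) ≤ ringKrullDim S)
    {ι : Type*} [Fintype ι] [Nonempty ι]
    (M : ℕ → Type v) [∀ n, AddCommGroup (M n)] [∀ n, Module S (M n)]
    (T : ℕ → Type w) [∀ n, CommRing (T n)] [∀ n, IsLocalRing (T n)] [∀ n, Algebra S (T n)]
    [∀ n, Module (T n) (M n)] [∀ n, IsScalarTower S (T n) (M n)]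
    (e : ∀ n, ι → M n)
    (hspan : ∀ n, ∀ x : M n, ∃ c : ι → S, x = ∑ i, c i • e n i)
    (a : ℕ → Ideal S)
    (hrel : ∀ n, ∀ c : ι → S, ∑ i, c i • e n i = 0 → ∀ i, c i ∈ a n)
    (ha : ∀ k : ℕ, ∀ᶠ n in atTop, a n ≤ 𝔫 ^ k)
    (Phi Nm : ∀ n, κ → Matrix (Fin 2) (Fin 2) (T n))
    (hN : ∀ n i a b, Nm n i a b ∈ maximalIdeal (T n))
    (h11 : ∀ n i,
      Nm n i 1 1 ∈ Ideal.span ({Nm n i 0 0, Nm n i 0 1, Nm n i 1 0} : Set (T n)))
    (β : ∀ n, κ → T n) (hβ : ∀ n i, IsUnit (2 * β n i))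
    (hPhi : ∀ n i a b, (Phi n i - Matrix.scalar (Fin 2) (β n i)) a b ∈ maximalIdeal (T n))
    (hX : ∀ n i, ImageIncl (M n)
      (Phi n i * Phi n i - Matrix.scalar (Fin 2) (β n i * β n i)) (Nm n i))
    (lam : ∀ n, T n) (k : ℕ) (i₀ : κ)
    (hlam : ∀ n, lam n ^ k ∈ Ideal.span
      {(Phi n i₀ * Phi n i₀ - Matrix.scalar (Fin 2) (β n i₀ * β n i₀)) 0 0 +
        (Phi n i₀ * Phi n i₀ - Matrix.scalar (Fin 2) (β n i₀ * β n i₀)) 1 1})
    (z : ∀ n, Fin m → T n) (hz : ∀ n j, z n j ∈ maximalIdeal (T n))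
    (hgen : ∀ n, maximalIdeal (T n) ≤
      (⨆ i, entryIdeal (Nm n i) ⊔ entryIdeal (Phi n i - Matrix.scalar (Fin 2) (β n i))) ⊔
        Ideal.span {lam n} ⊔ Ideal.span (Set.range (z n))) : False := by
  classical
  obtain ⟨hloc, hnoeth, hint, hfinP, hinj⟩ :=
    hyper_package 𝔫 hfin h𝔫 hS M T e hspan a hrel ha
  set U : Ultrafilter ℕ := Filter.hyperfilter ℕ with hU
  obtain ⟨l1, l2, l3, l4, l5⟩ :=
    sq_limit 𝔫 U M T Phi Nm β hβ hPhi hX lam k i₀ hlam z hgen
  have h1 : ringKrullDim (PatchRing U 𝔫 M T) ≤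
      ((m + 3 * Fintype.card κ : ℕ) : WithBot ℕ∞) := by
    refine ringKrullDim_le_of_imageIncl_family_sq_three (T := PatchRing U 𝔫 M T)
      (P := Patch U 𝔫 M) PatchRing.eq_zero_of_smul_eq_zero
      (fun i => PatchRing.matrix U 𝔫 M T (fun n => Phi n i))
      (fun i => PatchRing.matrix U 𝔫 M T (fun n => Nm n i))
      (fun i => PatchRing.cls U 𝔫 M T (fun n => β n i)) ?_ ?_ l1 l2 l3
      (PatchRing.cls U 𝔫 M T lam) l4
      (fun j => PatchRing.cls U 𝔫 M T (fun n => z n j)) ?_ l5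
    · intro i a b
      exact PatchRing.cls_mem_maximalIdeal_iff.mpr (Eventually.of_forall fun n => hN n i a b)
    · intro i
      exact PatchRing.cls_mem_span_triple (Eventually.of_forall fun n => h11 n i)
    · intro j
      exact PatchRing.cls_mem_maximalIdeal_iff.mpr (Eventually.of_forall fun n => hz n j)
  have h2 : ((r + 1 : ℕ) : WithBot ℕ∞) ≤ ((m + 3 * Fintype.card κ : ℕ) : WithBot ℕ∞) :=
    (hS.trans (ringKrullDim_le_of_isIntegral_of_injective hinj)).trans h1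
  have h3 : r + 1 ≤ m + 3 * Fintype.card κ := by exact_mod_cast h2
  omega

/-- **Patched pivot, family form, squared (sign-free) (X), two generators per hard prime**
(unipotent inertia `Nm n i * Nm n i = 0`): `m + 2 * #κ ≤ r` suffices. -/
theorem pivot_patch_false_family_sq_two (hfin : ∀ k : ℕ, Finite (S ⧸ 𝔫 ^ k))
    (h𝔫 : 𝔫 ≤ Ideal.jacobson ⊥) {r m : ℕ} {κ : Type*} [Fintype κ]
    (hmr : m + 2 * Fintype.card κ ≤ r) (hS : ((r + 1 : ℕ) : WithBot ℕ∞) ≤ ringKrullDim S)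
    {ι : Type*} [Fintype ι] [Nonempty ι]
    (M : ℕ → Type v) [∀ n, AddCommGroup (M n)] [∀ n, Module S (M n)]
    (T : ℕ → Type w) [∀ n, CommRing (T n)] [∀ n, IsLocalRing (T n)] [∀ n, Algebra S (T n)]
    [∀ n, Module (T n) (M n)] [∀ n, IsScalarTower S (T n) (M n)]
    (e : ∀ n, ι → M n)
    (hspan : ∀ n, ∀ x : M n, ∃ c : ι → S, x = ∑ i, c i • e n i)
    (a : ℕ → Ideal S)
    (hrel : ∀ n, ∀ c : ι → S, ∑ i, c i • e n i = 0 → ∀ i, c i ∈ a n)
    (ha : ∀ k : ℕ, ∀ᶠ n in atTop, a n ≤ 𝔫 ^ k)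
    (Phi Nm : ∀ n, κ → Matrix (Fin 2) (Fin 2) (T n))
    (hN : ∀ n i a b, Nm n i a b ∈ maximalIdeal (T n))
    (hsq : ∀ n i, Nm n i * Nm n i = 0)
    (β : ∀ n, κ → T n) (hβ : ∀ n i, IsUnit (2 * β n i))
    (hPhi : ∀ n i a b, (Phi n i - Matrix.scalar (Fin 2) (β n i)) a b ∈ maximalIdeal (T n))
    (hX : ∀ n i, ImageIncl (M n)
      (Phi n i * Phi n i - Matrix.scalar (Fin 2) (β n i * β n i)) (Nm n i))
    (lam : ∀ n, T n) (k : ℕ) (i₀ : κ)
    (hlam : ∀ n, lam n ^ k ∈ Ideal.span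
      {(Phi n i₀ * Phi n i₀ - Matrix.scalar (Fin 2) (β n i₀ * β n i₀)) 0 0 +
        (Phi n i₀ * Phi n i₀ - Matrix.scalar (Fin 2) (β n i₀ * β n i₀)) 1 1})
    (z : ∀ n, Fin m → T n) (hz : ∀ n j, z n j ∈ maximalIdeal (T n))
    (hgen : ∀ n, maximalIdeal (T n) ≤
      (⨆ i, entryIdeal (Nm n i) ⊔ entryIdeal (Phi n i - Matrix.scalar (Fin 2) (β n i))) ⊔
        Ideal.span {lam n} ⊔ Ideal.span (Set.range (z n))) : False := by
  classical
  obtain ⟨hloc, hnoeth, hint, hfinP, hinj⟩ :=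
    hyper_package 𝔫 hfin h𝔫 hS M T e hspan a hrel ha
  set U : Ultrafilter ℕ := Filter.hyperfilter ℕ with hU
  obtain ⟨l1, l2, l3, l4, l5⟩ :=
    sq_limit 𝔫 U M T Phi Nm β hβ hPhi hX lam k i₀ hlam z hgen
  have h1 : ringKrullDim (PatchRing U 𝔫 M T) ≤
      ((m + 2 * Fintype.card κ : ℕ) : WithBot ℕ∞) := by
    refine ringKrullDim_le_of_imageIncl_family_sq_two_of_sq_zero (T := PatchRing U 𝔫 M T)
      (P := Patch U 𝔫 M) PatchRing.eq_zero_of_smul_eq_zero
      (fun i => PatchRing.matrix U 𝔫 M T (fun n => Phi n i))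
      (fun i => PatchRing.matrix U 𝔫 M T (fun n => Nm n i))
      (fun i => PatchRing.cls U 𝔫 M T (fun n => β n i)) ?_ ?_ l1 l2 l3
      (PatchRing.cls U 𝔫 M T lam) l4
      (fun j => PatchRing.cls U 𝔫 M T (fun n => z n j)) ?_ l5
    · intro i a b
      exact PatchRing.cls_mem_maximalIdeal_iff.mpr (Eventually.of_forall fun n => hN n i a b)
    · intro i
      exact patchMatrix_sq_zero U 𝔫 M T _ (Eventually.of_forall fun n => hsq n i)
    · intro j
      exact PatchRing.cls_mem_maximalIdeal_iff.mpr (Eventually.of_forall fun n => hz n j)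
  have h2 : ((r + 1 : ℕ) : WithBot ℕ∞) ≤ ((m + 2 * Fintype.card κ : ℕ) : WithBot ℕ∞) :=
    (hS.trans (ringKrullDim_le_of_isIntegral_of_injective hinj)).trans h1
  have h3 : r + 1 ≤ m + 2 * Fintype.card κ := by exact_mod_cast h2
  omega

end Endgame

end Fermat.Agent.S43.helper6757
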