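/-
helper6757 — the PATCH + PIVOT leaf of helper442's S43 Spec, PROVED:
`stmt_PatchPivot : Fermat.Agent.S43.helper442.Stmt_PatchPivot` (a `PivotSystem` is contradictory).

Proof: `helper6757.pivot_patch_false_family` (family form of helper2336's patched pivot, on
helper2336's `Patch` / `PatchRing` imported unchanged) applied to the levels of the system with
`a n := nS ^ n`.
-/
import Fermat.Agent.S43.helper442_Spec
import Fermat.Agent.S43.helper6757_PatchPivotFamily

set_option autoImplicit false

namespace Fermat.Agent.S43.helper6757

open Filter IsLocalRing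
open Fermat.Agent.S43.helper5638
open Fermat.Agent.S43.helper442

attribute [local instance] PivotLevel.instCommRing PivotLevel.instIsLocalRing
  PivotLevel.instAlgebra PivotLevel.instAddCommGroup PivotLevel.instModuleT
  PivotLevel.instModuleS PivotLevel.instIsScalarTower
  PivotSystem.instCommRing PivotSystem.instNoeth PivotSystem.instFintype
  PivotSystem.instNonempty

/-- **PATCH + PIVOT**: no pivot system exists.  This is the leaf `Stmt_PatchPivot` of
helper442's layer-1 Spec for the frozen S43 (Mathlib-only mathematics: ultrapatching of the
levels, then the family pivot endgame). -/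
theorem stmt_PatchPivot : Stmt_PatchPivot := by
  intro X
  classical
  have : IsAdicComplete X.nS X.S := X.complete
  have : Nonempty (Fin X.d) := ⟨⟨0, X.d_pos⟩⟩
  obtain ⟨i₀⟩ := X.instNonempty
  refine pivot_patch_false_family_two_of_trace_det (S := X.S) X.nS X.finite_quot X.nS_le
    (κ := X.ι) X.hmr X.dim_le (ι := Fin X.d) (fun n => (X.level n).M) (fun n => (X.level n).T)
    (fun n => (X.level n).e) ?_ (fun n => X.nS ^ n) (fun n => (X.level n).rel_e) ?_
    (fun n v => (X.level n).Gm v) (fun n v => (X.level n).Nm v)
    (fun n v a b => (X.level n).hN v a b) (fun n v => (X.level n).htr v)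
    (fun n v => (X.level n).hdet v)
    (fun n v => (X.level n).hX v) (fun n => algebraMap X.S (X.level n).T X.lam) (X.k i₀) i₀
    (fun n => (X.level n).hlam i₀) (fun n => (X.level n).z) (fun n j => (X.level n).hz j)
    (fun n => (X.level n).hgen)
  · intro n x
    have hx : x ∈ Submodule.span X.S (Set.range (X.level n).e) := by
      rw [(X.level n).span_e]
      exact Submodule.mem_top
    obtain ⟨c, hc⟩ := (Submodule.mem_span_range_iff_exists_fun X.S).mp hx
    exact ⟨c, hc.symm⟩
  · intro k
    filter_upwards [eventually_ge_atTop k] with n hn
    exact Ideal.pow_le_pow_right hn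

end Fermat.Agent.S43.helper6757
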