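/-
helper442 — S43 SPEC, the compiled chain of record (no `sorry`, PATCH + PIVOT closed).

The leaf `Stmt_PatchPivot` of `helper442_Spec` is PROVED by helper6757
(`helper6757.stmt_PatchPivot`, file `helper6757_PatchPivotSpec.lean`: ultrapatching of the
levels on helper2336's `Patch` / `PatchRing`, then the family pivot endgame). Hence:

  frozen S43  ⟸  helper8397.Stmt_MPMin HardPrime  +  Stmt_PivotSystem            (`result_of_system`)
  frozen S43  ⟸  frozen S44 + Stmt_MPMin HardPrime + Stmt_GaloisPivotSystemFlat   (`result_of_galois_flat`)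
  frozen S43  ⟸  Stmt_MPMin HardPrime + Stmt_GaloisPivotSystemFlat
                 + Stmt_GaloisPivotSystemOrd                                       (`result_of_galois`)

The Spec files `helper442_Spec.lean`, `helper442_SpecGalois.lean` are UNCHANGED (shape v2).
-/
import Fermat.Agent.S43.helper442_SpecGalois
import Fermat.Agent.S43.helper6757_PatchPivotSpec

set_option autoImplicit false
open WeierstrassCurve WeierstrassCurve.Affine WeierstrassCurve.Affine.Point
open CuspForm ModularFormClass UpperHalfPlane
open FreyPackage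

namespace Fermat.Agent.S43.helper442

open Fermat.Agent.S43.helper8397

/-- The hard case at a minimal level from a pivot system alone. -/
theorem stmt_HardMin_of_system (hsys : Stmt_PivotSystem) : Stmt_HardMin HardPrime :=
  stmt_HardMin_of hsys helper6757.stmt_PatchPivot

/-- Frozen S43, verbatim, from Mazur's principle at a minimal level and the existence of a
pivot system (no abstract-algebra hypothesis left). -/
theorem result_of_system (hMP : Stmt_MPMin HardPrime) (hsys : Stmt_PivotSystem)
    (P : FreyPackage) {N q : ℕ} (hcond : P.IsConductorLevel N)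
    (hq : q.Prime) (hq2 : q ≠ 2) (hqp : q ≠ P.p) (hqN : q ∣ N)
    (hirr : GaloisRepIsIrreducible (K := AlgebraicClosure ℚ) ℚ P.freyCurve P.p)
    (hmod : P.ModularRepOfLevel N) (hunr : P.GaloisRepUnramifiedAt q) :
    ∃ M : ℕ, M ∣ N ∧ ¬ q ∣ M ∧ P.ModularRepOfLevel M :=
  result_of_pivot hMP hsys helper6757.stmt_PatchPivot P hcond hq hq2 hqp hqN hirr hmod hunr

/-- Frozen S43 from the frozen S44, Mazur's principle at a minimal level and the existence of
a Galois-form pivot system in the flat case. -/
theorem result_of_galois_flat (h44 : helper8058.Stmt_S44) (hMP : Stmt_MPMin HardPrime)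
    (hG : Stmt_GaloisPivotSystemFlat) (P : FreyPackage) {N q : ℕ}
    (hcond : P.IsConductorLevel N) (hq : q.Prime) (hq2 : q ≠ 2) (hqp : q ≠ P.p) (hqN : q ∣ N)
    (hirr : GaloisRepIsIrreducible (K := AlgebraicClosure ℚ) ℚ P.freyCurve P.p)
    (hmod : P.ModularRepOfLevel N) (hunr : P.GaloisRepUnramifiedAt q) :
    ∃ M : ℕ, M ∣ N ∧ ¬ q ∣ M ∧ P.ModularRepOfLevel M :=
  result_of_pivot_flat h44 hMP (stmt_PivotSystemFlat_of_galois hG) helper6757.stmt_PatchPivot P
    hcond hq hq2 hqp hqN hirr hmod hunr

/-- Frozen S43 from Mazur's principle at a minimal level and Galois-form pivot systems in both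
cases (no S44). -/
theorem result_of_galois (hMP : Stmt_MPMin HardPrime)
    (hF : Stmt_GaloisPivotSystemFlat) (hO : Stmt_GaloisPivotSystemOrd) (P : FreyPackage)
    {N q : ℕ} (hcond : P.IsConductorLevel N) (hq : q.Prime) (hq2 : q ≠ 2) (hqp : q ≠ P.p)
    (hqN : q ∣ N)
    (hirr : GaloisRepIsIrreducible (K := AlgebraicClosure ℚ) ℚ P.freyCurve P.p)
    (hmod : P.ModularRepOfLevel N) (hunr : P.GaloisRepUnramifiedAt q) :
    ∃ M : ℕ, M ∣ N ∧ ¬ q ∣ M ∧ P.ModularRepOfLevel M :=
  result_of_system hMP
    (stmt_PivotSystem_of_flat_ord (stmt_PivotSystemFlat_of_galois hF)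
      (stmt_PivotSystemOrd_of_galois hO)) P hcond hq hq2 hqp hqN hirr hmod hunr

end Fermat.Agent.S43.helper442
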