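import Mathlib

/-!
# Rank transfer for the Betti/Tate seam at the base level (helper4897)

Mathlib-only module theory behind the seam "`(X0)` is proved on the Tate side, the patched
module is the Betti lattice" (s43_route rows 45 and 54, ia_leaves row H-COMP).

`T` is a commutative ring (a Hecke algebra), `N` a square matrix with entries in `T`
(the matrix of `τ - 1` in a basis of the Galois representation) and, for a `T`-module `X`,
`matAct N X` is the induced endomorphism of `ν → X`.

* `matAct_natural`, `matAct_mul`, `matAct_matAct_eq_zero` : functoriality in `X` and in `N`.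
* `kerLeIm_iff`, `kerLeIm_of_restrictScalars` : the shape of the Spec field
  `helper442.GaloisPivotLevel.hex` (`helper442.KerLeIm`).
* `ker_le_range_matAct_iff`, `range_matAct_le_iff`, `imageIncl_of_ker_le_range` : coordinate forms
  (the action shape `∑ j, N i j • x j` of the pivot lemma).
* `intertwine_sub_one` : the hypothesis `hm` of `hres_of_X0` from the output shape of the
  Morita / Cayley-Hamilton brick.
* `matActEquiv`, `ker_le_range_matAct_conj`, `matAct_map_algebraMap` : conjugation of the matrix
  by an invertible matrix and base change of its coefficients.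
* `ker_le_range_matAct_of_equiv`, `ker_le_range_matAct_pi`, `ker_le_range_matAct_of_equiv_pi`,
  `ker_le_range_matAct_of_equiv_prod` : the exactness `ker ≤ range` of `matAct N ·` is invariant
  under `T`-linear isomorphisms and passes to arbitrary products, in particular from `Y` to any
  `P ≃ Y × Y`.
* `ker_le_range_of_finrank`, `two_mul_finrank_range_of_ker_eq_range`,
  `two_mul_finrank_range_matAct_of_equiv_pi` : over a field, for a square-zero endomorphism,
  `ker ≤ range` is the statement "the rank is half the dimension", so the half-rank statement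
  transfers in the same way.
* `hres_of_base`, `hres_of_X0` : the hypothesis of the compiled Nakayama lemmas at a
  Taylor-Wiles level (`N x ∈ 𝔞 H → x ∈ range N + 𝔞 H`) from the base-level statement, a control
  map and the isomorphisms.
* `exists_span_sup_range_eq_top`, `exists_hgen_of_reduction` : the same in the
  "cokernel generated by `c` elements" form.
-/

set_option autoImplicit false

namespace Fermat.Agent.S43.helper4897

open Module

/-! ### Generic bookkeeping -/

section Generic

variable {R : Type*} [Ring R] {V W : Type*} [AddCommGroup V] [Module R V]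
  [AddCommGroup W] [Module R W]

/-- `ker ≤ range` is invariant under conjugation by a linear equivalence. -/
theorem ker_le_range_of_conj (f : V →ₗ[R] V) (g : W →ₗ[R] W) (E : V ≃ₗ[R] W)
    (h : ∀ v, E (f v) = g (E v)) (hf : LinearMap.ker f ≤ LinearMap.range f) :
    LinearMap.ker g ≤ LinearMap.range g := by
  intro w hw
  have h0 : f (E.symm w) = 0 := by
    apply E.injective
    rw [h, E.apply_symm_apply, map_zero]
    exact hw
  obtain ⟨v, hv⟩ := hf h0
  exact ⟨E v, by rw [← h, hv, E.apply_symm_apply]⟩

end Generic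

/-! ### The action of a matrix on `ν → X` -/

section MatAct

variable {T : Type*} [CommRing T] {ν : Type*} [Fintype ν]

/-- The action of a square matrix with entries in `T` on `ν → X`, for a `T`-module `X`. -/
def matAct (N : Matrix ν ν T) (X : Type*) [AddCommGroup X] [Module T X] :
    (ν → X) →ₗ[T] (ν → X) :=
  LinearMap.pi fun i => ∑ j, N i j • LinearMap.proj j

variable (N : Matrix ν ν T) {X Y : Type*} [AddCommGroup X] [Module T X]
  [AddCommGroup Y] [Module T Y]

theorem matAct_apply (x : ν → X) (i : ν) : matAct N X x i = ∑ j, N i j • x j := by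
  simp [matAct]

/-- Naturality of `matAct` in the module. -/
theorem matAct_natural (f : X →ₗ[T] Y) (x : ν → X) :
    matAct N Y (fun j => f (x j)) = fun i => f (matAct N X x i) := by
  funext i
  simp only [matAct_apply, map_sum, map_smul]

theorem matAct_mul (M N : Matrix ν ν T) (x : ν → X) :
    matAct (M * N) X x = matAct M X (matAct N X x) := by
  funext i
  simp only [matAct_apply, Matrix.mul_apply, Finset.sum_smul, Finset.smul_sum, mul_smul]
  exact Finset.sum_comm

theorem matAct_matAct_eq_zero (hN : N * N = 0) (x : ν → X) :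
    matAct N X (matAct N X x) = 0 := by
  rw [← matAct_mul, hN]
  funext i
  simp [matAct_apply]

theorem range_matAct_le_ker (hN : N * N = 0) :
    LinearMap.range (matAct N X) ≤ LinearMap.ker (matAct N X) := by
  rintro _ ⟨y, rfl⟩
  exact matAct_matAct_eq_zero N hN y

/-- `ker ≤ range` for `matAct N X`, in coordinates. -/
theorem ker_le_range_matAct_iff :
    LinearMap.ker (matAct N X) ≤ LinearMap.range (matAct N X) ↔
      ∀ x : ν → X, (∀ i, ∑ j, N i j • x j = 0) → ∃ y : ν → X, ∀ i, ∑ j, N i j • y j = x i := by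
  constructor
  · intro h x hx
    have hx' : x ∈ LinearMap.ker (matAct N X) := by
      rw [LinearMap.mem_ker]
      funext i
      rw [matAct_apply]
      exact hx i
    obtain ⟨y, hy⟩ := h hx'
    exact ⟨y, fun i => by rw [← matAct_apply, hy]⟩
  · intro h x hx
    rw [LinearMap.mem_ker] at hx
    obtain ⟨y, hy⟩ := h x (fun i => by rw [← matAct_apply, hx]; rfl)
    exact ⟨y, funext fun i => by rw [matAct_apply, hy]⟩

/-- `ker ≤ range` for `matAct N X` in the shape of the Spec field
`helper442.GaloisPivotLevel.hex` (`helper442.KerLeIm X N`, unfolded). -/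
theorem kerLeIm_iff :
    LinearMap.ker (matAct N X) ≤ LinearMap.range (matAct N X) ↔
      ∀ v : ν → X, (∀ i, ∑ j, N i j • v j = 0) → ∃ w : ν → X, ∀ i, v i = ∑ j, N i j • w j := by
  rw [ker_le_range_matAct_iff]
  constructor
  · intro h v hv
    obtain ⟨w, hw⟩ := h v hv
    exact ⟨w, fun i => (hw i).symm⟩
  · intro h v hv
    obtain ⟨w, hw⟩ := h v hv
    exact ⟨w, fun i => (hw i).symm⟩

/-- From the output of the Nakayama lemma (stated for the `Λ`-linear map
`(matAct N X).restrictScalars Λ`) to the Spec shape `helper442.KerLeIm X N`. -/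
theorem kerLeIm_of_restrictScalars {Λ : Type*} [CommRing Λ] [Algebra Λ T] [Module Λ X]
    [IsScalarTower Λ T X]
    (h : LinearMap.ker ((matAct N X).restrictScalars Λ)
      ≤ LinearMap.range ((matAct N X).restrictScalars Λ)) :
    ∀ v : ν → X, (∀ i, ∑ j, N i j • v j = 0) → ∃ w : ν → X, ∀ i, v i = ∑ j, N i j • w j := by
  rw [← kerLeIm_iff]
  intro x hx
  obtain ⟨y, hy⟩ := h (show x ∈ LinearMap.ker ((matAct N X).restrictScalars Λ) from hx)
  exact ⟨y, hy⟩

/-- `range (matAct G X) ≤ range (matAct N X)`, in coordinates: this is the shape of the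
hypothesis `(X)` of the pivot lemma (`helper5638.ImageIncl X G N`). -/
theorem range_matAct_le_iff (G : Matrix ν ν T) :
    LinearMap.range (matAct G X) ≤ LinearMap.range (matAct N X) ↔
      ∀ v : ν → X, ∃ w : ν → X, ∀ i, ∑ j, G i j • v j = ∑ j, N i j • w j := by
  constructor
  · intro h v
    obtain ⟨w, hw⟩ := h ⟨v, rfl⟩
    exact ⟨w, fun i => by rw [← matAct_apply, ← matAct_apply, hw]⟩
  · rintro h _ ⟨v, rfl⟩
    obtain ⟨w, hw⟩ := h v
    exact ⟨w, funext fun i => by rw [matAct_apply, matAct_apply, hw]⟩

/-- `(X)` from exactness: if `N * G = 0` and `matAct N X` is exact, then the image of `G` on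
`ν → X` lies in the image of `N` (the shape `helper5638.ImageIncl X G N`). -/
theorem imageIncl_of_ker_le_range (G : Matrix ν ν T) (h0 : N * G = 0)
    (hex : LinearMap.ker (matAct N X) ≤ LinearMap.range (matAct N X)) :
    ∀ v : ν → X, ∃ w : ν → X, ∀ i, ∑ j, G i j • v j = ∑ j, N i j • w j := by
  rw [← range_matAct_le_iff]
  rintro _ ⟨v, rfl⟩
  apply hex
  rw [LinearMap.mem_ker, ← matAct_mul, h0]
  funext i
  simp [matAct_apply]

theorem matAct_one [DecidableEq ν] (x : ν → X) : matAct (1 : Matrix ν ν T) X x = x := by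
  funext i
  simp [matAct_apply, Matrix.one_apply]

/-- The automorphism of `ν → X` given by an invertible matrix. -/
def matActEquiv [DecidableEq ν] (g ginv : Matrix ν ν T) (h1 : g * ginv = 1) (h2 : ginv * g = 1)
    (X : Type*) [AddCommGroup X] [Module T X] : (ν → X) ≃ₗ[T] (ν → X) :=
  LinearEquiv.ofLinearMap (matAct g X) (matAct ginv X)
    (LinearMap.ext fun x => by
      rw [LinearMap.comp_apply, ← matAct_mul, h1, matAct_one, LinearMap.id_apply])
    (LinearMap.ext fun x => by
      rw [LinearMap.comp_apply, ← matAct_mul, h2, matAct_one, LinearMap.id_apply])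

/-- Exactness of `matAct N X` is invariant under conjugation of the matrix (change of basis of the
representation): `ρ_Q ⊗ T_0` is only conjugate to `ρ_0`. -/
theorem ker_le_range_matAct_conj [DecidableEq ν] (g ginv : Matrix ν ν T) (h1 : g * ginv = 1)
    (h2 : ginv * g = 1)
    (h : LinearMap.ker (matAct N X) ≤ LinearMap.range (matAct N X)) :
    LinearMap.ker (matAct (g * N * ginv) X) ≤ LinearMap.range (matAct (g * N * ginv) X) :=
  ker_le_range_of_conj (matAct N X) (matAct (g * N * ginv) X) (matActEquiv g ginv h1 h2 X)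
    (fun v => by
      change matAct g X (matAct N X v) = matAct (g * N * ginv) X (matAct g X v)
      rw [← matAct_mul, ← matAct_mul, Matrix.mul_assoc, Matrix.mul_assoc, h2, Matrix.mul_one]) h

/-- Base change of the coefficients: if `X` is a module over a `T`-algebra `T'`, the matrix
`N.map (algebraMap T T')` acts on `ν → X` as `N` does. -/
theorem matAct_map_algebraMap {T' : Type*} [CommRing T'] [Algebra T T'] [Module T' X]
    [IsScalarTower T T' X] (x : ν → X) :
    matAct (N.map (algebraMap T T')) X x = matAct N X x := by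
  funext i
  simp only [matAct_apply, Matrix.map_apply, algebraMap_smul]

/-- The intertwining hypothesis `hm` of `hres_of_X0` from the output shape of the Morita /
Cayley-Hamilton brick (`helper9818.exists_equiv_of_cayleyHamilton`): if `Ψ (π a) i =
∑ j, R i j • Ψ a j`, then `Ψ` intertwines `π - 1` with `matAct (R - 1)`. -/
theorem intertwine_sub_one [DecidableEq ν] {A : Type*} [AddCommGroup A] [Module T A]
    (R : Matrix ν ν T) (π : A →ₗ[T] A) (Ψ : A ≃ₗ[T] (ν → Y))
    (h : ∀ a i, Ψ (π a) i = ∑ j, R i j • Ψ a j) (a : A) :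
    Ψ ((π - 1) a) = matAct (R - 1) Y (Ψ a) := by
  funext i
  rw [LinearMap.sub_apply, Module.End.one_apply, map_sub, Pi.sub_apply, h, matAct_apply]
  simp only [Matrix.sub_apply, sub_smul, Finset.sum_sub_distrib]
  congr 1
  rw [Finset.sum_eq_single i]
  · rw [Matrix.one_apply_eq, one_smul]
  · intro j _ hj
    rw [Matrix.one_apply_ne (Ne.symm hj), zero_smul]
  · intro hi
    exact absurd (Finset.mem_univ i) hi

/-- Exactness of `matAct N ·` is invariant under `T`-linear isomorphisms. -/
theorem ker_le_range_matAct_of_equiv (e : X ≃ₗ[T] Y)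
    (h : LinearMap.ker (matAct N Y) ≤ LinearMap.range (matAct N Y)) :
    LinearMap.ker (matAct N X) ≤ LinearMap.range (matAct N X) :=
  ker_le_range_of_conj (matAct N Y) (matAct N X) (LinearEquiv.piCongrRight fun _ => e.symm)
    (fun v => (matAct_natural N e.symm.toLinearMap v).symm) h

theorem matAct_pi_apply {ι : Type*} (x : ν → ι → Y) (i : ν) (a : ι) :
    matAct N (ι → Y) x i a = matAct N Y (fun j => x j a) i := by
  simp only [matAct_apply, Finset.sum_apply, Pi.smul_apply]

/-- Exactness of `matAct N ·` passes to arbitrary powers. -/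
theorem ker_le_range_matAct_pi {ι : Type*}
    (h : LinearMap.ker (matAct N Y) ≤ LinearMap.range (matAct N Y)) :
    LinearMap.ker (matAct N (ι → Y)) ≤ LinearMap.range (matAct N (ι → Y)) := by
  intro x hx
  rw [LinearMap.mem_ker] at hx
  have hx' : ∀ a, (fun j => x j a) ∈ LinearMap.ker (matAct N Y) := by
    intro a
    rw [LinearMap.mem_ker]
    funext i
    have := congrFun (congrFun hx i) a
    rw [matAct_pi_apply] at this
    exact this
  choose y hy using fun a => h (hx' a)
  refine ⟨fun j a => y a j, ?_⟩
  funext i a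
  rw [matAct_pi_apply]
  exact congrFun (hy a) i

/-- **Transfer of exactness.** If `P ≃ Y ^ ι` as `T`-modules and `matAct N Y` is exact, then
`matAct N P` is exact. -/
theorem ker_le_range_matAct_of_equiv_pi {ι : Type*} {P : Type*} [AddCommGroup P] [Module T P]
    (e : P ≃ₗ[T] (ι → Y))
    (h : LinearMap.ker (matAct N Y) ≤ LinearMap.range (matAct N Y)) :
    LinearMap.ker (matAct N P) ≤ LinearMap.range (matAct N P) :=
  ker_le_range_matAct_of_equiv N e (ker_le_range_matAct_pi N h)

/-- The same for `P ≃ Y × Y`. -/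
theorem ker_le_range_matAct_of_equiv_prod {P : Type*} [AddCommGroup P] [Module T P]
    (e : P ≃ₗ[T] (Y × Y))
    (h : LinearMap.ker (matAct N Y) ≤ LinearMap.range (matAct N Y)) :
    LinearMap.ker (matAct N P) ≤ LinearMap.range (matAct N P) :=
  ker_le_range_matAct_of_equiv_pi N (e.trans (LinearEquiv.finTwoArrow T Y).symm) h

end MatAct

/-! ### Over a field: exactness is "half rank" -/

section Field

variable {k : Type*} [Field k] {V : Type*} [AddCommGroup V] [Module k V] [FiniteDimensional k V]

/-- A square-zero endomorphism whose rank is at least half the dimension is exact. -/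
theorem ker_le_range_of_finrank (f : V →ₗ[k] V) (hf : ∀ x, f (f x) = 0)
    (hrank : finrank k V ≤ 2 * finrank k (LinearMap.range f)) :
    LinearMap.ker f ≤ LinearMap.range f := by
  have hle : LinearMap.range f ≤ LinearMap.ker f := by
    rintro _ ⟨y, rfl⟩
    exact hf y
  have h1 := LinearMap.finrank_range_add_finrank_ker f
  have h2 : finrank k (LinearMap.ker f) ≤ finrank k (LinearMap.range f) := by omega
  exact (Submodule.eq_of_le_of_finrank_le hle h2).ge

/-- An exact endomorphism has rank half the dimension. -/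
theorem two_mul_finrank_range_of_ker_eq_range (f : V →ₗ[k] V)
    (h : LinearMap.ker f = LinearMap.range f) :
    2 * finrank k (LinearMap.range f) = finrank k V := by
  have h1 := LinearMap.finrank_range_add_finrank_ker f
  rw [h] at h1
  omega

/-- The cokernel of `f` is generated by `c` elements as soon as `dim V ≤ rank f + c`. -/
theorem exists_span_sup_range_eq_top (f : V →ₗ[k] V) {c : ℕ}
    (hc : finrank k V ≤ finrank k (LinearMap.range f) + c) :
    ∃ v : Fin c → V, Submodule.span k (Set.range v) ⊔ LinearMap.range f = ⊤ := by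
  classical
  have hdim : finrank k (V ⧸ LinearMap.range f) ≤ c := by
    have := (LinearMap.range f).finrank_quotient_add_finrank
    omega
  let b := Module.finBasis k (V ⧸ LinearMap.range f)
  choose l hl using fun i => Submodule.mkQ_surjective (LinearMap.range f) (b i)
  refine ⟨fun i => if h : (i : ℕ) < finrank k (V ⧸ LinearMap.range f) then l ⟨i, h⟩ else 0, ?_⟩
  rw [sup_comm, ← Submodule.map_mkQ_eq_top, eq_top_iff, ← b.span_eq, Submodule.map_span]
  apply Submodule.span_mono
  rintro _ ⟨i, rfl⟩
  refine ⟨l i, ⟨⟨i, lt_of_lt_of_le i.2 hdim⟩, ?_⟩, hl i⟩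
  simp

end Field

section FieldMatAct

variable {T : Type*} [CommRing T] {ν : Type*} [Fintype ν] (N : Matrix ν ν T)
  {k : Type*} [Field k] [Algebra k T]
  {Y P : Type*} [AddCommGroup Y] [Module T Y] [Module k Y] [IsScalarTower k T Y]
  [AddCommGroup P] [Module T P] [Module k P] [IsScalarTower k T P]
  [FiniteDimensional k Y] [FiniteDimensional k P]

/-- **Transfer of the half-rank statement.**  `k` a field, `T` a `k`-algebra, `N * N = 0`.
If the rank of `N` on `Y ^ ν` is half of `dim Y ^ ν` and `P ≃ Y ^ ι` as `T`-modules, then the rank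
of `N` on `P ^ ν` is half of `dim P ^ ν`. -/
theorem two_mul_finrank_range_matAct_of_equiv_pi (hN : N * N = 0) {ι : Type*}
    (e : P ≃ₗ[T] (ι → Y))
    (hY : finrank k (ν → Y) ≤ 2 * finrank k (LinearMap.range ((matAct N Y).restrictScalars k))) :
    2 * finrank k (LinearMap.range ((matAct N P).restrictScalars k)) = finrank k (ν → P) := by
  have h1 : LinearMap.ker ((matAct N Y).restrictScalars k)
      ≤ LinearMap.range ((matAct N Y).restrictScalars k) :=
    ker_le_range_of_finrank _ (fun x => matAct_matAct_eq_zero N hN x) hY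
  have h2 : LinearMap.ker (matAct N Y) ≤ LinearMap.range (matAct N Y) := by
    intro x hx
    obtain ⟨y, hy⟩ := h1 (show x ∈ LinearMap.ker ((matAct N Y).restrictScalars k) from hx)
    exact ⟨y, hy⟩
  have h3 := ker_le_range_matAct_of_equiv_pi N e h2
  apply two_mul_finrank_range_of_ker_eq_range
  apply le_antisymm
  · intro x hx
    obtain ⟨y, hy⟩ := h3 (show x ∈ LinearMap.ker (matAct N P) from hx)
    exact ⟨y, hy⟩
  · rintro _ ⟨y, rfl⟩
    exact matAct_matAct_eq_zero N hN y

end FieldMatAct

/-! ### Lifting to a Taylor-Wiles level: the hypotheses of the Nakayama lemmas -/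

section Lift

variable {Λ : Type*} [CommRing Λ]

/-- `𝔞 • ⊤` in a finite power is computed coordinatewise. -/
theorem mem_smul_top_pi_iff {ν : Type*} [Finite ν] {H : Type*} [AddCommGroup H] [Module Λ H]
    (𝔞 : Ideal Λ) (x : ν → H) :
    x ∈ 𝔞 • (⊤ : Submodule Λ (ν → H)) ↔ ∀ i, x i ∈ 𝔞 • (⊤ : Submodule Λ H) := by
  classical
  cases nonempty_fintype ν
  constructor
  · intro hx i
    have h1 : (LinearMap.proj i : (ν → H) →ₗ[Λ] H) x
        ∈ (𝔞 • (⊤ : Submodule Λ (ν → H))).map (LinearMap.proj i) :=
      Submodule.mem_map_of_mem hx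
    rw [Submodule.map_smul''] at h1
    exact (smul_mono_right _ le_top : _ ≤ 𝔞 • (⊤ : Submodule Λ _)) h1
  · intro hx
    rw [← Finset.univ_sum_single x]
    refine Submodule.sum_mem _ fun i _ => ?_
    have h1 : (LinearMap.single Λ (fun _ : ν => H) i) (x i)
        ∈ (𝔞 • (⊤ : Submodule Λ H)).map (LinearMap.single Λ (fun _ : ν => H) i) :=
      Submodule.mem_map_of_mem (hx i)
    rw [Submodule.map_smul''] at h1
    exact (smul_mono_right _ le_top : _ ≤ 𝔞 • (⊤ : Submodule Λ _)) h1

variable {T : Type*} [CommRing T] [Algebra Λ T] {ν : Type*} [Fintype ν] (N : Matrix ν ν T)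

/-- **From the base level to a Taylor-Wiles level.**  `PQ` is a `T`-module (and `Λ`-module),
`ctrl : PQ → P0` a surjective `T`-linear map with kernel `𝔞 PQ` (control), and `matAct N P0` is
exact.  Then `(matAct N PQ).restrictScalars Λ` satisfies "`N x ∈ 𝔞 H → x ∈ range N + 𝔞 H`" on
`H = ν → PQ`, which is the hypothesis `hres` of the compiled Nakayama lemma
(`helper3536.ker_le_range_of_residue`). -/
theorem hres_of_base (𝔞 : Ideal Λ)
    {PQ P0 : Type*} [AddCommGroup PQ] [Module T PQ] [Module Λ PQ] [IsScalarTower Λ T PQ]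
    [AddCommGroup P0] [Module T P0]
    (ctrl : PQ →ₗ[T] P0) (hsurj : Function.Surjective ctrl)
    (hker : ∀ x, ctrl x = 0 ↔ x ∈ 𝔞 • (⊤ : Submodule Λ PQ))
    (hP0 : LinearMap.ker (matAct N P0) ≤ LinearMap.range (matAct N P0)) (x : ν → PQ)
    (hx : (matAct N PQ).restrictScalars Λ x ∈ 𝔞 • (⊤ : Submodule Λ (ν → PQ))) :
    x ∈ LinearMap.range ((matAct N PQ).restrictScalars Λ)
      ⊔ 𝔞 • (⊤ : Submodule Λ (ν → PQ)) := by
  have h1 : matAct N P0 (fun j => ctrl (x j)) = 0 := by
    rw [matAct_natural]
    funext i
    exact (hker _).mpr ((mem_smul_top_pi_iff 𝔞 _).mp hx i)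
  obtain ⟨w, hw⟩ := hP0 (LinearMap.mem_ker.mpr h1)
  choose w' hw' using fun j => hsurj (w j)
  have hw'' : (fun j => ctrl (w' j)) = w := funext hw'
  have h2 : x - matAct N PQ w' ∈ 𝔞 • (⊤ : Submodule Λ (ν → PQ)) := by
    rw [mem_smul_top_pi_iff]
    intro i
    rw [← hker, Pi.sub_apply, map_sub, sub_eq_zero]
    have h3 := congrFun (matAct_natural N ctrl w') i
    rw [hw'', hw] at h3
    exact h3
  have h4 : x = matAct N PQ w' + (x - matAct N PQ w') := by abel
  rw [h4]
  exact Submodule.add_mem _ (Submodule.mem_sup_left ⟨w', rfl⟩) (Submodule.mem_sup_right h2)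

/-- **The seam in one call.**  `A` is the Tate-side module (`J0(N)[λ]_𝔪`) with the endomorphism
`t = τ - 1`, exact by the geometric statement `(X0)`; `m` identifies `A` with `Y ^ ν` and `t` with
the matrix `N` (Morita form of `A = ρ ⊗ Y`); `c` identifies the reduction `P0` of the Betti
lattice with `A` as a `T`-module (Kummer comparison; no Galois equivariance); `ctrl` is the
control map from the Taylor-Wiles level.  Conclusion: the hypothesis of the Nakayama lemma
for `N` acting on `ν → PQ`. -/
theorem hres_of_X0 (𝔞 : Ideal Λ)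
    {PQ P0 A Y : Type*} [AddCommGroup PQ] [Module T PQ] [Module Λ PQ] [IsScalarTower Λ T PQ]
    [AddCommGroup P0] [Module T P0] [AddCommGroup A] [Module T A] [AddCommGroup Y] [Module T Y]
    (ctrl : PQ →ₗ[T] P0) (hsurj : Function.Surjective ctrl)
    (hker : ∀ x, ctrl x = 0 ↔ x ∈ 𝔞 • (⊤ : Submodule Λ PQ))
    (t : A →ₗ[T] A) (hX0 : LinearMap.ker t ≤ LinearMap.range t)
    (m : A ≃ₗ[T] (ν → Y)) (hm : ∀ a, m (t a) = matAct N Y (m a))
    (c : P0 ≃ₗ[T] A) (x : ν → PQ)
    (hx : (matAct N PQ).restrictScalars Λ x ∈ 𝔞 • (⊤ : Submodule Λ (ν → PQ))) :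
    x ∈ LinearMap.range ((matAct N PQ).restrictScalars Λ)
      ⊔ 𝔞 • (⊤ : Submodule Λ (ν → PQ)) :=
  hres_of_base N 𝔞 ctrl hsurj hker
    (ker_le_range_matAct_of_equiv_pi N (c.trans m) (ker_le_range_of_conj t (matAct N Y) m hm hX0))
    x hx

/-- Generators of the cokernel lift along a reduction map: the hypothesis `hgen` of the
cokernel-freeness lemma (`helper7666.exists_linearEquiv_quotient_range`). -/
theorem exists_hgen_of_reduction {H V : Type*} [AddCommGroup H] [Module Λ H]
    [AddCommGroup V] [Module Λ V] (𝔞 : Ideal Λ) (n : H →ₗ[Λ] H) (nbar : V →ₗ[Λ] V)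
    (π : H →ₗ[Λ] V) (hπ : Function.Surjective π)
    (hker : LinearMap.ker π ≤ 𝔞 • (⊤ : Submodule Λ H)) (hcomm : ∀ x, π (n x) = nbar (π x))
    {c : ℕ} (v : Fin c → V)
    (hv : Submodule.span Λ (Set.range v) ⊔ LinearMap.range nbar = ⊤) :
    ∃ x : Fin c → H, (∀ i, π (x i) = v i) ∧
      Submodule.span Λ (Set.range x) ⊔ LinearMap.range n ⊔ 𝔞 • (⊤ : Submodule Λ H) = ⊤ := by
  choose x hx using fun i => hπ (v i)
  refine ⟨x, hx, ?_⟩
  rw [eq_top_iff]
  intro h _
  have h1 : π h ∈ Submodule.span Λ (Set.range v) ⊔ LinearMap.range nbar := by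
    rw [hv]
    trivial
  obtain ⟨s, hs, _, ⟨w, rfl⟩, hst⟩ := Submodule.mem_sup.mp h1
  have hspan : Submodule.span Λ (Set.range v) = (Submodule.span Λ (Set.range x)).map π := by
    rw [Submodule.map_span, ← Set.range_comp]
    congr 2
    funext i
    exact (hx i).symm
  rw [hspan] at hs
  obtain ⟨s', hs', rfl⟩ := hs
  obtain ⟨w', rfl⟩ := hπ w
  have hk : h - s' - n w' ∈ LinearMap.ker π := by
    rw [LinearMap.mem_ker, map_sub, map_sub, hcomm, ← hst]
    abel
  have h2 : h = s' + n w' + (h - s' - n w') := by abel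
  rw [h2]
  exact Submodule.add_mem _
    (Submodule.add_mem _ (Submodule.mem_sup_left (Submodule.mem_sup_left hs'))
      (Submodule.mem_sup_left (Submodule.mem_sup_right ⟨w', rfl⟩)))
    (Submodule.mem_sup_right (hker hk))

end Lift

end Fermat.Agent.S43.helper4897
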