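/-
helper6884 — S43 SPEC, bottom layer (backup of registry leaf S43-SPEC, table ia_leaves).

Written BOTTOM-UP, in the types of the Spec of record on main (`helper442.GaloisPivotLevel`,
`helper442.GaloisPivotSystem`, `helper442.Stmt_GaloisPivotSystemFlat`, imported unchanged) and of
the landed S56 kit (`S56.helper2229.FrozenHyp`, `IsTWFamily`, `condFL`).

  helper442.Stmt_GaloisPivotSystemFlat
      ⟸  Stmt_HardGenFL  +  Stmt_HardDefRingFL  +  Stmt_GaloisHardLevelsFL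
                                                         [`stmt_GaloisPivotSystemFlat_of_leaves`]

* (B1) `pivotSystemOfPowerSeries`, `galoisPivotSystemOfPowerSeries` : levels over
       `S = 𝒪⟦s₁..s_r⟧`, `nS = 𝔪_S`, give a `PivotSystem` / `GaloisPivotSystem` (all ring-side
       fields from Mathlib, the landed `S53.helper1433` and
       `helper5638.succ_le_ringKrullDim_mvPowerSeries`).
* (B2) `exists_marked_gens` : the fields `z`, `hz`, `hgen` of a level from a surjection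
       `𝒪⟦x₁..x_g⟧ ↠ T ⧸ I` (`I` the ideal of marked entries).
* (B3) `exists_surjective_of_subcondition` : a deformation ring `R'` for a sub-condition `𝒟'`
       of `𝒟` surjects onto every quotient `B` of the big deformation ring `R` over which the
       universal deformation is of type `𝒟'` (universal property twice; no trace argument).
* (B4) `exists_marked_gens_of_deformation` : (B2) + (B3) for a local `𝒪`-algebra `T` with
       `φ : R ↠ T` as in the conclusion of the frozen S54.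
* (B5) `GaloisHardLevel` : one Taylor–Wiles level, Hecke side + Galois side, before the
       generator count; `GaloisHardLevel.nonempty_galoisPivotLevel`.
* (B6) the three leaves and the compiled arrow.
-/
import Fermat.Agent.S43.helper442_SpecGalois
import Fermat.Agent.S53.helper1433_PowerSeries
import Fermat.Agent.S53.helper1793_TangentBound
import Fermat.Agent.S56.helper2229_TopSpec

set_option autoImplicit false
set_option linter.style.haveILetI false

namespace Fermat.Agent.S43.helper6884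

open IsLocalRing Fermat.Agent.S43.helper5638 Fermat.Agent.S43.helper442

/-! ### (B1) the coefficient ring of the patching -/

section B1

variable (𝒪 : Type) [CommRing 𝒪] [IsDomain 𝒪] [IsDiscreteValuationRing 𝒪]
  [IsAdicComplete (maximalIdeal 𝒪) 𝒪] [Finite (ResidueField 𝒪)]

/-- **(B1), matrix form.** A family of pivot levels over `S = 𝒪⟦s₁..s_r⟧` (with `nS` the maximal
ideal of `S`) is a pivot system. -/
noncomputable def pivotSystemOfPowerSeries (r : ℕ) (ι : Type) [Fintype ι] [Nonempty ι]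
    (d : ℕ) (hd : 0 < d) (m : ℕ) (hmr : m + 2 * Fintype.card ι ≤ r)
    (lam : MvPowerSeries (Fin r) 𝒪) (k : ι → ℕ)
    (level : ∀ n : ℕ, PivotLevel (MvPowerSeries (Fin r) 𝒪)
      (maximalIdeal (MvPowerSeries (Fin r) 𝒪)) ι d m lam k n) : PivotSystem where
  S := MvPowerSeries (Fin r) 𝒪
  nS := maximalIdeal (MvPowerSeries (Fin r) 𝒪)
  nS_le := (IsLocalRing.jacobson_eq_maximalIdeal (⊥ : Ideal (MvPowerSeries (Fin r) 𝒪))
    bot_ne_top).ge
  complete := Fermat.Agent.S53.helper1433.isAdicComplete_maximalIdeal_mvPowerSeries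
  finite_quot := fun j =>
    Fermat.Agent.S53.helper1433.finite_quotient_maximalIdeal_pow_mvPowerSeries j
  r := r
  dim_le := succ_le_ringKrullDim_mvPowerSeries 𝒪
    (IsDiscreteValuationRing.not_isField 𝒪) r
  ι := ι
  d := d
  d_pos := hd
  m := m
  hmr := hmr
  lam := lam
  k := k
  level := level

/-- **(B1), Galois form.** A family of Galois-form pivot levels over `S = 𝒪⟦s₁..s_r⟧` (with `nS`
the maximal ideal of `S`) is a Galois-form pivot system. -/
noncomputable def galoisPivotSystemOfPowerSeries (r : ℕ) (ι : Type) [Fintype ι] [Nonempty ι]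
    (qv : ι → ℕ) (d : ℕ) (hd : 0 < d) (m : ℕ) (hmr : m + 2 * Fintype.card ι ≤ r)
    (lam : MvPowerSeries (Fin r) 𝒪) (k : ι → ℕ)
    (level : ∀ n : ℕ, GaloisPivotLevel (MvPowerSeries (Fin r) 𝒪)
      (maximalIdeal (MvPowerSeries (Fin r) 𝒪)) ι qv d m lam k n) : GaloisPivotSystem where
  S := MvPowerSeries (Fin r) 𝒪
  nS := maximalIdeal (MvPowerSeries (Fin r) 𝒪)
  nS_le := (IsLocalRing.jacobson_eq_maximalIdeal (⊥ : Ideal (MvPowerSeries (Fin r) 𝒪))
    bot_ne_top).ge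
  complete := Fermat.Agent.S53.helper1433.isAdicComplete_maximalIdeal_mvPowerSeries
  finite_quot := fun j =>
    Fermat.Agent.S53.helper1433.finite_quotient_maximalIdeal_pow_mvPowerSeries j
  r := r
  dim_le := succ_le_ringKrullDim_mvPowerSeries 𝒪
    (IsDiscreteValuationRing.not_isField 𝒪) r
  ι := ι
  qv := qv
  d := d
  d_pos := hd
  m := m
  hmr := hmr
  lam := lam
  k := k
  level := level

end B1

/-! ### (B2) the marked generators -/

section B2

variable {𝒪 : Type*} [CommRing 𝒪] [IsLocalRing 𝒪]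

/-- The maximal ideal of `𝒪⟦x₁..x_g⟧` is generated by the variables and a generator of the
maximal ideal of `𝒪`. -/
theorem maximalIdeal_mvPowerSeries_eq {g : ℕ} (ϖ : 𝒪)
    (hϖ : maximalIdeal 𝒪 = Ideal.span {ϖ}) :
    maximalIdeal (MvPowerSeries (Fin g) 𝒪) =
      Ideal.span {algebraMap 𝒪 (MvPowerSeries (Fin g) 𝒪) ϖ} ⊔
        Ideal.span (Set.range (MvPowerSeries.X : Fin g → MvPowerSeries (Fin g) 𝒪)) := by
  rw [Fermat.Agent.S53.helper1433.maximalIdeal_eq_sup, hϖ, Ideal.map_span, Set.image_singleton,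
    sup_comm]

variable {T : Type*} [CommRing T] [IsLocalRing T] [Algebra 𝒪 T]

/-- **(B2), ring form.** If `𝒪⟦x₁..x_g⟧` surjects onto `T ⧸ I` (`T` local, `I` proper), then
the maximal ideal of `T` is generated modulo `I` by a uniformiser of `𝒪` and `g` elements. -/
theorem exists_marked_gens (ϖ : 𝒪) (hϖ : maximalIdeal 𝒪 = Ideal.span {ϖ})
    (I : Ideal T) (hI : I ≠ ⊤) {g : ℕ} (γ : MvPowerSeries (Fin g) 𝒪 →ₐ[𝒪] T ⧸ I)
    (hγ : Function.Surjective γ) :
    ∃ z : Fin g → T, (∀ i, z i ∈ maximalIdeal T) ∧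
      maximalIdeal T ≤ I ⊔ Ideal.span {algebraMap 𝒪 T ϖ} ⊔ Ideal.span (Set.range z) := by
  classical
  have hmk : Function.Surjective (Ideal.Quotient.mk I) := Ideal.Quotient.mk_surjective
  choose z hz using fun i : Fin g => hmk (γ (MvPowerSeries.X i))
  -- a non-unit of `𝒪⟦x⟧` maps to a non-unit of `T ⧸ I` lifted to a non-unit of `T`
  have hIle : I ≤ maximalIdeal T := IsLocalRing.le_maximalIdeal hI
  have key : ∀ f : MvPowerSeries (Fin g) 𝒪, ∀ t : T, Ideal.Quotient.mk I t = γ f →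
      f ∈ maximalIdeal (MvPowerSeries (Fin g) 𝒪) →
      t ∈ I ⊔ Ideal.span {algebraMap 𝒪 T ϖ} ⊔ Ideal.span (Set.range z) := by
    intro f t ht hf
    rw [maximalIdeal_mvPowerSeries_eq ϖ hϖ] at hf
    -- `γ f` lies in the image of `(ϖ) ⊔ (z)`
    have h1 : γ f ∈ Ideal.map (Ideal.Quotient.mk I)
        (Ideal.span {algebraMap 𝒪 T ϖ} ⊔ Ideal.span (Set.range z)) := by
      have h2 : Ideal.span {algebraMap 𝒪 (MvPowerSeries (Fin g) 𝒪) ϖ} ⊔
          Ideal.span (Set.range (MvPowerSeries.X : Fin g → MvPowerSeries (Fin g) 𝒪)) ≤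
          Ideal.comap (γ : MvPowerSeries (Fin g) 𝒪 →+* T ⧸ I)
            (Ideal.map (Ideal.Quotient.mk I)
              (Ideal.span {algebraMap 𝒪 T ϖ} ⊔ Ideal.span (Set.range z))) := by
        refine sup_le ?_ ?_
        · rw [Ideal.span_le]
          rintro _ rfl
          rw [SetLike.mem_coe, Ideal.mem_comap, RingHom.coe_coe, AlgHom.commutes,
            IsScalarTower.algebraMap_apply 𝒪 T (T ⧸ I)]
          exact Ideal.mem_map_of_mem _ (Ideal.mem_sup_left (Ideal.subset_span rfl))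
        · rw [Ideal.span_le]
          rintro _ ⟨i, rfl⟩
          rw [SetLike.mem_coe, Ideal.mem_comap, RingHom.coe_coe, ← hz i]
          exact Ideal.mem_map_of_mem _ (Ideal.mem_sup_right (Ideal.subset_span ⟨i, rfl⟩))
      exact h2 hf
    rw [← ht, Ideal.mem_map_iff_of_surjective _ hmk] at h1
    obtain ⟨s, hs, hst⟩ := h1
    have h3 : t - s ∈ I := by
      rw [← Ideal.Quotient.eq]
      exact hst.symm
    have : t = (t - s) + s := by ring
    rw [this, sup_assoc]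
    exact Ideal.add_mem _ (Ideal.mem_sup_left h3) (Ideal.mem_sup_right hs)
  -- non-units of `T` come from non-units of `𝒪⟦x⟧`
  have hnonunit : ∀ f : MvPowerSeries (Fin g) 𝒪, ∀ t : T, Ideal.Quotient.mk I t = γ f →
      t ∈ maximalIdeal T → f ∈ maximalIdeal (MvPowerSeries (Fin g) 𝒪) := by
    intro f t ht htm
    rw [mem_maximalIdeal, mem_nonunits_iff]
    intro hu
    have h1 : IsUnit (Ideal.Quotient.mk I t) := by
      rw [ht]
      exact hu.map γ
    obtain ⟨u, hu'⟩ := h1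
    obtain ⟨w, hw⟩ := hmk (↑u⁻¹ : T ⧸ I)
    have h2 : t * w - 1 ∈ I := by
      rw [← Ideal.Quotient.eq, map_mul, hw, ← hu', map_one, Units.mul_inv]
    have h3 : t * w ∈ maximalIdeal T := Ideal.mul_mem_right _ _ htm
    have h4 : (1 : T) ∈ maximalIdeal T := by
      have := Ideal.sub_mem _ h3 (hIle h2)
      rwa [sub_sub_cancel] at this
    exact (Ideal.ne_top_iff_one _).mp (IsLocalRing.maximalIdeal.isMaximal T).ne_top h4
  refine ⟨z, fun i => ?_, fun t ht => ?_⟩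
  · -- `z i` is a non-unit
    rw [mem_maximalIdeal, mem_nonunits_iff]
    intro hu
    have h1 : IsUnit (γ (MvPowerSeries.X i)) := by
      rw [← hz i]
      exact hu.map (Ideal.Quotient.mk I)
    obtain ⟨u, hu'⟩ := h1
    obtain ⟨f, hf⟩ := hγ (↑u⁻¹ : T ⧸ I)
    have h3 : γ (MvPowerSeries.X i * f - 1) = 0 := by
      rw [map_sub, map_mul, hf, ← hu', map_one, Units.mul_inv, sub_self]
    -- `X i * f - 1` is a unit of `𝒪⟦x⟧` mapping to `0`, so `T ⧸ I` is trivial
    have h4 : IsUnit (MvPowerSeries.X i * f - 1 : MvPowerSeries (Fin g) 𝒪) := by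
      rw [MvPowerSeries.isUnit_iff_constantCoeff]
      simp
    have h5 : IsUnit (0 : T ⧸ I) := by
      rw [← h3]
      exact h4.map γ
    have h6 : (1 : T ⧸ I) = 0 := by
      obtain ⟨v, hv⟩ := h5
      have := v.mul_inv
      rw [hv, zero_mul] at this
      exact this.symm
    rw [← map_one (Ideal.Quotient.mk I), Ideal.Quotient.eq_zero_iff_mem] at h6
    exact hI ((Ideal.eq_top_iff_one I).mpr h6)
  · obtain ⟨f, hf⟩ := hγ (Ideal.Quotient.mk I t)
    exact key f t hf.symm (hnonunit f t hf.symm ht)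

end B2

/-! ### (B3) a deformation ring for a sub-condition surjects onto every quotient of the big
deformation ring on which the universal deformation is of the small type -/

section B3

variable {𝒪 : Type} [CommRing 𝒪] [IsDomain 𝒪] [IsDiscreteValuationRing 𝒪]
  [IsAdicComplete (maximalIdeal 𝒪) 𝒪] {ρbar : ResidualGaloisRep (ResidueField 𝒪)}
  {𝒟 𝒟' : ∀ ⦃A : Type⦄ [CommRing A] [IsLocalRing A] [Algebra 𝒪 A], GaloisRepAdic A → Prop}

theorem isEquiv_symm {A : Type} [CommRing A] [IsLocalRing A] {ρ₁ ρ₂ : GaloisRepAdic A}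
    (h : ρ₁.IsEquiv ρ₂) : ρ₂.IsEquiv ρ₁ := by
  obtain ⟨e⟩ := h
  exact ⟨e.symm⟩

theorem isEquiv_trans {A : Type} [CommRing A] [IsLocalRing A] {ρ₁ ρ₂ ρ₃ : GaloisRepAdic A}
    (h : ρ₁.IsEquiv ρ₂) (h' : ρ₂.IsEquiv ρ₃) : ρ₁.IsEquiv ρ₃ := by
  obtain ⟨e⟩ := h
  obtain ⟨e'⟩ := h'
  exact ⟨e.trans e'⟩

theorem isEquiv_baseChangeAlong {A B : Type} [CommRing A] [IsLocalRing A] [CommRing B]
    [IsLocalRing B] (φ : A →+* B) (hφ : IsLocalHom φ) {ρ₁ ρ₂ : GaloisRepAdic A}
    (h : ρ₁.IsEquiv ρ₂) : (ρ₁.baseChangeAlong φ hφ).IsEquiv (ρ₂.baseChangeAlong φ hφ) := by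
  obtain ⟨e⟩ := h
  exact ⟨e.baseChangeAlong φ hφ⟩

/-- **(B3)** Let `𝒟'` be a sub-condition of `𝒟`, with deformation rings `D'` and `DQ`. If
`ψ : DQ.R ↠ B` is a surjection onto a complete noetherian local `𝒪`-algebra such that the
push-forward of the universal deformation is (equivalent to) a deformation `ρB` of type `𝒟'`,
then `D'.R` surjects onto `B`. -/
theorem exists_surjective_of_subcondition
    (h𝒟 : ∀ ⦃A : Type⦄ [CommRing A] [IsLocalRing A] [Algebra 𝒪 A] (ρ : GaloisRepAdic A),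
      𝒟' ρ → 𝒟 ρ)
    (DQ : GaloisRep.DeformationRingData 𝒪 ρbar 𝒟) (D' : GaloisRep.DeformationRingData 𝒪 ρbar 𝒟')
    {B : Type} [CommRing B] [IsLocalRing B] [IsNoetherianRing B]
    [IsAdicComplete (maximalIdeal B) B] [Algebra 𝒪 B] [IsLocalHom (algebraMap 𝒪 B)]
    (hB : Function.Surjective (residue B ∘ algebraMap 𝒪 B))
    (ρB : GaloisRepAdic B) (hρB : 𝒟' ρB)
    (hres : ρB.residual.IsEquiv (ρbar.baseChangeAlong (ResidueField.map (algebraMap 𝒪 B))))
    (ψ : DQ.R →ₐ[𝒪] B) (hψs : Function.Surjective ψ) (hψ : IsLocalHom (ψ : DQ.R →+* B))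
    (hE : (DQ.ρ.baseChangeAlong (ψ : DQ.R →+* B) hψ).IsEquiv ρB) :
    ∃ ψ' : D'.R →ₐ[𝒪] B, Function.Surjective ψ' := by
  obtain ⟨ψ', ⟨hψ', hE'⟩, -⟩ := D'.universal B hB ρB hρB hres
  obtain ⟨χ, ⟨hχ, hEχ⟩, -⟩ :=
    DQ.universal D'.R D'.residue_surjective D'.ρ (h𝒟 D'.ρ D'.isOfType) D'.residual_isEquiv
  obtain ⟨φ0, -, huniq⟩ := DQ.universal B hB ρB (h𝒟 ρB hρB) hres
  have h1 : ψ = φ0 := huniq ψ ⟨hψ, hE⟩
  have hcomp : IsLocalHom ((ψ' : D'.R →+* B).comp (χ : DQ.R →+* D'.R)) :=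
    @RingHom.isLocalHom_comp _ _ _ _ _ _ (ψ' : D'.R →+* B) (χ : DQ.R →+* D'.R) hψ' hχ
  have h2 : ψ'.comp χ = φ0 := by
    refine huniq (ψ'.comp χ) ⟨hcomp, ?_⟩
    have e1 := Fermat.Agent.S53.helper1793.adicBaseChangeAlong_comp (χ : DQ.R →+* D'.R) hχ
      (ψ' : D'.R →+* B) hψ' hcomp DQ.ρ
    have e2 := isEquiv_baseChangeAlong (ψ' : D'.R →+* B) hψ' hEχ
    exact isEquiv_trans (isEquiv_trans (isEquiv_symm e1) e2) hE'
  refine ⟨ψ', fun b => ?_⟩
  obtain ⟨x, rfl⟩ := hψs b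
  refine ⟨χ x, ?_⟩
  rw [h1, ← h2]
  rfl

end B3

/-! ### (B4) the marked generators of a Hecke algebra from the small deformation ring -/

section B4

variable {𝒪 : Type} [CommRing 𝒪] [IsDomain 𝒪] [IsDiscreteValuationRing 𝒪]
  [IsAdicComplete (maximalIdeal 𝒪) 𝒪] {ρbar : ResidualGaloisRep (ResidueField 𝒪)}
  {𝒟 𝒟' : ∀ ⦃A : Type⦄ [CommRing A] [IsLocalRing A] [Algebra 𝒪 A], GaloisRepAdic A → Prop}

theorem resIsEquiv_trans {K : Type} [Field K] {ρ₁ ρ₂ ρ₃ : ResidualGaloisRep K}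
    (h : ρ₁.IsEquiv ρ₂) (h' : ρ₂.IsEquiv ρ₃) : ρ₁.IsEquiv ρ₃ := by
  obtain ⟨e⟩ := h
  obtain ⟨e'⟩ := h'
  exact ⟨e.trans e'⟩

theorem resIsEquiv_baseChangeAlong {K K' : Type} [Field K] [Field K'] (f : K →+* K')
    {ρ₁ ρ₂ : ResidualGaloisRep K} (h : ρ₁.IsEquiv ρ₂) :
    (ρ₁.baseChangeAlong f).IsEquiv (ρ₂.baseChangeAlong f) := by
  obtain ⟨e⟩ := h
  exact ⟨e.baseChangeAlong f⟩

/-- **(B4)** `T` a local `𝒪`-algebra, finite over `𝒪`, carrying a deformation `ρ` of `ρbar`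
which is the push-forward of the universal deformation of type `𝒟` along a surjection
`φ : DQ.R ↠ T` (the conclusion of the frozen S54), and `I` an ideal of `T` such that `ρ` is of
the smaller type `𝒟'` over every quotient of `T` killing `I`. If the deformation ring for `𝒟'`
is a quotient of `𝒪⟦x₁..x_g⟧`, then the maximal ideal of `T` is generated, modulo `I`, by a
uniformiser and `g` elements: the fields `z`, `hz`, `hgen` of a level. -/
theorem exists_marked_gens_of_deformation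
    (h𝒟 : ∀ ⦃A : Type⦄ [CommRing A] [IsLocalRing A] [Algebra 𝒪 A] (ρ : GaloisRepAdic A),
      𝒟' ρ → 𝒟 ρ)
    (DQ : GaloisRep.DeformationRingData 𝒪 ρbar 𝒟) (D' : GaloisRep.DeformationRingData 𝒪 ρbar 𝒟')
    {T : Type} [CommRing T] [IsLocalRing T] [IsNoetherianRing T] [Algebra 𝒪 T]
    [IsLocalHom (algebraMap 𝒪 T)] [Module.Finite 𝒪 T]
    (hT : Function.Surjective (residue T ∘ algebraMap 𝒪 T))
    (ρ : GaloisRepAdic T)
    (hres : ρ.residual.IsEquiv (ρbar.baseChangeAlong (ResidueField.map (algebraMap 𝒪 T))))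
    (φ : DQ.R →ₐ[𝒪] T) (hφs : Function.Surjective φ) (hφ : IsLocalHom (φ : DQ.R →+* T))
    (hE : (DQ.ρ.baseChangeAlong (φ : DQ.R →+* T) hφ).IsEquiv ρ)
    (I : Ideal T)
    (hmarked : ∀ (B : Type) [CommRing B] [IsLocalRing B] [IsNoetherianRing B] [Algebra 𝒪 B]
      (f : T →ₐ[𝒪] B) (hf : IsLocalHom (f : T →+* B)), Function.Surjective f →
      (∀ x ∈ I, f x = 0) → 𝒟' (ρ.baseChangeAlong (f : T →+* B) hf))
    (ϖ : 𝒪) (hϖ : maximalIdeal 𝒪 = Ideal.span {ϖ}) {g : ℕ}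
    (γ : MvPowerSeries (Fin g) 𝒪 →ₐ[𝒪] D'.R) (hγ : Function.Surjective γ) :
    ∃ z : Fin g → T, (∀ i, z i ∈ maximalIdeal T) ∧
      maximalIdeal T ≤ I ⊔ Ideal.span {algebraMap 𝒪 T ϖ} ⊔ Ideal.span (Set.range z) := by
  by_cases hI' : I = ⊤
  · refine ⟨fun _ => 0, fun _ => Ideal.zero_mem _, ?_⟩
    rw [hI', sup_assoc, top_sup_eq]
    exact le_top
  haveI : Nontrivial (T ⧸ I) := Ideal.Quotient.nontrivial_iff.mpr hI'
  haveI : IsLocalRing (T ⧸ I) :=
    IsLocalRing.of_surjective' (Ideal.Quotient.mk I) Ideal.Quotient.mk_surjective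
  let f : T →ₐ[𝒪] T ⧸ I := Ideal.Quotient.mkₐ 𝒪 I
  have hfs : Function.Surjective f := Ideal.Quotient.mkₐ_surjective 𝒪 I
  have hf : IsLocalHom (f : T →+* T ⧸ I) := IsLocalHom.of_surjective _ hfs
  have halg : algebraMap 𝒪 (T ⧸ I) = (f : T →+* T ⧸ I).comp (algebraMap 𝒪 T) := rfl
  haveI hloc : IsLocalHom (algebraMap 𝒪 (T ⧸ I)) := by
    rw [halg]
    exact @RingHom.isLocalHom_comp _ _ _ _ _ _ (f : T →+* T ⧸ I) (algebraMap 𝒪 T) hf
      inferInstance
  haveI : Module.Finite 𝒪 (T ⧸ I) := Module.Finite.of_surjective f.toLinearMap hfs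
  haveI : IsAdicComplete (maximalIdeal (T ⧸ I)) (T ⧸ I) :=
    IsLocalRing.isAdicComplete_of_module_finite (𝒪 := 𝒪)
  -- the residue field of the quotient
  have hB : Function.Surjective (residue (T ⧸ I) ∘ algebraMap 𝒪 (T ⧸ I)) := by
    intro y
    obtain ⟨b, rfl⟩ := residue_surjective y
    obtain ⟨t, rfl⟩ := hfs b
    obtain ⟨c, hc⟩ := hT (residue T t)
    refine ⟨c, ?_⟩
    have h1 : algebraMap 𝒪 T c - t ∈ maximalIdeal T := by
      rw [← residue_eq_zero_iff, map_sub, sub_eq_zero]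
      exact hc
    have h2 : f (algebraMap 𝒪 T c - t) ∈ maximalIdeal (T ⧸ I) := by
      rw [mem_maximalIdeal, mem_nonunits_iff] at h1 ⊢
      intro hu
      exact h1 (hf.map_nonunit _ hu)
    rw [Function.comp_apply, ← sub_eq_zero, ← map_sub, residue_eq_zero_iff]
    have h3 : algebraMap 𝒪 (T ⧸ I) c - f t = f (algebraMap 𝒪 T c - t) := by
      rw [map_sub, AlgHom.commutes]
    rw [h3]
    exact h2
  -- the deformation over the quotient
  let ρB : GaloisRepAdic (T ⧸ I) := ρ.baseChangeAlong (f : T →+* T ⧸ I) hf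
  have hρB : 𝒟' ρB := hmarked (T ⧸ I) f hf hfs (fun x hx => by
    show Ideal.Quotient.mk I x = 0
    exact Ideal.Quotient.eq_zero_iff_mem.mpr hx)
  have hresB : ρB.residual.IsEquiv
      (ρbar.baseChangeAlong (ResidueField.map (algebraMap 𝒪 (T ⧸ I)))) := by
    haveI := hf
    have e1 := Fermat.Agent.S53.helper1793.residual_baseChangeAlong (f : T →+* T ⧸ I) ρ
    have e2 := resIsEquiv_baseChangeAlong (ResidueField.map (f : T →+* T ⧸ I)) hres
    have e3 := Fermat.Agent.S53.helper1793.resBaseChangeAlong_comp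
      (ResidueField.map (algebraMap 𝒪 T)) (ResidueField.map (f : T →+* T ⧸ I)) ρbar
    have e4 : (ResidueField.map (f : T →+* T ⧸ I)).comp (ResidueField.map (algebraMap 𝒪 T)) =
        ResidueField.map (algebraMap 𝒪 (T ⧸ I)) := by
      rw [← ResidueField.map_comp]
      rfl
    rw [e4] at e3
    exact resIsEquiv_trans (resIsEquiv_trans e1 e2) e3
  -- the surjection from the big deformation ring
  let ψ : DQ.R →ₐ[𝒪] T ⧸ I := f.comp φ
  have hψs : Function.Surjective ψ := hfs.comp hφs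
  have hψ : IsLocalHom (ψ : DQ.R →+* T ⧸ I) :=
    @RingHom.isLocalHom_comp _ _ _ _ _ _ (f : T →+* T ⧸ I) (φ : DQ.R →+* T) hf hφ
  have hEψ : (DQ.ρ.baseChangeAlong (ψ : DQ.R →+* T ⧸ I) hψ).IsEquiv ρB := by
    have e1 := Fermat.Agent.S53.helper1793.adicBaseChangeAlong_comp (φ : DQ.R →+* T) hφ
      (f : T →+* T ⧸ I) hf hψ DQ.ρ
    have e2 := isEquiv_baseChangeAlong (f : T →+* T ⧸ I) hf hE
    exact isEquiv_trans (isEquiv_symm e1) e2
  obtain ⟨ψ', hψ's⟩ :=
    exists_surjective_of_subcondition h𝒟 DQ D' hB ρB hρB hresB ψ hψs hψ hEψ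
  exact exists_marked_gens ϖ hϖ I hI' (ψ'.comp γ) (hψ's.comp hγ)

end B4

/-! ### (B5) one Taylor–Wiles level: Hecke side + Galois side ⟹ `GaloisPivotLevel` -/

section B5

open Polynomial

/-- **One Taylor–Wiles level of the hard case, before the generator count.**
`𝒟` is the deformation condition of the big ring `R_Q` (no condition at the hard primes), `𝒟'`
the condition of the small ring `R'_Q` (scalar at the hard primes); `ι` indexes the hard primes,
`qv v` is the `v`-th hard prime, `r = #Q`, `d` is the rank of the Taylor–Wiles module, `ϖ` a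
uniformiser of `𝒪`.

The fields `T … hlam` are those of `helper442.GaloisPivotLevel` VERBATIM for
`S = 𝒪⟦s₁..s_r⟧`, `nS = 𝔪_S`, `lam = ϖ` (all its fields except `z`, `hz`, `hgen`), plus the ring
side needed to speak about deformations (`T` noetherian, a finite local `𝒪`-algebra with residue
field that of `𝒪`, `𝒪 → S → T` a tower). The last three fields are the Galois side:
* `hresid` : `ρ` lifts `ρbar`;
* `surj`   : the conclusion of the frozen S54, verbatim, for every deformation ring of type `𝒟`;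
* `marked` : over every quotient of `T` killing the marked entries (those of `ρ(τ_v) - 1` and of
             `ρ(φ_v) - u_v tr ρ(φ_v)` in the frame `b`), `ρ` is of type `𝒟'`
             (stability of `𝒟` under surjective base change + C-TAME at the hard primes). -/
structure GaloisHardLevel (𝒪 : Type) [CommRing 𝒪] [IsDomain 𝒪] [IsDiscreteValuationRing 𝒪]
    [IsAdicComplete (maximalIdeal 𝒪) 𝒪] (ρbar : ResidualGaloisRep (ResidueField 𝒪))
    (𝒟 𝒟' : ∀ ⦃A : Type⦄ [CommRing A] [IsLocalRing A] [Algebra 𝒪 A], GaloisRepAdic A → Prop)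
    (r : ℕ) (ι : Type) (qv : ι → ℕ) (d : ℕ) (ϖ : 𝒪) (k : ι → ℕ) (n : ℕ) : Type 1 where
  /-- the local Hecke algebra at the `n`-th Taylor–Wiles level -/
  T : Type
  [instCommRing : CommRing T]
  [instIsLocalRing : IsLocalRing T]
  [instIsNoetherianRing : IsNoetherianRing T]
  [instAlgebra : Algebra 𝒪 T]
  [instIsLocalHom : IsLocalHom (algebraMap 𝒪 T)]
  [instFinite : Module.Finite 𝒪 T]
  [instAlgebraS : Algebra (MvPowerSeries (Fin r) 𝒪) T]
  [instTowerS : IsScalarTower 𝒪 (MvPowerSeries (Fin r) 𝒪) T]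
  residue_surjective : Function.Surjective (residue T ∘ algebraMap 𝒪 T)
  /-- the Taylor–Wiles module -/
  M : Type
  [instAddCommGroup : AddCommGroup M]
  [instModuleT : Module T M]
  [instModuleS : Module (MvPowerSeries (Fin r) 𝒪) M]
  [instIsScalarTower : IsScalarTower (MvPowerSeries (Fin r) 𝒪) T M]
  e : Fin d → M
  span_e : Submodule.span (MvPowerSeries (Fin r) 𝒪) (Set.range e) = ⊤
  rel_e : ∀ c : Fin d → MvPowerSeries (Fin r) 𝒪, ∑ i, c i • e i = 0 →
    ∀ i, c i ∈ maximalIdeal (MvPowerSeries (Fin r) 𝒪) ^ n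
  /-- the Galois representation over the Hecke ring of the level -/
  ρ : GaloisRepAdic T
  /-- a frame -/
  b : Module.Basis (Fin 2) T ρ.V
  τ : ι → (AlgebraicClosure ℚ ≃ₐ[ℚ] AlgebraicClosure ℚ)
  φ : ι → (AlgebraicClosure ℚ ≃ₐ[ℚ] AlgebraicClosure ℚ)
  hunip : ∀ v, LinearMap.charpoly (ρ.ρ (τ v)) = (X - 1) ^ 2
  htame : ∀ v, ρ.ρ (φ v) * ρ.ρ (τ v) = ρ.ρ (τ v) ^ qv v * ρ.ρ (φ v)
  hres : ∀ v i j, (LinearMap.toMatrix b b (ρ.ρ (τ v)) - 1) i j ∈ maximalIdeal T
  hex : ∀ v, KerLeIm M (LinearMap.toMatrix b b (ρ.ρ (τ v)) - 1)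
  htors : ∀ v (x : M), ((qv v : T) - 1) • x = 0 → x = 0
  u : ι → T
  hu : ∀ v, u v * ((qv v : T) + 1) = 1
  hlam : ∀ v, algebraMap (MvPowerSeries (Fin r) 𝒪) T
      (algebraMap 𝒪 (MvPowerSeries (Fin r) 𝒪) ϖ) ^ k v ∈
    Ideal.span {u v * ((qv v : T) - 1) * (LinearMap.toMatrix b b (ρ.ρ (φ v))).trace}
  hresid : ρ.residual.IsEquiv (ρbar.baseChangeAlong (ResidueField.map (algebraMap 𝒪 T)))
  surj : ∀ DQ : GaloisRep.DeformationRingData 𝒪 ρbar 𝒟,
    ∃ f : DQ.R →ₐ[𝒪] T, Function.Surjective f ∧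
      ∃ hf : IsLocalHom (f : DQ.R →+* T), (DQ.ρ.baseChangeAlong (f : DQ.R →+* T) hf).IsEquiv ρ
  marked : ∀ (B : Type) [CommRing B] [IsLocalRing B] [IsNoetherianRing B] [Algebra 𝒪 B]
    (f : T →ₐ[𝒪] B) (hf : IsLocalHom (f : T →+* B)), Function.Surjective f →
    (∀ v i j, f ((LinearMap.toMatrix b b (ρ.ρ (τ v)) - 1) i j) = 0) →
    (∀ v i j, f ((LinearMap.toMatrix b b (ρ.ρ (φ v)) -
      Matrix.scalar (Fin 2) (u v * (LinearMap.toMatrix b b (ρ.ρ (φ v))).trace)) i j) = 0) →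
    𝒟' (ρ.baseChangeAlong (f : T →+* B) hf)

attribute [instance] GaloisHardLevel.instCommRing GaloisHardLevel.instIsLocalRing
  GaloisHardLevel.instIsNoetherianRing GaloisHardLevel.instAlgebra GaloisHardLevel.instIsLocalHom
  GaloisHardLevel.instFinite GaloisHardLevel.instAlgebraS GaloisHardLevel.instTowerS
  GaloisHardLevel.instAddCommGroup GaloisHardLevel.instModuleT GaloisHardLevel.instModuleS
  GaloisHardLevel.instIsScalarTower

variable {𝒪 : Type} [CommRing 𝒪] [IsDomain 𝒪] [IsDiscreteValuationRing 𝒪]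
  [IsAdicComplete (maximalIdeal 𝒪) 𝒪] {ρbar : ResidualGaloisRep (ResidueField 𝒪)}
  {𝒟 𝒟' : ∀ ⦃A : Type⦄ [CommRing A] [IsLocalRing A] [Algebra 𝒪 A], GaloisRepAdic A → Prop}
  {r : ℕ} {ι : Type} {qv : ι → ℕ} {d : ℕ} {ϖ : 𝒪} {k : ι → ℕ} {n : ℕ}

/-- The ideal of marked entries of a level: the entries of `ρ(τ_v) - 1` and of
`ρ(φ_v) - u_v tr ρ(φ_v)` in the frame `b` (the first summand of `GaloisPivotLevel.hgen`). -/
noncomputable def GaloisHardLevel.markedIdeal (L : GaloisHardLevel 𝒪 ρbar 𝒟 𝒟' r ι qv d ϖ k n) : Ideal L.T :=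
  ⨆ v, entryIdeal (LinearMap.toMatrix L.b L.b (L.ρ.ρ (L.τ v)) - 1) ⊔
    entryIdeal (LinearMap.toMatrix L.b L.b (L.ρ.ρ (L.φ v)) -
      Matrix.scalar (Fin 2) (L.u v * (LinearMap.toMatrix L.b L.b (L.ρ.ρ (L.φ v))).trace))

/-- Supplier-neutral form: a `GaloisHardLevel` together with the generator count (`z`, `hz`,
`hgen`, from ANY supplier) is a `helper442.GaloisPivotLevel`. -/
noncomputable def GaloisHardLevel.toGaloisPivotLevel (L : GaloisHardLevel 𝒪 ρbar 𝒟 𝒟' r ι qv d ϖ k n)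
    {g : ℕ} (z : Fin g → L.T) (hz : ∀ i, z i ∈ maximalIdeal L.T)
    (hgen : maximalIdeal L.T ≤ L.markedIdeal ⊔
      Ideal.span {algebraMap (MvPowerSeries (Fin r) 𝒪) L.T
        (algebraMap 𝒪 (MvPowerSeries (Fin r) 𝒪) ϖ)} ⊔ Ideal.span (Set.range z)) :
    GaloisPivotLevel (MvPowerSeries (Fin r) 𝒪) (maximalIdeal (MvPowerSeries (Fin r) 𝒪)) ι qv d g
      (algebraMap 𝒪 (MvPowerSeries (Fin r) 𝒪) ϖ) k n where
  T := L.T
  M := L.M
  e := L.e
  span_e := L.span_e
  rel_e := L.rel_e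
  ρ := L.ρ
  b := L.b
  τ := L.τ
  φ := L.φ
  hunip := L.hunip
  htame := L.htame
  hres := L.hres
  hex := L.hex
  htors := L.htors
  u := L.u
  hu := L.hu
  hlam := L.hlam
  z := z
  hz := hz
  hgen := hgen

/-- **(B5)** A `GaloisHardLevel`, deformation rings for `𝒟` and for the sub-condition `𝒟'`, and a
surjection `𝒪⟦x₁..x_g⟧ ↠ R'` give a `helper442.GaloisPivotLevel` with `m = g` extra
generators. -/
theorem GaloisHardLevel.nonempty_galoisPivotLevel
    (L : GaloisHardLevel 𝒪 ρbar 𝒟 𝒟' r ι qv d ϖ k n) (hϖ : maximalIdeal 𝒪 = Ideal.span {ϖ})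
    (h𝒟 : ∀ ⦃A : Type⦄ [CommRing A] [IsLocalRing A] [Algebra 𝒪 A] (ρ : GaloisRepAdic A),
      𝒟' ρ → 𝒟 ρ)
    (DQ : GaloisRep.DeformationRingData 𝒪 ρbar 𝒟) (D' : GaloisRep.DeformationRingData 𝒪 ρbar 𝒟')
    {g : ℕ} (γ : MvPowerSeries (Fin g) 𝒪 →ₐ[𝒪] D'.R) (hγ : Function.Surjective γ) :
    Nonempty (GaloisPivotLevel (MvPowerSeries (Fin r) 𝒪)
      (maximalIdeal (MvPowerSeries (Fin r) 𝒪)) ι qv d g
      (algebraMap 𝒪 (MvPowerSeries (Fin r) 𝒪) ϖ) k n) := by
  obtain ⟨f, hfs, hf, hE⟩ := L.surj DQ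
  have hle : ∀ v, entryIdeal (LinearMap.toMatrix L.b L.b (L.ρ.ρ (L.τ v)) - 1) ⊔
      entryIdeal (LinearMap.toMatrix L.b L.b (L.ρ.ρ (L.φ v)) -
        Matrix.scalar (Fin 2) (L.u v * (LinearMap.toMatrix L.b L.b (L.ρ.ρ (L.φ v))).trace)) ≤
      L.markedIdeal := fun v => le_iSup (fun v =>
        entryIdeal (LinearMap.toMatrix L.b L.b (L.ρ.ρ (L.τ v)) - 1) ⊔
        entryIdeal (LinearMap.toMatrix L.b L.b (L.ρ.ρ (L.φ v)) -
          Matrix.scalar (Fin 2) (L.u v * (LinearMap.toMatrix L.b L.b (L.ρ.ρ (L.φ v))).trace))) v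
  obtain ⟨z, hz, hgen⟩ := exists_marked_gens_of_deformation h𝒟 DQ D' L.residue_surjective L.ρ
    L.hresid f hfs hf hE L.markedIdeal
    (fun B _ _ _ _ f' hf' hfs' hf0 => L.marked B f' hf' hfs'
      (fun v i j => hf0 _ (hle v (Ideal.mem_sup_left (entry_mem_entryIdeal _ i j))))
      (fun v i j => hf0 _ (hle v (Ideal.mem_sup_right (entry_mem_entryIdeal _ i j)))))
    ϖ hϖ γ hγ
  have hlam : algebraMap (MvPowerSeries (Fin r) 𝒪) L.T
      (algebraMap 𝒪 (MvPowerSeries (Fin r) 𝒪) ϖ) = algebraMap 𝒪 L.T ϖ :=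
    (IsScalarTower.algebraMap_apply 𝒪 (MvPowerSeries (Fin r) 𝒪) L.T ϖ).symm
  exact ⟨L.toGaloisPivotLevel z hz (by rw [hlam]; exact hgen)⟩

end B5

/-! ### (B6) the leaves of `Stmt_GaloisPivotSystemFlat` and the compiled arrow -/

section B6

open Fermat.Agent.S56.helper2229 Fermat.Agent.S43.helper8397

/-- The hypotheses on a set `H` of hard primes relative to the data `S`, `Smin` of the frozen
S56 (frozen vocabulary; the same four clauses as `helper3595.HardHyp`): `H ⊆ S`, `H` disjoint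
from `Smin`, every `q ∈ H` is `≡ 1 mod p`, and `ρbar` is scalar on every decomposition group
over every `q ∈ H`. -/
structure HardHyp {k : Type} [Field k] (p : ℕ) (ρbar : ResidualGaloisRep k)
    (S Smin H : Finset ℕ) : Prop where
  hHS : H ⊆ S
  hHmin : ∀ q ∈ H, q ∉ Smin
  hH1 : ∀ q ∈ H, p ∣ q - 1
  hHsc : ∀ q ∈ H, ∀ P : ValuationSubring (AlgebraicClosure ℚ), P.LiesOverPrime q →
    ∀ σ ∈ P.decompositionSubgroup ℚ, ∃ a : k, ρbar.ρ σ = a • (1 : Module.End k ρbar.V)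

/-- The small flat condition: the flat condition `S56.helper2229.condFL 𝒪 p Smin T` of the frozen
S56 (ramification in `T`, unipotent inertia on `Smin ∖ {p}`) together with "scalar on every
decomposition group over every prime of `H`". Unfolds to the lambda of
`helper3595.hardGen_FL_frozen_of_leaf` and to `helper3595.condFLH`. -/
def condFLS (𝒪 : Type) [CommRing 𝒪] (p : ℕ) (Smin H T : Finset ℕ) :
    ∀ ⦃A : Type⦄ [CommRing A] [IsLocalRing A] [Algebra 𝒪 A], GaloisRepAdic A → Prop :=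
  fun A _ _ _ ρ => condFL 𝒪 p Smin T ρ ∧
    ∀ q ∈ H, ∀ P : ValuationSubring (AlgebraicClosure ℚ), P.LiesOverPrime q →
      ∀ σ ∈ P.decompositionSubgroup ℚ, ∃ a : A, ρ.ρ σ = a • (1 : Module.End A ρ.V)

theorem condFL_of_condFLS {𝒪 : Type} [CommRing 𝒪] {p : ℕ} {Smin H T : Finset ℕ}
    ⦃A : Type⦄ [CommRing A] [IsLocalRing A] [Algebra 𝒪 A] (ρ : GaloisRepAdic A)
    (h : condFLS 𝒪 p Smin H T ρ) : condFL 𝒪 p Smin T ρ :=
  h.1

/-- **Leaf COUNT, flat half** (= the first half of the conclusion of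
`helper3595.hardGen_FL_of_leaf`, which proves it from the flat leaf `S56.helper2229.Stmt_LocFL`
of the frozen S56): under the hypotheses of the frozen S56 and for a set `H` of hard primes,
there is `r ≥ 3 #H` such that for every `n` there is a Taylor–Wiles family `Q` of `r` primes of
level `n` for which every deformation ring of the small flat type (ramification in
`Smin ∪ H ∪ Q`, scalar at `H`) is a quotient of `𝒪⟦x₁..x_{r - 3 #H}⟧`. -/
def Stmt_HardGenFL : Prop :=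
  ∀ {𝒪 : Type} [CommRing 𝒪] [IsDomain 𝒪] [IsDiscreteValuationRing 𝒪]
    [IsAdicComplete (maximalIdeal 𝒪) 𝒪] [Finite (ResidueField 𝒪)]
    (p : ℕ) [Fact p.Prime] (ρbar : ResidualGaloisRep (ResidueField 𝒪)) (S Smin : Finset ℕ),
    FrozenHyp 𝒪 p ρbar S Smin → ∀ H : Finset ℕ, HardHyp p ρbar S Smin H →
    ∃ r : ℕ, 3 * H.card ≤ r ∧ ∀ n : ℕ, ∃ qv : Fin r → ℕ, IsTWFamily 𝒪 p ρbar S n qv ∧
      ∀ D' : GaloisRep.DeformationRingData 𝒪 ρbar
          (condFLS 𝒪 p Smin H (Smin ∪ H ∪ Finset.univ.image qv)),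
        ∃ γ : MvPowerSeries (Fin (r - 3 * H.card)) 𝒪 →ₐ[𝒪] D'.R, Function.Surjective γ

/-- **Leaf DEF-RING, flat half** (= the landed `Fermat.Agent.S53.result` + C-DEFCOND + C-TANFIN
for the two conditions; compiled in one call by `S56.helper53.nonempty_defRing_condFL` and
`nonempty_defRing_clause`): if `ρbar` itself is of the small flat type with ramification in
`Smin ∪ H`, then for every Taylor–Wiles family `Q` both deformation rings (no condition at `H`;
scalar at `H`) with ramification in `Smin ∪ H ∪ Q` exist. -/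
def Stmt_HardDefRingFL : Prop :=
  ∀ {𝒪 : Type} [CommRing 𝒪] [IsDomain 𝒪] [IsDiscreteValuationRing 𝒪]
    [IsAdicComplete (maximalIdeal 𝒪) 𝒪] [Finite (ResidueField 𝒪)]
    (p : ℕ) [Fact p.Prime] (ρbar : ResidualGaloisRep (ResidueField 𝒪)) (S Smin H : Finset ℕ),
    FrozenHyp 𝒪 p ρbar S Smin → HardHyp p ρbar S Smin H →
    condFLS 𝒪 p Smin H (Smin ∪ H) (GaloisRepAdic.ofResidualGaloisRep ρbar) →
    ∀ (r n : ℕ) (qv : Fin r → ℕ), IsTWFamily 𝒪 p ρbar S n qv →
      Nonempty (GaloisRep.DeformationRingData 𝒪 ρbar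
        (condFL 𝒪 p Smin (Smin ∪ H ∪ Finset.univ.image qv))) ∧
      Nonempty (GaloisRep.DeformationRingData 𝒪 ρbar
        (condFLS 𝒪 p Smin H (Smin ∪ H ∪ Finset.univ.image qv)))

/-- **Leaf LEVELS, flat half** (everything on the Hecke side: DICT, COEFF-RING, FREY-RAM2,
H-ASM, F5 local shapes, X0 + L-NAK, C-TAME): at a minimal conductor level `N` prime to `p` of
modularity all of whose removable primes are hard, and which has one, there are a coefficient
ring `𝒪`, the residual representation `ρbar` with the hypotheses of the frozen S56, the set `H`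
of hard primes, a rank `d`, a uniformiser `ϖ` and exponents `k`, such that EVERY Taylor–Wiles
family `Q` (any size `r`, any level `n`) carries a `GaloisHardLevel` (hard primes indexed by
`H` itself). -/
def Stmt_GaloisHardLevelsFL : Prop :=
  ∀ (P : FreyPackage) (N : ℕ), P.IsConductorLevel N → ¬ P.p ∣ N → Irr P →
    P.ModularRepOfLevel N → MinimalLevel P N → (∃ q, Removable P N q) →
    (∀ q, Removable P N q → HardPrime P q) →
    ∃ (𝒪 : Type) (_ : CommRing 𝒪) (_ : IsDomain 𝒪) (_ : IsDiscreteValuationRing 𝒪)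
      (_ : IsAdicComplete (maximalIdeal 𝒪) 𝒪) (_ : Finite (ResidueField 𝒪))
      (ρbar : ResidualGaloisRep (ResidueField 𝒪)) (S Smin H : Finset ℕ),
      FrozenHyp 𝒪 P.p ρbar S Smin ∧ HardHyp P.p ρbar S Smin H ∧ H.Nonempty ∧
      condFLS 𝒪 P.p Smin H (Smin ∪ H) (GaloisRepAdic.ofResidualGaloisRep ρbar) ∧
      ∃ (d : ℕ) (ϖ : 𝒪) (k : {q : ℕ // q ∈ H} → ℕ), 0 < d ∧
        maximalIdeal 𝒪 = Ideal.span {ϖ} ∧
        ∀ (r n : ℕ) (qv : Fin r → ℕ), IsTWFamily 𝒪 P.p ρbar S n qv →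
          Nonempty (GaloisHardLevel 𝒪 ρbar
            (condFL 𝒪 P.p Smin (Smin ∪ H ∪ Finset.univ.image qv))
            (condFLS 𝒪 P.p Smin H (Smin ∪ H ∪ Finset.univ.image qv)) r {q : ℕ // q ∈ H}
            (fun v => (v : ℕ)) d ϖ k n)

/-- **(B6)** The flat half of the layer-2 leaf of the Spec of record from the three leaves.
With `helper442.result_of_galois_flat`: frozen S43 ⟸ frozen S44 + `Stmt_MPMin HardPrime` +
`Stmt_HardGenFL` + `Stmt_HardDefRingFL` + `Stmt_GaloisHardLevelsFL`. -/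
theorem stmt_GaloisPivotSystemFlat_of_leaves (hGen : Stmt_HardGenFL)
    (hDef : Stmt_HardDefRingFL) (hLev : Stmt_GaloisHardLevelsFL) :
    Stmt_GaloisPivotSystemFlat := by
  intro P N hN hpN hirr hmod hmin hex hall
  obtain ⟨𝒪, _, _, _, _, _, ρbar, S, Smin, H, hyp, hH, hHne, hbar, d, ϖ, k, hd, hϖ, hlev⟩ :=
    hLev P N hN hpN hirr hmod hmin hex hall
  haveI : Fact P.p.Prime := ⟨P.pp⟩
  obtain ⟨r, h3, hr⟩ := hGen P.p ρbar S Smin hyp H hH
  have hlevel : ∀ n : ℕ, Nonempty (GaloisPivotLevel (MvPowerSeries (Fin r) 𝒪)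
      (maximalIdeal (MvPowerSeries (Fin r) 𝒪)) {q : ℕ // q ∈ H} (fun v => (v : ℕ)) d
      (r - 3 * H.card) (algebraMap 𝒪 (MvPowerSeries (Fin r) 𝒪) ϖ) k n) := by
    intro n
    obtain ⟨qv, htw, hγ⟩ := hr n
    obtain ⟨⟨DQ⟩, ⟨D'⟩⟩ := hDef P.p ρbar S Smin H hyp hH hbar r n qv htw
    obtain ⟨L⟩ := hlev r n qv htw
    obtain ⟨γ, hγs⟩ := hγ D'
    exact L.nonempty_galoisPivotLevel hϖ (fun A _ _ _ ρ h => condFL_of_condFLS ρ h) DQ D' γ hγs
  haveI : Nonempty {q : ℕ // q ∈ H} := hHne.to_subtype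
  exact ⟨galoisPivotSystemOfPowerSeries 𝒪 r {q : ℕ // q ∈ H} (fun v => (v : ℕ)) d hd
    (r - 3 * H.card) (by rw [Fintype.card_coe]; omega)
    (algebraMap 𝒪 (MvPowerSeries (Fin r) 𝒪) ϖ) k (fun n => (hlevel n).some)⟩

end B6

end Fermat.Agent.S43.helper6884
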